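import Fermat.Prelude.Def_AlgebraicCurve_Correspondence

/-!
# Functoriality of pullback and pushforward of divisors along homomorphisms

Restriction of places, ramification, pullback, pushforward and correspondences are compatible with
composition of homomorphisms of function fields and with semilinear automorphisms. Used for
commutation of Hecke correspondences with each other and with Galois.
-/

noncomputable section

namespace Fermat.Agent.Hecke

open AlgebraicCurve
open scoped Pointwise

variable {K : Type*} [Field K] {F F' F'' : Type*} [Field F] [Field F'] [Field F'']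
  [Algebra K F] [Algebra K F'] [Algebra K F'']

theorem restrictAlong_toValuationSubring (φ : F →ₐ[K] F') (hφ : φ.toRingHom.IsIntegral)
    (w : Place K F') :
    (w.restrictAlong φ hφ).toValuationSubring = w.toValuationSubring.comap φ.toRingHom := rfl

theorem exists_ord_eq_one (v : Place K F) : ∃ f : F, f ≠ 0 ∧ v.ord f = 1 := by
  obtain ⟨π, hπ⟩ := IsDiscreteValuationRing.exists_irreducible v.toValuationSubring
  exact ⟨π, by simpa [ne_eq, ZeroMemClass.coe_eq_zero] using hπ.ne_zero, v.ord_coe_irreducible hπ⟩

/-- Characterisation of the ramification index. -/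
theorem ramificationIndexAlong_eq (φ : F →ₐ[K] F') (hφ : φ.toRingHom.IsIntegral)
    (w : Place K F') {f : F} (hf : (w.restrictAlong φ hφ).ord f = 1) :
    (w.ramificationIndexAlong φ : ℤ) = w.ord (φ f) := by
  rw [Place.ord_restrictAlong φ hφ w f, hf, mul_one]

theorem deg_restrictAlong_mul (φ : F →ₐ[K] F') (hφ : φ.toRingHom.IsIntegral) (w : Place K F') :
    (w.restrictAlong φ hφ).deg * w.inertiaDegAlong φ hφ = w.deg := by
  let := algebraAlong φ
  have := isScalarTower_along φ
  have := isIntegral_along φ hφ
  exact w.deg_restrict_mul_inertiaDeg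

theorem inertiaDegAlong_eq_one (φ : F →ₐ[K] F') (hφ : φ.toRingHom.IsIntegral) (w : Place K F')
    (hw : w.deg = 1) : w.inertiaDegAlong φ hφ = 1 :=
  Nat.eq_one_of_mul_eq_one_left ((deg_restrictAlong_mul φ hφ w).trans hw)

theorem pushforwardAlong_single_one (φ : F →ₐ[K] F') (hφ : φ.toRingHom.IsIntegral)
    (w : Place K F') (hw : w.deg = 1) (n : ℤ) :
    Divisor.pushforwardAlong φ hφ (Finsupp.single w n)
      = Finsupp.single (w.restrictAlong φ hφ) n := by
  rw [Divisor.pushforwardAlong_single, inertiaDegAlong_eq_one φ hφ w hw, Nat.cast_one, mul_one]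

/-- Two maps out of divisors agree when they agree on points. -/
theorem divisor_hom_ext {M : Type*} [AddZeroClass M] {f g : Divisor K F →+ M}
    (h : ∀ (v : Place K F) (n : ℤ), f (Finsupp.single v n) = g (Finsupp.single v n)) : f = g :=
  Finsupp.addHom_ext h

/-! ## Composition -/

section Comp

variable (φ : F →ₐ[K] F') (ψ : F' →ₐ[K] F'')
variable (hφ : φ.toRingHom.IsIntegral) (hψ : ψ.toRingHom.IsIntegral)

theorem isIntegral_comp {φ : F →ₐ[K] F'} {ψ : F' →ₐ[K] F''} (hφ : φ.toRingHom.IsIntegral)
    (hψ : ψ.toRingHom.IsIntegral) : (ψ.comp φ).toRingHom.IsIntegral := by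
  rw [AlgHom.toRingHom_eq_coe, AlgHom.comp_toRingHom]
  exact RingHom.IsIntegral.trans _ _ hφ hψ

theorem restrictAlong_comp (hψφ : (ψ.comp φ).toRingHom.IsIntegral) (w : Place K F'') :
    w.restrictAlong (ψ.comp φ) hψφ = (w.restrictAlong ψ hψ).restrictAlong φ hφ :=
  Place.ext (SetLike.ext fun _ => Iff.rfl)

include hφ in
theorem ramificationIndexAlong_comp (w : Place K F'') :
    w.ramificationIndexAlong (ψ.comp φ) =
      w.ramificationIndexAlong ψ * (w.restrictAlong ψ hψ).ramificationIndexAlong φ := by
  have hψφ := isIntegral_comp hφ hψ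
  obtain ⟨f, -, hf⟩ := exists_ord_eq_one (w.restrictAlong (ψ.comp φ) hψφ)
  have h1 := ramificationIndexAlong_eq _ hψφ w hf
  rw [restrictAlong_comp φ ψ hφ hψ] at hf
  have h2 := ramificationIndexAlong_eq φ hφ _ hf
  rw [AlgHom.comp_apply, Place.ord_restrictAlong ψ hψ, ← h2] at h1
  exact_mod_cast h1

theorem pullbackAlong_comp [HasPrincipalDivisors K F'] [HasPrincipalDivisors K F'']
    (hψφ : (ψ.comp φ).toRingHom.IsIntegral) (D : Divisor K F) :
    Divisor.pullbackAlong (ψ.comp φ) hψφ D =
      Divisor.pullbackAlong ψ hψ (Divisor.pullbackAlong φ hφ D) :=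
  Finsupp.ext fun w => by
    rw [Divisor.pullbackAlong_apply, Divisor.pullbackAlong_apply, Divisor.pullbackAlong_apply,
      restrictAlong_comp φ ψ hφ hψ, ramificationIndexAlong_comp φ ψ hφ hψ, Nat.cast_mul, mul_assoc]

theorem pushforwardAlong_comp (hdeg : ∀ w : Place K F'', w.deg = 1)
    (hdeg' : ∀ w : Place K F', w.deg = 1)
    (hψφ : (ψ.comp φ).toRingHom.IsIntegral) (D : Divisor K F'') :
    Divisor.pushforwardAlong (ψ.comp φ) hψφ D =
      Divisor.pushforwardAlong φ hφ (Divisor.pushforwardAlong ψ hψ D) := by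
  refine DFunLike.congr_fun (divisor_hom_ext (g := (Divisor.pushforwardAlong φ hφ).comp
    (Divisor.pushforwardAlong ψ hψ)) fun w n => ?_) D
  rw [AddMonoidHom.comp_apply, pushforwardAlong_single_one _ _ w (hdeg w),
    pushforwardAlong_single_one _ _ w (hdeg w), pushforwardAlong_single_one _ _ _ (hdeg' _),
    restrictAlong_comp φ ψ hφ hψ]

end Comp

/-! ## Semilinear automorphisms -/

section Semilinear

variable (φ : F →ₐ[K] F') (hφ : φ.toRingHom.IsIntegral)
variable {g : SemilinearAut K F} {g' : SemilinearAut K F'}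

theorem restrictAlong_smul (h : SemilinearAut.IntertwinesAlong φ.toRingHom g g')
    (w : Place K F') : (g' • w).restrictAlong φ hφ = g • (w.restrictAlong φ hφ) := by
  refine Place.ext (SetLike.ext fun x => ?_)
  rw [restrictAlong_toValuationSubring, SemilinearAut.smul_toValuationSubring,
    SemilinearAut.smul_toValuationSubring, restrictAlong_toValuationSubring,
    ValuationSubring.mem_comap, ValuationSubring.mem_pointwise_smul_iff_inv_smul_mem,
    ValuationSubring.mem_pointwise_smul_iff_inv_smul_mem, ValuationSubring.mem_comap, h.inv x]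

theorem ramificationIndexAlong_smul (h : SemilinearAut.IntertwinesAlong φ.toRingHom g g')
    (hφ : φ.toRingHom.IsIntegral) (w : Place K F') :
    (g' • w).ramificationIndexAlong φ = w.ramificationIndexAlong φ := by
  obtain ⟨f, -, hf⟩ := exists_ord_eq_one (w.restrictAlong φ hφ)
  have h1 := ramificationIndexAlong_eq φ hφ w hf
  have hf' : ((g' • w).restrictAlong φ hφ).ord (g • f) = 1 := by
    rw [restrictAlong_smul φ hφ h, SemilinearAut.ord_smul, hf]
  have h2 := ramificationIndexAlong_eq φ hφ (g' • w) hf'
  rw [show φ (g • f) = g' • φ f from (h f).symm, SemilinearAut.ord_smul, ← h1] at h2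
  exact_mod_cast h2

theorem pullbackAlong_smul [HasPrincipalDivisors K F']
    (h : SemilinearAut.IntertwinesAlong φ.toRingHom g g') (D : Divisor K F) :
    Divisor.pullbackAlong φ hφ (g • D) = g' • Divisor.pullbackAlong φ hφ D :=
  Finsupp.ext fun w => by
    rw [SemilinearAut.divisor_smul_apply, Divisor.pullbackAlong_apply,
      Divisor.pullbackAlong_apply, SemilinearAut.divisor_smul_apply,
      restrictAlong_smul φ hφ h.inv, ramificationIndexAlong_smul φ h.inv hφ]

/-- Pushforward intertwines compatible semilinear automorphisms. -/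
theorem pushforwardAlong_smul (hdeg : ∀ w : Place K F', w.deg = 1)
    (h : SemilinearAut.IntertwinesAlong φ.toRingHom g g') (D : Divisor K F') :
    Divisor.pushforwardAlong φ hφ (g' • D) = g • Divisor.pushforwardAlong φ hφ D := by
  refine DFunLike.congr_fun (divisor_hom_ext
    (f := (Divisor.pushforwardAlong φ hφ).comp (DistribSMul.toAddMonoidHom _ g'))
    (g := (DistribSMul.toAddMonoidHom _ g).comp (Divisor.pushforwardAlong φ hφ)) fun w n => ?_) D
  simp only [AddMonoidHom.comp_apply, DistribSMul.toAddMonoidHom_apply, SemilinearAut.smul_single,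
    pushforwardAlong_single_one _ _ _ (hdeg _), restrictAlong_smul φ hφ h]

/-- A correspondence of intertwining maps commutes with semilinear automorphisms. -/
theorem correspondence_smul [HasPrincipalDivisors K F'] (ψ : F →ₐ[K] F')
    (hψ : ψ.toRingHom.IsIntegral) (hdeg : ∀ w : Place K F', w.deg = 1)
    (h : SemilinearAut.IntertwinesAlong φ.toRingHom g g')
    (h' : SemilinearAut.IntertwinesAlong ψ.toRingHom g g') (D : Divisor K F) :
    Divisor.correspondence φ ψ hφ hψ (g • D) = g • Divisor.correspondence φ ψ hφ hψ D := by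
  rw [Divisor.correspondence_apply, Divisor.correspondence_apply, pullbackAlong_smul φ hφ h,
    pushforwardAlong_smul ψ hψ hdeg h']

/-- Correspondences intertwine compatible semilinear automorphisms. -/
theorem pic0_correspondence_smul [HasPrincipalDivisors K F'] (ψ : F →ₐ[K] F')
    (hψ : ψ.toRingHom.IsIntegral) (hdeg : ∀ w : Place K F', w.deg = 1)
    (hFI : FundamentalIdentityAlong K φ hφ) (hfin : FiniteAlong K ψ)
    (hN : NormFormulaAlong K ψ hfin)
    (h : SemilinearAut.IntertwinesAlong φ.toRingHom g g')
    (h' : SemilinearAut.IntertwinesAlong ψ.toRingHom g g') (x : Pic0 K F) :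
    Pic0.correspondence φ ψ hφ hψ hFI hfin hN (g • x) =
      g • Pic0.correspondence φ ψ hφ hψ hFI hfin hN x := by
  obtain ⟨D, rfl⟩ := Pic0.mk_surjective x
  rw [SemilinearAut.pic0_smul_mk, Pic0.correspondence_mk, Pic0.correspondence_mk,
    SemilinearAut.pic0_smul_mk]
  exact congrArg Pic0.mk (Subtype.ext (correspondence_smul φ hφ ψ hψ hdeg h h' D.1))

end Semilinear

end Fermat.Agent.Hecke
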