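import Mathlib.LinearAlgebra.Dimension.OrzechProperty
import Mathlib.RingTheory.Algebraic.Integral
import Mathlib.RingTheory.Norm.Basic
import Fermat.Agent.Hecke.Along

/-!
# Base change: `β^* α_* = A_* B^*` on divisors, for a linearly disjoint square of function fields

Norms and divisor maps commute with base change along such a square. This is what makes the Hecke
correspondences at different primes commute.
-/

noncomputable section

namespace Fermat.Agent.Hecke

open AlgebraicCurve

variable {K : Type*} [Field K] {F F₁ F₂ Z : Type*} [Field F] [Field F₁] [Field F₂] [Field Z]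
  [Algebra K F] [Algebra K F₁] [Algebra K F₂] [Algebra K Z]

/-- The norm along a homomorphism. -/
def normAlong (φ : F →ₐ[K] F₁) : F₁ →* F :=
  letI := algebraAlong φ
  Algebra.norm F

/-- The pushforward of the divisor of `f` is the divisor of its norm. -/
theorem pushforwardAlong_eq_ord_normAlong (φ : F →ₐ[K] F₁) (hφ : φ.toRingHom.IsIntegral)
    (hfin : FiniteAlong K φ) (hN : NormFormulaAlong K φ hfin) {f : F₁} (hf : f ≠ 0)
    {D : Divisor K F₁} (hD : ∀ w, D w = w.ord f) (v : Place K F) :
    Divisor.pushforwardAlong φ hφ D v = v.ord (normAlong φ f) := by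
  let := algebraAlong φ
  have := isScalarTower_along φ
  have := isIntegral_along φ hφ
  exact hN f hf D hD v

/-- The pullback of the divisor of `f` is the divisor of its image. -/
theorem pullbackAlong_apply_eq_ord [HasPrincipalDivisors K F₁] (φ : F →ₐ[K] F₁)
    (hφ : φ.toRingHom.IsIntegral) {f : F} {D : Divisor K F} (hD : ∀ v, D v = v.ord f)
    (w : Place K F₁) : Divisor.pullbackAlong φ hφ D w = w.ord (φ f) := by
  rw [Divisor.pullbackAlong_apply, hD, Place.ord_restrictAlong φ hφ]

theorem pushforwardAlong_apply_eq_zero (φ : F →ₐ[K] F₁) (hφ : φ.toRingHom.IsIntegral)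
    {D : Divisor K F₁} {v : Place K F}
    (h : ∀ w : Place K F₁, w.restrictAlong φ hφ = v → D w = 0) :
    Divisor.pushforwardAlong φ hφ D v = 0 := by
  classical
  let := algebraAlong φ
  have := isScalarTower_along φ
  have := isIntegral_along φ hφ
  show Divisor.pushforward F D v = 0
  rw [Divisor.pushforward_apply]
  refine Finset.sum_eq_zero fun w _ => ?_
  split_ifs with hw
  · rw [h w hw, zero_mul]
  · rfl

section Basis

variable {F F₁ G G₁ ι : Type*} [Field F] [Field F₁] [Field G] [Field G₁] [Algebra F F₁]
  [Algebra G G₁] [Fintype ι] (b : Module.Basis ι F F₁) {B₀ : F →+* G} {B : F₁ →+* G₁}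
  (hc : ∀ a, B (algebraMap F F₁ a) = algebraMap G G₁ (B₀ a))

include hc

/-- If a field extension is generated by the image of another one, so is it spanned by the image
of a basis. -/
theorem span_range_basis_eq_top [Module.Finite G G₁]
    (hgen : Subfield.closure (Set.range (algebraMap G G₁) ∪ Set.range B) = ⊤) :
    ⊤ ≤ Submodule.span G (Set.range (B ∘ b)) := by
  let S : Submodule G G₁ := Submodule.span G (Set.range (B ∘ b))
  have hB : ∀ y : F₁, B y ∈ S := fun y => by
    rw [← b.sum_repr y]
    simp only [map_sum, Algebra.smul_def, map_mul, hc]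
    refine S.sum_mem fun i _ => ?_
    rw [← Algebra.smul_def]
    exact S.smul_mem _ (Submodule.subset_span ⟨i, rfl⟩)
  have hmul : ∀ y ∈ S, ∀ y' ∈ S, y * y' ∈ S := by
    intro y hy y' hy'
    induction hy using Submodule.span_induction with
    | zero => simp
    | add y₁ y₂ _ _ h₁ h₂ => rw [add_mul]; exact S.add_mem h₁ h₂
    | smul a y _ hy => rw [smul_mul_assoc]; exact S.smul_mem a hy
    | mem y hy =>
      obtain ⟨i, rfl⟩ := hy
      induction hy' using Submodule.span_induction with
      | zero => simp
      | add y₁ y₂ _ _ h₁ h₂ => rw [mul_add]; exact S.add_mem h₁ h₂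
      | smul a y _ hy => rw [mul_smul_comm]; exact S.smul_mem a hy
      | mem y hy =>
        obtain ⟨j, rfl⟩ := hy
        simpa only [Function.comp_apply, ← map_mul] using hB (b i * b j)
  let T : Subalgebra G G₁ :=
    S.toSubalgebra (by simpa using hB 1) (fun y y' hy hy' => hmul y hy y' hy')
  intro z _
  have halg : ∀ y : G₁, IsAlgebraic G y := fun y => Algebra.IsAlgebraic.isAlgebraic y
  let T' : Subfield G₁ :=
    { T.toSubring with inv_mem' := fun y hy => T.inv_mem_of_algebraic (x := ⟨y, hy⟩) (halg y) }
  have hle : Subfield.closure (Set.range (algebraMap G G₁) ∪ Set.range B) ≤ T' := by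
    rw [Subfield.closure_le]
    rintro y (⟨a, rfl⟩ | ⟨a, rfl⟩)
    · exact T.algebraMap_mem a
    · exact hB a
  rw [hgen] at hle
  exact hle (Subfield.mem_top z)

/-- Norms commute with a map of extensions carrying one basis to another. -/
theorem map_norm_eq_norm [DecidableEq ι] {b' : Module.Basis ι G G₁} (hb' : ∀ i, b' i = B (b i))
    (h : F₁) : B₀ (Algebra.norm F h) = Algebra.norm G (B h) := by
  have hM : Algebra.leftMulMatrix b' (B h) = (Algebra.leftMulMatrix b h).map B₀ := by
    ext i j
    have e : B h * b' j = ∑ k, B₀ (Algebra.leftMulMatrix b h k j) • b' k := by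
      rw [hb', ← map_mul, ← b.sum_repr (h * b j), map_sum]
      refine Finset.sum_congr rfl fun k _ => ?_
      rw [Algebra.smul_def, map_mul, hc, hb', ← Algebra.smul_def,
        Algebra.leftMulMatrix_eq_repr_mul]
    rw [Algebra.leftMulMatrix_eq_repr_mul, e, map_sum, Matrix.map_apply]
    simp [Finsupp.single_apply]
  rw [Algebra.norm_eq_matrix_det b, Algebra.norm_eq_matrix_det b', hM]
  exact RingHom.map_det B₀ _

end Basis

variable [HasPrincipalDivisors K F₁] [HasPrincipalDivisors K F₂] [HasPrincipalDivisors K Z]
variable {α : F →ₐ[K] F₁} {β : F →ₐ[K] F₂} {A : F₂ →ₐ[K] Z} {B : F₁ →ₐ[K] Z}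

/-- Base change for divisors. -/
theorem pullback_pushforward_eq (hsq : A.comp β = B.comp α)
    (hα : α.toRingHom.IsIntegral) (hβ : β.toRingHom.IsIntegral)
    (hA : A.toRingHom.IsIntegral) (hB : B.toRingHom.IsIntegral)
    (hfα : FiniteAlong K α) (hNα : NormFormulaAlong K α hfα)
    (hfA : FiniteAlong K A) (hNA : NormFormulaAlong K A hfA)
    (hnorm : ∀ h : F₁, β (normAlong α h) = normAlong A (B h))
    (happrox : ∀ (S : Finset (Place K F₁)) (n : Place K F₁ → ℤ),
      ∃ f : F₁, f ≠ 0 ∧ ∀ v ∈ S, v.ord f = n v) (D : Divisor K F₁) :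
    Divisor.pullbackAlong β hβ (Divisor.pushforwardAlong α hα D) =
      Divisor.pushforwardAlong A hA (Divisor.pullbackAlong B hB D) := by
  classical
  set R := (Divisor.pullbackAlong β hβ).comp (Divisor.pushforwardAlong α hα) with hR
  set L := (Divisor.pushforwardAlong A hA).comp (Divisor.pullbackAlong B hB) with hL
  have hover : ∀ w : Place K Z, (w.restrictAlong A hA).restrictAlong β hβ =
      (w.restrictAlong B hB).restrictAlong α hα := fun w => by
    rw [← restrictAlong_comp β A hβ hA (isIntegral_comp hβ hA),
      ← restrictAlong_comp α B hα hB (isIntegral_comp hα hB)]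
    exact Place.restrictAlong_congr hsq _ _ w
  -- the value at `u` only depends on the part of the divisor over the image of `u`
  have hloc : ∀ (E : Divisor K F₁) (u : Place K F₂),
      (∀ x : Place K F₁, x.restrictAlong α hα = u.restrictAlong β hβ → E x = 0) →
        R E u = 0 ∧ L E u = 0 := by
    intro E u hE
    constructor
    · rw [hR, AddMonoidHom.comp_apply, Divisor.pullbackAlong_apply,
        pushforwardAlong_apply_eq_zero α hα hE, mul_zero]
    · rw [hL, AddMonoidHom.comp_apply]
      refine pushforwardAlong_apply_eq_zero A hA fun w hw => ?_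
      rw [Divisor.pullbackAlong_apply, hE, mul_zero]
      rw [← hover, hw]
  suffices h : ∀ x : Place K F₁, R (Finsupp.single x 1) = L (Finsupp.single x 1) by
    refine DFunLike.congr_fun (divisor_hom_ext (f := R) (g := L) fun x n => ?_) D
    rw [← Finsupp.smul_single_one, map_zsmul, map_zsmul, h]
  intro x
  ext u
  by_cases hu : x.restrictAlong α hα = u.restrictAlong β hβ
  swap
  · have h0 : ∀ y : Place K F₁, y.restrictAlong α hα = u.restrictAlong β hβ →
        Finsupp.single x (1 : ℤ) y = 0 :=
      fun y hy => Finsupp.single_eq_of_ne fun e => hu (e ▸ hy)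
    rw [(hloc _ u h0).1, (hloc _ u h0).2]
  obtain ⟨f, hf0, hf⟩ := happrox (Place.fiberAlong α hα (x.restrictAlong α hα))
    (fun y => if y = x then 1 else 0)
  obtain ⟨E, hE, -⟩ := HasPrincipalDivisors.exists_divisor (K := K) f hf0
  have hprin : R E u = L E u := by
    rw [hR, hL, AddMonoidHom.comp_apply, AddMonoidHom.comp_apply, Divisor.pullbackAlong_apply,
      pushforwardAlong_eq_ord_normAlong α hα hfα hNα hf0 hE,
      ← Place.ord_restrictAlong β hβ, hnorm,
      pushforwardAlong_eq_ord_normAlong A hA hfA hNA
        ((map_ne_zero_iff B B.toRingHom.injective).mpr hf0)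
        (pullbackAlong_apply_eq_ord B hB hE)]
  have hrest := hloc (E - Finsupp.single x 1) u fun y hy => by
    rw [Finsupp.sub_apply, hE, hf y (Place.mem_fiberAlong.mpr (hy.trans hu.symm))]
    split_ifs with h
    · rw [h, Finsupp.single_eq_same, sub_self]
    · rw [Finsupp.single_eq_of_ne h, sub_self]
  rw [map_sub, map_sub, Finsupp.sub_apply, Finsupp.sub_apply, sub_eq_zero, sub_eq_zero] at hrest
  rw [← hrest.1, hprin, hrest.2]

omit [HasPrincipalDivisors K F₁] [HasPrincipalDivisors K F₂] [HasPrincipalDivisors K Z] in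
/-- Norms commute with base change along a linearly disjoint square. -/
theorem normAlong_baseChange (hsq : A.comp β = B.comp α) (hfα : FiniteAlong K α)
    (hfA : FiniteAlong K A) (hdeg : finrankAlong K A = finrankAlong K α)
    (hgen : Subfield.closure (Set.range A ∪ Set.range B) = ⊤) (h : F₁) :
    β (normAlong α h) = normAlong A (B h) := by
  let := algebraAlong α
  let := algebraAlong A
  have : Module.Finite F F₁ := hfα
  have : Module.Finite F₂ Z := hfA
  have hc : ∀ a : F, B (algebraMap F F₁ a) = algebraMap F₂ Z (β a) := fun a =>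
    (DFunLike.congr_fun hsq a).symm
  let b := Module.finBasis F F₁
  have hspan : ⊤ ≤ Submodule.span F₂ (Set.range (B ∘ b)) :=
    span_range_basis_eq_top b (B₀ := β.toRingHom) (B := B.toRingHom) hc hgen
  have hcard : Fintype.card (Fin (Module.finrank F F₁)) = Module.finrank F₂ Z := by
    rw [Fintype.card_fin]; exact hdeg.symm
  let b' : Module.Basis (Fin (Module.finrank F F₁)) F₂ Z :=
    basisOfTopLeSpanOfCardEqFinrank (B ∘ b) hspan hcard
  have hb' : ∀ i, b' i = B (b i) := fun i => by
    simp [b', coe_basisOfTopLeSpanOfCardEqFinrank]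
  exact map_norm_eq_norm b (B₀ := β.toRingHom) (B := B.toRingHom) hc hb' h

end Fermat.Agent.Hecke
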