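import Fermat.Agent.FF.Extension
import Fermat.Agent.Hecke.BaseChange

/-!
# Maps of function fields over an algebraically closed field are finite, with their formulas

Every homomorphism of one variable function fields over an algebraically closed field is finite and
satisfies the fundamental identity and the norm formula for divisors.
-/

noncomputable section

open IntermediateField AlgebraicCurve

namespace Fermat.Agent.Hecke

variable {K : Type*} [Field K] {F F' : Type*} [Field F] [Field F'] [Algebra K F] [Algebra K F']

/-- Degrees along a map of function fields, computed over a purely transcendental subfield. -/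
theorem finrank_adjoin_apply (φ : F →ₐ[K] F') (t : F) :
    Module.finrank K⟮φ t⟯ F' = Module.finrank K⟮t⟯ F * finrankAlong K φ := by
  let := algebraAlong φ
  have := isScalarTower_along φ
  show _ = _ * Module.finrank F F'
  rw [Module.finrank_mul_finrank]
  have hmap : K⟮t⟯.map φ = K⟮φ t⟯ := by
    rw [IntermediateField.adjoin_map, Set.image_singleton]
  let e : K⟮t⟯ ≃ₐ[K] K⟮φ t⟯ :=
    (IntermediateField.equivMap K⟮t⟯ φ).trans (IntermediateField.equivOfEq hmap)
  exact (Algebra.finrank_eq_of_equiv_equiv e.toRingEquiv (RingEquiv.refl F') rfl).symm

variable [FF.IsFunctionField K F] [FF.IsFunctionField K F'] (φ : F →ₐ[K] F')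

/-- A map of function fields is finite. -/
theorem finiteAlong : FiniteAlong K φ := by
  obtain ⟨t, ht, hfin⟩ := FF.IsFunctionField.exists_transcendental (K := K) (F := F)
  have htr : Transcendental K (φ t) := fun h =>
    ht ((isAlgebraic_algHom_iff φ φ.toRingHom.injective).mp h)
  have := FF.finiteDimensional_adjoin_of_transcendental htr
  have h : 0 < Module.finrank K⟮t⟯ F * finrankAlong K φ := by
    rw [← finrank_adjoin_apply]; exact Module.finrank_pos
  let := algebraAlong φ
  exact Module.finite_of_finrank_pos (Nat.pos_of_mul_pos_left h)

theorem finrankAlong_pos : 0 < finrankAlong K φ := by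
  let := algebraAlong φ
  have : Module.Finite F F' := finiteAlong φ
  exact Module.finrank_pos (R := F) (M := F')

/-- A map of function fields is integral. -/
theorem isIntegralAlong : φ.toRingHom.IsIntegral := by
  let := algebraAlong φ
  have : Module.Finite F F' := finiteAlong φ
  exact fun x => Algebra.IsIntegral.isIntegral (R := F) x

variable [IsAlgClosed K]

/-- The fundamental identity `∑ e f = deg` for a map of function fields. -/
theorem fundamentalIdentityAlong (hφ : φ.toRingHom.IsIntegral) :
    FundamentalIdentityAlong K φ hφ := by
  let := algebraAlong φ
  have := isScalarTower_along φ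
  have : Module.Finite F F' := finiteAlong φ
  have := isIntegral_along φ hφ
  show FundamentalIdentity K F F'
  exact FF.fundamentalIdentity

/-- The norm formula for divisors along a map of function fields. -/
theorem normFormulaAlong (hfin : FiniteAlong K φ) : NormFormulaAlong K φ hfin := by
  let := algebraAlong φ
  have := isScalarTower_along φ
  have : Module.Finite F F' := hfin
  have : Algebra.IsIntegral F F' := Algebra.IsIntegral.of_finite F F'
  exact FF.pushforwardNormFormula

end Fermat.Agent.Hecke

end
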