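import Fermat.Prelude.Def_ModularCurve_HeckeModule
import Fermat.Agent.FF.Modular
import Fermat.Agent.Hecke.Curves

/-!
# The inputs of the Hecke correspondences on `X₀(N)` over an algebraically closed field

Finiteness, integrality and degree of the two degeneracy maps `X₀(Nℓ) → X₀(N)`, so the Hecke
operator is defined on divisor classes for every `ℓ`.
-/

noncomputable section

open IntermediateField AlgebraicCurve CongruenceSubgroup
open ModularCurve (laurentBaseChange modularFunctionFieldFull heckeAlphaBar heckeBetaBar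
  HeckeInputsAlong heckeOperatorBar heckeOperatorAlong heckePic0Bar jqModC jqNModC
  modularFunctionFieldC JZero modularFunctionFieldBar)
open scoped MatrixGroups

namespace Fermat.Agent.Hecke

variable (L : Type*) [Field L] [Algebra ℚ L] (N ℓ : ℕ) [NeZero N] [NeZero ℓ]

/-- The function field of `X₀(N)` over `L`. -/
abbrev X0Field : IntermediateField L (LaurentSeries L) :=
  laurentBaseChange L (modularFunctionFieldFull N)

theorem finiteAlong_alpha : FiniteAlong L (heckeAlphaBar L N ℓ) := finiteAlong _

theorem finiteAlong_beta : FiniteAlong L (heckeBetaBar L N ℓ) := finiteAlong _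

theorem alphaIntegral : (heckeAlphaBar L N ℓ).toRingHom.IsIntegral :=
  isIntegralAlong (heckeAlphaBar L N ℓ)

theorem betaIntegral : (heckeBetaBar L N ℓ).toRingHom.IsIntegral :=
  isIntegralAlong (heckeBetaBar L N ℓ)

section Degree

variable [CharZero L]

/-- `j` as an element of the function field of `X₀(N)`. -/
def jElt : X0Field L N :=
  ⟨jqModC L, by
    rw [X0Field, MF.laurentBaseChange_full_eq]
    exact ModularCurve.jqModC_mem_full L N⟩

/-- `X₀(N)` has degree `[SL(2,ℤ) : Γ₀(N)]` over the `j`-line. -/
theorem finrank_over_j :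
    Module.finrank L⟮jElt L N⟯ (X0Field L N) = (Gamma0 N).index := by
  rw [(MF.finrank_adjoin_eq (K := L) N (X0Field L N)
    (MF.laurentBaseChange_full_eq_pair L N) (jElt L N) rfl).2]
  rfl

/-- The degree of `X₀(Nℓ) → X₀(N)`. -/
theorem finrankAlong_alpha :
    finrankAlong L (heckeAlphaBar L N ℓ) = (Gamma0 (N * ℓ)).relIndex (Gamma0 N) := by
  have h := finrank_adjoin_apply (heckeAlphaBar L N ℓ) (jElt L N)
  have hj : heckeAlphaBar L N ℓ (jElt L N) = jElt L (N * ℓ) := Subtype.ext rfl
  rw [hj, finrank_over_j, finrank_over_j] at h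
  rw [← Subgroup.relIndex_mul_index
    (MF.Gamma0_le_of_dvd (dvd_mul_right N ℓ)), mul_comm] at h
  exact (Nat.eq_of_mul_eq_mul_left
    (Nat.pos_of_ne_zero Subgroup.FiniteIndex.index_ne_zero) h).symm

end Degree

variable [IsAlgClosed L]

/-- The Hecke correspondence is defined on `X₀(N)` for every `ℓ`. -/
theorem heckeInputsAlong : HeckeInputsAlong L N ℓ :=
  ModularCurve.heckeInputsAlong_intro (alphaIntegral L N ℓ) (betaIntegral L N ℓ)
    (fundamentalIdentityAlong _ _) (finiteAlong_alpha L N ℓ) (normFormulaAlong _ _)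

/-- The Hecke operator is the correspondence on `Pic⁰`. -/
theorem heckeOperatorAlong_eq_pic0 :
    heckeOperatorAlong L N ℓ =
      heckePic0Bar (alphaIntegral L N ℓ) (betaIntegral L N ℓ) (fundamentalIdentityAlong _ _)
        (finiteAlong_alpha L N ℓ) (normFormulaAlong _ _) :=
  ModularCurve.heckeOperatorAlong_eq _ _ _ _ _

/-- The Hecke correspondences are defined over `ℚ̄`. -/
theorem heckeInputsAlong_bar : HeckeInputsAlong (AlgebraicClosure ℚ) N ℓ :=
  heckeInputsAlong _ N ℓ

/-- The Hecke operator as a map of divisor classes. -/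
theorem heckeOperatorBar_mk (p : Nat.Primes) (D : Divisor.degZero
    (K := AlgebraicClosure ℚ) (F := modularFunctionFieldBar N)) :
    haveI : NeZero (p : ℕ) := ⟨p.2.ne_zero⟩
    heckeOperatorBar N p (Pic0.mk D) = Pic0.mk
      (Pic0.degZeroCorrespondence _ _ (betaIntegral (AlgebraicClosure ℚ) N p)
        (alphaIntegral (AlgebraicClosure ℚ) N p) (fundamentalIdentityAlong _ _) D) := by
  have : NeZero (p : ℕ) := ⟨p.2.ne_zero⟩
  rw [ModularCurve.heckeOperatorBar_apply, heckeOperatorAlong_eq_pic0]
  rfl

end Fermat.Agent.Hecke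

end
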