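import Fermat.Prelude.Thm_ModularCurve_coeffMap_qExpand
import Fermat.Agent.Hecke.Inputs

/-!
# The Hecke operators commute with the Galois action on `JZero N`

Both degeneracy maps are defined over `ℚ`, so the correspondence intertwines the semilinear Galois
action; hence Galois acts linearly over the Hecke algebra on torsion.
-/

noncomputable section

open AlgebraicCurve
open ModularCurve (laurentBaseChange modularFunctionFieldFull heckeAlphaBar heckeBetaBar coeffMap
  arithmeticGalois qExpand heckeOperatorBar heckeModuleBar HeckeAlg JZero HeckeOperatorsCommuteBar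
  heckeEvalBar heckeGen)

namespace Fermat.Agent.Hecke

variable (L : Type*) [Field L] [Algebra ℚ L] (N ℓ : ℕ) [NeZero N] [NeZero ℓ]

/-- The first degeneracy map commutes with Galois. -/
theorem intertwines_alpha (σ : L ≃ₐ[ℚ] L) :
    SemilinearAut.IntertwinesAlong (heckeAlphaBar L N ℓ).toRingHom
      (arithmeticGalois (L := L) (modularFunctionFieldFull N) σ)
      (arithmeticGalois (L := L) (modularFunctionFieldFull (N * ℓ)) σ) := fun x => Subtype.ext (by
  rw [ModularCurve.coe_arithmeticGalois_smul]
  show coeffMap (σ : L →+* L) (heckeAlphaBar L N ℓ x : LaurentSeries L) =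
    (heckeAlphaBar L N ℓ (arithmeticGalois (L := L) (modularFunctionFieldFull N) σ • x) :
      LaurentSeries L)
  rw [ModularCurve.coe_heckeAlphaBar, ModularCurve.coe_heckeAlphaBar,
    ModularCurve.coe_arithmeticGalois_smul])

omit [NeZero N] in
/-- The second degeneracy map commutes with Galois. -/
theorem intertwines_beta (σ : L ≃ₐ[ℚ] L) :
    SemilinearAut.IntertwinesAlong (heckeBetaBar L N ℓ).toRingHom
      (arithmeticGalois (L := L) (modularFunctionFieldFull N) σ)
      (arithmeticGalois (L := L) (modularFunctionFieldFull (N * ℓ)) σ) :=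
  fun x => Subtype.ext (ModularCurve.coeffMap_qExpand (σ : L →+* L) ℓ (x : LaurentSeries L))

/-- The correspondence `T_ℓ` commutes with the semilinear Galois action on divisor classes. -/
theorem heckeOperatorAlong_smul [IsAlgClosed L] (σ : L ≃ₐ[ℚ] L)
    (x : Pic0 L (laurentBaseChange L (modularFunctionFieldFull N))) :
    ModularCurve.heckeOperatorAlong L N ℓ (σ • x) =
      σ • ModularCurve.heckeOperatorAlong L N ℓ x := by
  rw [heckeOperatorAlong_eq_pic0]
  exact pic0_correspondence_smul (heckeBetaBar L N ℓ) (betaIntegral L N ℓ) (heckeAlphaBar L N ℓ)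
    (alphaIntegral L N ℓ) (fun _ => FF.place_deg_eq_one _) _ _ _ (intertwines_beta L N ℓ σ)
    (intertwines_alpha L N ℓ σ) x

variable {N}

/-- Every Hecke operator commutes with the Galois action on `JZero N`. -/
theorem heckeOperatorBar_galois (p : Nat.Primes)
    (σ : AlgebraicClosure ℚ ≃ₐ[ℚ] AlgebraicClosure ℚ) (x : JZero N) :
    σ • heckeOperatorBar N p x = heckeOperatorBar N p (σ • x) := by
  have : NeZero (p : ℕ) := ⟨p.2.ne_zero⟩
  rw [ModularCurve.heckeOperatorBar_apply, ModularCurve.heckeOperatorBar_apply,
    heckeOperatorAlong_smul]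

/-- Galois acts on `JZero N` linearly over the Hecke algebra. -/
theorem smulCommClass_heckeModuleBar (h : HeckeOperatorsCommuteBar N) :
    letI := heckeModuleBar N
    SMulCommClass (AlgebraicClosure ℚ ≃ₐ[ℚ] AlgebraicClosure ℚ) HeckeAlg (JZero N) := by
  let := heckeModuleBar N
  refine ⟨fun σ t x => ?_⟩
  induction t using MvPolynomial.induction_on generalizing x with
  | C a =>
    rw [ModularCurve.heckeModuleBar_C_smul, ModularCurve.heckeModuleBar_C_smul]
    exact map_zsmul (DistribSMul.toAddMonoidHom (JZero N) σ) a x
  | add t u ht hu => rw [add_smul, smul_add, ht, hu, add_smul]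
  | mul_X t p ht =>
    rw [mul_smul, mul_smul, ht]
    congr 1
    rw [show (MvPolynomial.X p : HeckeAlg) = heckeGen p from rfl,
      ModularCurve.heckeModuleBar_heckeGen_smul h, ModularCurve.heckeModuleBar_heckeGen_smul h,
      heckeOperatorBar_galois]

end Fermat.Agent.Hecke

end
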