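import Fermat.Agent.Grp.Index
import Fermat.Agent.Hecke.GaloisEquivariant

/-!
# The Hecke operators on `JZero N` commute

For distinct primes `p, q` both compositions are the correspondence through level `N p q`, by base
change for the square of levels. This makes the Hecke algebra of `J₀(N)` commutative.
-/

noncomputable section

open IntermediateField AlgebraicCurve CongruenceSubgroup
open ModularCurve (laurentBaseChange modularFunctionFieldFull heckeAlphaBar heckeBetaBar qExpand
  heckeOperatorBar HeckeOperatorsCommuteBar jqModC jqNModC modularFunctionFieldC)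
open scoped MatrixGroups

namespace Fermat.Agent.Hecke

theorem index_Gamma0_mul {m n : ℕ} (h : m.Coprime n) :
    (Gamma0 (m * n)).index = (Gamma0 m).index * (Gamma0 n).index :=
  Grp.natCard_coset_mul h

/-- The index of `Γ₀` is multiplicative in two different primes. -/
theorem index_mul_index (N : ℕ) [NeZero N] {p q : ℕ} (hp : p.Prime) (hq : q.Prime) (hpq : p ≠ q) :
    (Gamma0 (N * p * q)).index * (Gamma0 N).index =
      (Gamma0 (N * p)).index * (Gamma0 (N * q)).index := by
  obtain ⟨e, B, hB, rfl⟩ := Nat.exists_eq_pow_mul_and_not_dvd (NeZero.ne N) p hp.ne_one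
  have h1 : ∀ k, (p ^ k).Coprime B := fun k => (hp.coprime_iff_not_dvd.mpr hB).pow_left k
  have h2 : ∀ k, (p ^ k).Coprime (B * q) := fun k =>
    Nat.Coprime.mul_right (h1 k) (((Nat.coprime_primes hp hq).mpr hpq).pow_left k)
  rw [show p ^ e * B * p * q = p ^ (e + 1) * (B * q) by ring,
    show p ^ e * B * p = p ^ (e + 1) * B by ring, mul_assoc (p ^ e) B q,
    index_Gamma0_mul (h2 _), index_Gamma0_mul (h1 e), index_Gamma0_mul (h1 (e + 1)),
    index_Gamma0_mul (h2 e)]
  ring

theorem relIndex_eq_relIndex (N : ℕ) [NeZero N] {p q : ℕ} (hp : p.Prime) (hq : q.Prime)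
    (hpq : p ≠ q) :
    (Gamma0 (N * p * q)).relIndex (Gamma0 (N * p)) = (Gamma0 (N * q)).relIndex (Gamma0 N) := by
  have : NeZero p := ⟨hp.ne_zero⟩
  have h1 := Subgroup.relIndex_mul_index (MF.Gamma0_le_of_dvd (dvd_mul_right (N * p) q))
  have h2 := Subgroup.relIndex_mul_index (MF.Gamma0_le_of_dvd (dvd_mul_right N q))
  have h3 := index_mul_index N hp hq hpq
  rw [← h1, ← h2] at h3
  have hpos : 0 < (Gamma0 (N * p)).index * (Gamma0 N).index :=
    Nat.mul_pos (Nat.pos_of_ne_zero Subgroup.FiniteIndex.index_ne_zero)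
      (Nat.pos_of_ne_zero Subgroup.FiniteIndex.index_ne_zero)
  refine Nat.eq_of_mul_eq_mul_right hpos ?_
  calc _ = _ := (mul_assoc _ _ _).symm
    _ = _ := h3
    _ = _ := by ring

/-- Composition of two correspondences through a base-change square. -/
theorem correspondence_correspondence {K F F₁ F₂ Z : Type*} [Field K] [Field F] [Field F₁]
    [Field F₂] [Field Z] [Algebra K F] [Algebra K F₁] [Algebra K F₂] [Algebra K Z]
    [HasPrincipalDivisors K F₁] [HasPrincipalDivisors K F₂] [HasPrincipalDivisors K Z]
    (α β : F →ₐ[K] F₂) (α' β' : F →ₐ[K] F₁) (A : F₂ →ₐ[K] Z) (B : F₁ →ₐ[K] Z)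
    (P Q : F →ₐ[K] Z) (hα : α.toRingHom.IsIntegral) (hβ : β.toRingHom.IsIntegral)
    (hα' : α'.toRingHom.IsIntegral) (hβ' : β'.toRingHom.IsIntegral)
    (hA : A.toRingHom.IsIntegral) (hB : B.toRingHom.IsIntegral)
    (hP : P.toRingHom.IsIntegral) (hQ : Q.toRingHom.IsIntegral)
    (hdeg : ∀ w : Place K Z, w.deg = 1) (hdeg' : ∀ w : Place K F₂, w.deg = 1)
    (hPA : P = A.comp α) (hQB : Q = B.comp β')
    (hbc : ∀ E : Divisor K F₁, Divisor.pullbackAlong β hβ (Divisor.pushforwardAlong α' hα' E) =
      Divisor.pushforwardAlong A hA (Divisor.pullbackAlong B hB E)) (D : Divisor K F) :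
    Divisor.correspondence β α hβ hα (Divisor.correspondence β' α' hβ' hα' D) =
      Divisor.pushforwardAlong P hP (Divisor.pullbackAlong Q hQ D) := by
  subst hPA hQB
  rw [Divisor.correspondence_apply, Divisor.correspondence_apply, hbc,
    ← pushforwardAlong_comp α A hα hA hdeg hdeg' hP, ← pullbackAlong_comp β' B hβ' hB hQ]

variable (L : Type*) [Field L] [Algebra ℚ L]

/-- `X₀(M) → X₀(M')` for equal levels. -/
def castLevel {M M' : ℕ} (h : M = M') : X0Field L M →ₐ[L] X0Field L M' :=
  IntermediateField.inclusion (le_of_eq (congrArg (X0Field L) h))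

theorem coe_castLevel {M M' : ℕ} (h : M = M') (x : X0Field L M) :
    (castLevel L h x : LaurentSeries L) = (x : LaurentSeries L) :=
  IntermediateField.coe_inclusion _ x

variable [CharZero L] [IsAlgClosed L] (N : ℕ) [NeZero N]

/-- `T_ℓ T_ℓ'` is the correspondence `X₀(N) ← X₀(Nℓℓ') → X₀(N)`, `q ↦ q` and `q ↦ q^(ℓℓ')`. -/
theorem correspondence_comp {p q : ℕ} [NeZero p] [NeZero q] (hp : p.Prime) (hq : q.Prime)
    (hpq : p ≠ q) {M : ℕ} [NeZero M] (hM : N * p * q = M) (P Q : X0Field L N →ₐ[L] X0Field L M)
    (hP : ∀ x, (P x : LaurentSeries L) = x)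
    (hQ : ∀ x, (Q x : LaurentSeries L) = qExpand L p (qExpand L q (x : LaurentSeries L)))
    (D : Divisor L (X0Field L N)) :
    Divisor.correspondence (heckeBetaBar L N p) (heckeAlphaBar L N p) (betaIntegral L N p)
        (alphaIntegral L N p)
      (Divisor.correspondence (heckeBetaBar L N q) (heckeAlphaBar L N q) (betaIntegral L N q)
        (alphaIntegral L N q) D) =
      Divisor.pushforwardAlong P (isIntegralAlong P)
        (Divisor.pullbackAlong Q (isIntegralAlong Q) D) := by
  subst hM
  let A := heckeAlphaBar L (N * p) q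
  let B : X0Field L (N * q) →ₐ[L] X0Field L (N * p * q) :=
    (castLevel L (mul_right_comm N q p)).comp (heckeBetaBar L (N * q) p)
  have hBcoe : ∀ x, (B x : LaurentSeries L) = qExpand L p (x : LaurentSeries L) := fun x => by
    simp [B, coe_castLevel]
  have hAcoe : ∀ x, (A x : LaurentSeries L) = (x : LaurentSeries L) :=
    fun x => ModularCurve.coe_heckeAlphaBar _ _ x
  have hsq : A.comp (heckeBetaBar L N p) = B.comp (heckeAlphaBar L N q) :=
    AlgHom.ext fun x => Subtype.ext (by simp [hAcoe, hBcoe])
  have hgen : Subfield.closure (Set.range A ∪ Set.range B) = ⊤ := by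
    set S := Subfield.closure (Set.range A ∪ Set.range B) with hS
    let v : X0Field L (N * p * q) →+* LaurentSeries L := (X0Field L (N * p * q)).val.toRingHom
    have key : ∀ x ∈ modularFunctionFieldC L (N * p * q), x ∈ S.map v := by
      intro x hx
      induction hx using IntermediateField.adjoin_induction L with
      | mem x hx =>
        rcases hx with rfl | rfl
        · exact ⟨A (jElt L (N * p)), Subfield.subset_closure (.inl ⟨_, rfl⟩), hAcoe _⟩
        · let y : X0Field L (N * q) := ⟨jqNModC L (N * q), by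
            rw [X0Field, MF.laurentBaseChange_full_eq_pair]
            exact ModularCurve.jqNModC_mem L (N * q)⟩
          refine ⟨B y, Subfield.subset_closure (.inr ⟨_, rfl⟩), (hBcoe y).trans ?_⟩
          show qExpand L p (qExpand L (N * q) (jqModC L)) = qExpand L (N * p * q) (jqModC L)
          rw [ModularCurve.qExpand_qExpand]
          exact ModularCurve.qExpand_congr (by ring) _
      | algebraMap c => exact ⟨A (algebraMap L _ c), Subfield.subset_closure (.inl ⟨_, rfl⟩), by
          rw [A.commutes]; rfl⟩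
      | add x y _ _ hx hy => exact add_mem hx hy
      | inv x _ hx => exact inv_mem hx
      | mul x y _ _ hx hy => exact mul_mem hx hy
    rw [eq_top_iff]
    intro z _
    have hz : (z : LaurentSeries L) ∈ modularFunctionFieldC L (N * p * q) := by
      rw [← MF.laurentBaseChange_full_eq_pair]; exact z.2
    obtain ⟨w, hw, hwz⟩ := key _ hz
    exact (Subtype.ext hwz : w = z) ▸ hw
  have hdeg : finrankAlong L A = finrankAlong L (heckeAlphaBar L N q) := by
    rw [finrankAlong_alpha, finrankAlong_alpha, relIndex_eq_relIndex N hp hq hpq]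
  exact correspondence_correspondence (heckeAlphaBar L N p) (heckeBetaBar L N p)
    (heckeAlphaBar L N q) (heckeBetaBar L N q) A B P Q _ _ _ _ (isIntegralAlong A)
    (isIntegralAlong B) (isIntegralAlong P) (isIntegralAlong Q)
    (fun _ => FF.place_deg_eq_one _) (fun _ => FF.place_deg_eq_one _)
    (AlgHom.ext fun x => Subtype.ext (by simp [hAcoe, hP]))
    (AlgHom.ext fun x => Subtype.ext (by simp [hBcoe, hQ]))
    (pullback_pushforward_eq hsq (alphaIntegral L N q) (betaIntegral L N p)
      (isIntegralAlong A) (isIntegralAlong B) (finiteAlong _) (normFormulaAlong _ _)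
      (finiteAlong A) (normFormulaAlong _ _)
      (normAlong_baseChange hsq (finiteAlong _) (finiteAlong A) hdeg hgen) FF.exists_ord_eq) D

/-- The correspondences of two distinct primes commute on divisors. -/
theorem correspondence_comm {p q : ℕ} [NeZero p] [NeZero q] (hp : p.Prime) (hq : q.Prime)
    (hpq : p ≠ q) (D : Divisor L (X0Field L N)) :
    Divisor.correspondence (heckeBetaBar L N p) (heckeAlphaBar L N p) (betaIntegral L N p)
        (alphaIntegral L N p)
      (Divisor.correspondence (heckeBetaBar L N q) (heckeAlphaBar L N q) (betaIntegral L N q)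
        (alphaIntegral L N q) D) =
    Divisor.correspondence (heckeBetaBar L N q) (heckeAlphaBar L N q) (betaIntegral L N q)
        (alphaIntegral L N q)
      (Divisor.correspondence (heckeBetaBar L N p) (heckeAlphaBar L N p) (betaIntegral L N p)
        (alphaIntegral L N p) D) := by
  let P : X0Field L N →ₐ[L] X0Field L (N * p * q) :=
    (heckeAlphaBar L (N * p) q).comp (heckeAlphaBar L N p)
  let Q : X0Field L N →ₐ[L] X0Field L (N * p * q) :=
    (castLevel L (mul_right_comm N q p)).comp
      ((heckeBetaBar L (N * q) p).comp (heckeBetaBar L N q))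
  have hP : ∀ x, (P x : LaurentSeries L) = x := fun x => by simp [P]
  have hQ : ∀ x, (Q x : LaurentSeries L) = qExpand L p (qExpand L q (x : LaurentSeries L)) :=
    fun x => by simp [Q, coe_castLevel]
  rw [correspondence_comp L N hp hq hpq rfl P Q hP hQ,
    correspondence_comp L N hq hp (Ne.symm hpq) (mul_right_comm N q p) P Q hP fun x => by
      rw [hQ, ModularCurve.qExpand_qExpand, ModularCurve.qExpand_qExpand]
      exact ModularCurve.qExpand_congr (mul_comm p q) _]

/-- The Hecke operators on `JZero N` commute. -/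
theorem heckeOperatorsCommuteBar : HeckeOperatorsCommuteBar N := by
  intro ℓ ℓ'
  rcases eq_or_ne ℓ ℓ' with rfl | hne
  · rfl
  have : NeZero (ℓ : ℕ) := ⟨ℓ.2.ne_zero⟩
  have : NeZero (ℓ' : ℕ) := ⟨ℓ'.2.ne_zero⟩
  refine LinearMap.ext fun x => ?_
  obtain ⟨D, rfl⟩ := Pic0.mk_surjective x
  simp only [Module.End.mul_apply, heckeOperatorBar_mk]
  refine congrArg Pic0.mk (Subtype.ext ?_)
  simp only [Pic0.coe_degZeroCorrespondence]
  exact correspondence_comm _ N ℓ.2 ℓ'.2 (fun h => hne (Subtype.ext h)) D.1

end Fermat.Agent.Hecke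

end
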