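import Mathlib.Algebra.Group.TypeTags.Hom
import Mathlib.Algebra.Module.Hom
import Mathlib.Algebra.Module.LinearMap.Defs
import Mathlib.GroupTheory.Transfer

/-!
# Transfer of additive characters along a "virtual endomorphism" `c : H →* G`, `H ≤ G`.

The transfer is computed with any system of representatives, is natural in the coefficients and
under isomorphisms intertwining the data. It is the common form of the Hecke operators on characters
of `Γ₀(N)`.
-/

noncomputable section

namespace Fermat.Agent.Hecke

open Subgroup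

variable {G : Type*} [Group G] {H : Subgroup G} [H.FiniteIndex] (c : H →* G)
variable {A B : Type*} [AddCommGroup A] [AddCommGroup B]

omit [H.FiniteIndex] in
theorem addChar_ext {χ ψ : Additive G →+ A}
    (h : ∀ g : G, χ (Additive.ofMul g) = ψ (Additive.ofMul g)) : χ = ψ :=
  AddMonoidHom.ext fun g => h (Additive.toMul g)

/-- The value of the transferred character. -/
def transferAux (χ : Additive G →+ A) : Additive G →+ A :=
  MonoidHom.toAdditiveLeft (MonoidHom.transfer ((AddMonoidHom.toMultiplicativeRight χ).comp c))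

omit [H.FiniteIndex] in
/-- For a section `t` of `G → G ⧸ H`, the element `(t (g • q))⁻¹ * g * t q` lies in `H`. -/
theorem cocycle_mem (t : G ⧸ H → G) (ht : ∀ q, (t q : G ⧸ H) = q) (g : G) (q : G ⧸ H) :
    (t (g • q))⁻¹ * (g * t q) ∈ H := by
  have h : ((t (g • q) : G) : G ⧸ H) = ((g * t q : G) : G ⧸ H) := by
    rw [ht (g • q)]
    conv_lhs => rw [← ht q]
    rfl
  exact QuotientGroup.eq.mp h

theorem transferAux_apply [Fintype (G ⧸ H)] (χ : Additive G →+ A) (t : G ⧸ H → G)
    (ht : ∀ q, (t q : G ⧸ H) = q) (g : G) :
    transferAux c χ (Additive.ofMul g) =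
      ∑ q : G ⧸ H, χ (Additive.ofMul (c ⟨(t (g • q))⁻¹ * (g * t q), cocycle_mem t ht g q⟩)) := by
  let T : H.LeftTransversal := ⟨Set.range t, isComplement_range_left ht⟩
  have hT : ∀ q, ((T.2.leftQuotientEquiv q : G)) = t q :=
    fun q => IsComplement.leftQuotientEquiv_apply ht q
  show Multiplicative.toAdd (MonoidHom.transfer _ g) = _
  rw [MonoidHom.transfer_def _ T g, leftTransversals.diff, toAdd_prod]
  refine (@Equiv.sum_comp _ _ _ H.fintypeQuotientOfFiniteIndex H.fintypeQuotientOfFiniteIndex _
    (MulAction.toPerm g) _).symm.trans ?_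
  refine Finset.sum_congr (by convert rfl) fun q _ => ?_
  have e : (((g • T).2.leftQuotientEquiv (g • q) : G)) = g * t q := by
    rw [smul_apply_eq_smul_apply_inv_smul, inv_smul_smul, smul_eq_mul, hT]
  simp only [MonoidHom.comp_apply, MulAction.toPerm_apply]
  refine congrArg χ (congrArg Additive.ofMul (congrArg c (Subtype.ext ?_)))
  show ((T.2.leftQuotientEquiv (g • q) : G))⁻¹ * _ = _
  rw [hT, e]

/-- Transfer of characters along `c : H →* G`. -/
def transferHom (A : Type*) [AddCommGroup A] : (Additive G →+ A) →+ (Additive G →+ A) where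
  toFun := transferAux c
  map_zero' := by
    have := H.fintypeQuotientOfFiniteIndex
    refine addChar_ext fun g => ?_
    rw [transferAux_apply c 0 Quotient.out QuotientGroup.out_eq']
    simp
  map_add' χ ψ := by
    have := H.fintypeQuotientOfFiniteIndex
    refine addChar_ext fun g => ?_
    rw [AddMonoidHom.add_apply,
      transferAux_apply c _ Quotient.out QuotientGroup.out_eq',
      transferAux_apply c _ Quotient.out QuotientGroup.out_eq',
      transferAux_apply c _ Quotient.out QuotientGroup.out_eq', ← Finset.sum_add_distrib]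
    rfl

theorem transferHom_apply [Fintype (G ⧸ H)] (χ : Additive G →+ A) (t : G ⧸ H → G)
    (ht : ∀ q, (t q : G ⧸ H) = q) (g : G) :
    transferHom c A χ (Additive.ofMul g) =
      ∑ q : G ⧸ H, χ (Additive.ofMul (c ⟨(t (g • q))⁻¹ * (g * t q), cocycle_mem t ht g q⟩)) :=
  transferAux_apply c χ t ht g

/-- Transfer commutes with maps of the coefficient group. -/
theorem transferHom_comp (f : A →+ B) (χ : Additive G →+ A) :
    transferHom c B (f.comp χ) = f.comp (transferHom c A χ) := by
  have := H.fintypeQuotientOfFiniteIndex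
  refine addChar_ext fun g => ?_
  rw [AddMonoidHom.comp_apply,
    transferHom_apply c _ Quotient.out QuotientGroup.out_eq',
    transferHom_apply c _ Quotient.out QuotientGroup.out_eq', map_sum]
  rfl

theorem transferHom_smul {R : Type*} [Semiring R] [Module R A] (r : R) (χ : Additive G →+ A) :
    transferHom c A (r • χ) = r • transferHom c A χ := by
  have := H.fintypeQuotientOfFiniteIndex
  refine addChar_ext fun g => ?_
  rw [AddMonoidHom.smul_apply,
    transferHom_apply c _ Quotient.out QuotientGroup.out_eq',
    transferHom_apply c _ Quotient.out QuotientGroup.out_eq', Finset.smul_sum]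
  rfl

/-- Transfer as a linear map. -/
def transferLin (R : Type*) [Semiring R] (A : Type*) [AddCommGroup A] [Module R A] :
    (Additive G →+ A) →ₗ[R] (Additive G →+ A) where
  toFun := transferHom c A
  map_add' := map_add _
  map_smul' := transferHom_smul c

@[simp]
theorem transferLin_apply {R : Type*} [Semiring R] [Module R A] (χ : Additive G →+ A) :
    transferLin c R A χ = transferHom c A χ := rfl

/-- If a set `P` of elements is stable under taking powers and under conjugation followed by `c`,
then transfer preserves the characters killing `P`. -/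
theorem transferHom_eq_zero_of_forall (P : G → Prop) (χ : Additive G →+ A)
    (hχ : ∀ g, P g → χ (Additive.ofMul g) = 0) {g : G}
    (hP : ∀ (t : G) (n : ℕ), 0 < n → ∀ h : t⁻¹ * g ^ n * t ∈ H, P (c ⟨_, h⟩)) :
    transferHom c A χ (Additive.ofMul g) = 0 := by
  have := H.fintypeQuotientOfFiniteIndex
  have : Fintype (Quotient (MulAction.orbitRel (zpowers g) (G ⧸ H))) := Fintype.ofFinite _
  show Multiplicative.toAdd (MonoidHom.transfer _ g) = 0
  rw [MonoidHom.transfer_eq_prod_quotient_orbitRel_zpowers_quot, toAdd_prod]
  refine Finset.sum_eq_zero fun q _ => ?_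
  exact hχ _ (hP _ _ (Nat.pos_of_ne_zero (NeZero.ne _)) _)

/-- Computing the transfer with an arbitrary complete system of representatives. -/
theorem transferHom_apply_reps {ι : Type*} [Fintype ι] (χ : Additive G →+ A) (r : ι → G)
    (hr : Function.Bijective fun i => ((r i : G) : G ⧸ H)) (g : G) (σ : ι → ι)
    (hσ : ∀ i, (r (σ i))⁻¹ * (g * r i) ∈ H) :
    transferHom c A χ (Additive.ofMul g) =
      ∑ i, χ (Additive.ofMul (c ⟨(r (σ i))⁻¹ * (g * r i), hσ i⟩)) := by
  let e := Equiv.ofBijective _ hr
  have := H.fintypeQuotientOfFiniteIndex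
  have ht : ∀ q, ((r (e.symm q) : G) : G ⧸ H) = q := fun q => e.apply_symm_apply q
  rw [transferHom_apply c χ (fun q => r (e.symm q)) ht, ← Equiv.sum_comp e]
  refine Finset.sum_congr rfl fun i _ => ?_
  refine congrArg χ (congrArg Additive.ofMul (congrArg c (Subtype.ext ?_)))
  show (r (e.symm (g • e i)))⁻¹ * (g * r (e.symm (e i))) = (r (σ i))⁻¹ * (g * r i)
  rw [e.symm_apply_apply]
  suffices h : e.symm (g • e i) = σ i by rw [h]
  rw [Equiv.symm_apply_eq]
  have h2 := QuotientGroup.eq.mpr (hσ i)
  show g • ((r i : G) : G ⧸ H) = ((r (σ i) : G) : G ⧸ H)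
  exact h2.symm

/-- Functoriality of the transfer under an isomorphism intertwining the data. -/
theorem transferHom_comp_mulEquiv {G' : Type*} [Group G'] {H' : Subgroup G'} [H'.FiniteIndex]
    (c' : H' →* G') (w : G ≃* G') (hw : ∀ g, g ∈ H ↔ w g ∈ H')
    (hc : ∀ h : H, w (c h) = c' ⟨w h, (hw h).mp h.2⟩) (χ : Additive G' →+ A) :
    transferHom c A (χ.comp (MonoidHom.toAdditive w.toMonoidHom)) =
      (transferHom c' A χ).comp (MonoidHom.toAdditive w.toMonoidHom) := by
  refine addChar_ext fun g => ?_
  have := H.fintypeQuotientOfFiniteIndex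
  let t : G ⧸ H → G := Quotient.out
  have ht : ∀ q, ((t q : G) : G ⧸ H) = q := QuotientGroup.out_eq'
  have hbij : Function.Bijective fun q => ((w (t q) : G') : G' ⧸ H') := by
    constructor
    · intro a b hab
      rw [← ht a, ← ht b, QuotientGroup.eq]
      rw [QuotientGroup.eq, ← map_inv, ← map_mul, ← hw] at hab
      exact hab
    · intro x
      refine ⟨((w.symm x.out : G) : G ⧸ H), ?_⟩
      conv_rhs => rw [← QuotientGroup.out_eq' x]
      refine QuotientGroup.eq.mpr ?_
      have h := QuotientGroup.eq.mp (ht ((w.symm x.out : G) : G ⧸ H))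
      rw [hw, map_mul, map_inv, w.apply_symm_apply] at h
      exact h
  rw [transferHom_apply c _ t ht]
  show _ = transferHom c' A χ (Additive.ofMul (w g))
  have hσ : ∀ q, (w (t (g • q)))⁻¹ * (w g * w (t q)) ∈ H' := fun q => by
    rw [← map_inv, ← map_mul, ← map_mul, ← hw]; exact cocycle_mem t ht g q
  rw [transferHom_apply_reps c' χ (fun q => w (t q)) hbij (w g) (fun q => g • q) hσ]
  refine Finset.sum_congr rfl fun q _ => ?_
  show χ (Additive.ofMul (w (c _))) = _
  rw [hc]
  refine congrArg χ (congrArg Additive.ofMul (congrArg c' (Subtype.ext ?_)))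
  simp only [map_mul, map_inv]

end Fermat.Agent.Hecke
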