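import Mathlib.NumberTheory.ModularForms.CongruenceSubgroups
import Mathlib.Tactic.LinearCombination
import Fermat.Agent.Hecke.Transfer

/-!
# Hecke transfer operators on characters of `Γ₀(N)`

* `monoTransfer N ℓ`: the double coset of `diag(ℓ,1)`; this is how `α_* β^*` acts on the
  monodromy characters of torsion classes.
* `perTransfer N ℓ`: the double coset of `diag(1,ℓ)`; this is how `T_ℓ`/`U_ℓ` acts on periods.
-/

noncomputable section

open scoped MatrixGroups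
open CongruenceSubgroup Matrix

namespace Fermat.Agent.Hecke

variable (N ℓ : ℕ)

theorem Gamma0_mem_iff_dvd {N : ℕ} {g : SL(2, ℤ)} : g ∈ Gamma0 N ↔ (N : ℤ) ∣ g.1 1 0 := by
  rw [Gamma0_mem, ZMod.intCast_zmod_eq_zero_iff_dvd]

theorem Gamma0_dvd {N : ℕ} (γ : Gamma0 N) : (N : ℤ) ∣ γ.1.1 1 0 := Gamma0_mem_iff_dvd.mp γ.2

theorem Gamma0_det {N : ℕ} (γ : Gamma0 N) :
    γ.1.1 0 0 * γ.1.1 1 1 - γ.1.1 0 1 * γ.1.1 1 0 = 1 := by
  have h := γ.1.2
  rwa [Matrix.det_fin_two] at h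

/-- Build an element of `Γ₀(N)` from its entries. -/
def mkGamma0 (a b c d : ℤ) (hdet : a * d - b * c = 1) (hc : (N : ℤ) ∣ c) : Gamma0 N :=
  ⟨⟨!![a, b; c, d], by rw [Matrix.det_fin_two_of]; exact hdet⟩,
      Gamma0_mem_iff_dvd.mpr (by simpa using hc)⟩

variable {N} in
theorem mkGamma0_val (a b c d : ℤ) (hdet : a * d - b * c = 1) (hc : (N : ℤ) ∣ c) :
    (mkGamma0 N a b c d hdet hc).1.1 = !![a, b; c, d] := rfl

theorem Gamma0_ext {N : ℕ} {γ δ : Gamma0 N} (h00 : γ.1.1 0 0 = δ.1.1 0 0)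
    (h01 : γ.1.1 0 1 = δ.1.1 0 1) (h10 : γ.1.1 1 0 = δ.1.1 1 0) (h11 : γ.1.1 1 1 = δ.1.1 1 1) :
    γ = δ := by
  refine Subtype.ext (Subtype.ext ?_)
  rw [Matrix.eta_fin_two γ.1.1, Matrix.eta_fin_two δ.1.1, h00, h01, h10, h11]

theorem Gamma0_mul_val {N : ℕ} (γ δ : Gamma0 N) : (γ * δ).1.1 = γ.1.1 * δ.1.1 := rfl

/-- `Γ₀(Nℓ)` as a subgroup of `Γ₀(N)`. -/
abbrev lowerSub : Subgroup (Gamma0 N) := (Gamma0 (N * ℓ)).subgroupOf (Gamma0 N)

/-- The elements of `Γ₀(N)` with `ℓ` dividing the upper right entry. -/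
def upperSub : Subgroup (Gamma0 N) where
  carrier := {γ | (ℓ : ℤ) ∣ γ.1.1 0 1}
  one_mem' := by simp
  mul_mem' {γ δ} hγ hδ := by
    simp only [Set.mem_ofPred_eq, Gamma0_mul_val, Matrix.mul_apply, Fin.sum_univ_two] at hγ hδ ⊢
    exact dvd_add (hδ.mul_left _) (hγ.mul_right _)
  inv_mem' {γ} hγ := by
    simp only [Set.mem_ofPred_eq, InvMemClass.coe_inv, Matrix.SpecialLinearGroup.coe_inv,
      Matrix.adjugate_fin_two] at hγ ⊢
    simpa using hγ.neg_right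

variable {N ℓ}

theorem mem_lowerSub {γ : Gamma0 N} : γ ∈ lowerSub N ℓ ↔ ((N * ℓ : ℕ) : ℤ) ∣ γ.1.1 1 0 :=
  Subgroup.mem_subgroupOf.trans Gamma0_mem_iff_dvd

theorem mem_upperSub {γ : Gamma0 N} : γ ∈ upperSub N ℓ ↔ (ℓ : ℤ) ∣ γ.1.1 0 1 := Iff.rfl

variable (N ℓ)

instance instFiniteIndex_lowerSub [NeZero N] [NeZero ℓ] : (lowerSub N ℓ).FiniteIndex :=
  inferInstance

instance instFiniteIndex_upperSub [NeZero N] [NeZero ℓ] : (upperSub N ℓ).FiniteIndex := by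
  refine Subgroup.finiteIndex_of_le (H := (Gamma ℓ).subgroupOf (Gamma0 N)) fun γ hγ => ?_
  have h := (Gamma_mem.mp (Subgroup.mem_subgroupOf.mp hγ)).2.1
  exact mem_upperSub.mpr ((ZMod.intCast_zmod_eq_zero_iff_dvd _ _).mp h)

/-- `γ ↦ diag(ℓ,1) γ diag(ℓ,1)⁻¹`. -/
def lowerConj [NeZero ℓ] : lowerSub N ℓ →* Gamma0 N :=
  MonoidHom.mk'
    (fun γ => mkGamma0 N (γ.1.1.1 0 0) ((ℓ : ℤ) * γ.1.1.1 0 1) (γ.1.1.1 1 0 / ℓ) (γ.1.1.1 1 1)
      (by
        obtain ⟨k, hk⟩ := mem_lowerSub.mp γ.2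
        have hℓ : (ℓ : ℤ) ≠ 0 := by exact_mod_cast NeZero.ne ℓ
        have h := Gamma0_det γ.1
        rw [hk] at h ⊢
        push_cast at h ⊢
        rw [show (N : ℤ) * ℓ * k = (N * k) * ℓ by ring, Int.mul_ediv_cancel _ hℓ]
        linear_combination h)
      (by
        obtain ⟨k, hk⟩ := mem_lowerSub.mp γ.2
        have hℓ : (ℓ : ℤ) ≠ 0 := by exact_mod_cast NeZero.ne ℓ
        rw [hk]
        push_cast
        rw [show (N : ℤ) * ℓ * k = (N * k) * ℓ by ring, Int.mul_ediv_cancel _ hℓ]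
        exact dvd_mul_right _ _))
    (fun γ δ => by
      obtain ⟨k, hk⟩ := mem_lowerSub.mp γ.2
      obtain ⟨m, hm⟩ := mem_lowerSub.mp δ.2
      have hℓ : (ℓ : ℤ) ≠ 0 := by exact_mod_cast NeZero.ne ℓ
      have e1 : γ.1.1.1 1 0 = (N * k) * ℓ := by rw [hk]; push_cast; ring
      have e2 : δ.1.1.1 1 0 = (N * m) * ℓ := by rw [hm]; push_cast; ring
      apply Gamma0_ext <;>
        simp only [mkGamma0_val, Subgroup.coe_mul, Matrix.SpecialLinearGroup.coe_mul,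
            Matrix.mul_apply,
          Fin.sum_univ_two, Matrix.of_apply, Matrix.cons_val', Matrix.cons_val_zero,
          Matrix.cons_val_one, Matrix.cons_val_fin_one, e1, e2, Int.mul_ediv_cancel _ hℓ]
      · ring
      · ring
      · rw [show (N : ℤ) * k * ℓ * δ.1.1.1 0 0 + γ.1.1.1 1 1 * (N * m * ℓ) =
          (N * k * δ.1.1.1 0 0 + γ.1.1.1 1 1 * (N * m)) * ℓ by ring, Int.mul_ediv_cancel _ hℓ]
      · ring)

/-- `γ ↦ diag(1,ℓ) γ diag(1,ℓ)⁻¹`. -/
def upperConj [NeZero ℓ] : upperSub N ℓ →* Gamma0 N :=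
  MonoidHom.mk'
    (fun γ => mkGamma0 N (γ.1.1.1 0 0) (γ.1.1.1 0 1 / ℓ) ((ℓ : ℤ) * γ.1.1.1 1 0) (γ.1.1.1 1 1)
      (by
        obtain ⟨k, hk⟩ := mem_upperSub.mp γ.2
        have hℓ : (ℓ : ℤ) ≠ 0 := by exact_mod_cast NeZero.ne ℓ
        have h := Gamma0_det γ.1
        rw [hk] at h ⊢
        rw [Int.mul_ediv_cancel_left _ hℓ]
        linear_combination h)
      ((Gamma0_dvd γ.1).mul_left _))
    (fun γ δ => by
      obtain ⟨k, hk⟩ := mem_upperSub.mp γ.2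
      obtain ⟨m, hm⟩ := mem_upperSub.mp δ.2
      have hℓ : (ℓ : ℤ) ≠ 0 := by exact_mod_cast NeZero.ne ℓ
      apply Gamma0_ext <;>
        simp only [mkGamma0_val, Subgroup.coe_mul, Matrix.SpecialLinearGroup.coe_mul,
            Matrix.mul_apply,
          Fin.sum_univ_two, Matrix.of_apply, Matrix.cons_val', Matrix.cons_val_zero,
          Matrix.cons_val_one, Matrix.cons_val_fin_one, hk, hm, Int.mul_ediv_cancel_left _ hℓ]
      · ring
      · rw [show γ.1.1.1 0 0 * ((ℓ : ℤ) * m) + ℓ * k * δ.1.1.1 1 1 =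
          ℓ * (γ.1.1.1 0 0 * m + k * δ.1.1.1 1 1) by ring, Int.mul_ediv_cancel_left _ hℓ]
      · ring
      · ring)

theorem lowerConj_val [NeZero ℓ] (γ : lowerSub N ℓ) :
    (lowerConj N ℓ γ).1.1 =
      !![γ.1.1.1 0 0, (ℓ : ℤ) * γ.1.1.1 0 1; γ.1.1.1 1 0 / ℓ, γ.1.1.1 1 1] := rfl

theorem upperConj_val [NeZero ℓ] (γ : upperSub N ℓ) :
    (upperConj N ℓ γ).1.1 =
      !![γ.1.1.1 0 0, γ.1.1.1 0 1 / ℓ; (ℓ : ℤ) * γ.1.1.1 1 0, γ.1.1.1 1 1] := rfl

/-- The Hecke operator on characters seen by monodromy of torsion classes. -/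
def monoTransfer [NeZero N] [NeZero ℓ] (A : Type*) [AddCommGroup A] :
    (Additive (Gamma0 N) →+ A) →+ (Additive (Gamma0 N) →+ A) :=
  transferHom (lowerConj N ℓ) A

/-- The Hecke operator on characters seen by periods. -/
def perTransfer [NeZero N] [NeZero ℓ] (A : Type*) [AddCommGroup A] :
    (Additive (Gamma0 N) →+ A) →+ (Additive (Gamma0 N) →+ A) :=
  transferHom (upperConj N ℓ) A

/-! ## The Fricke automorphism -/

/-- `γ ↦ W γ W⁻¹`, `W = !![0, -1; N, 0]`. -/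
def frickeHom [NeZero N] : Gamma0 N →* Gamma0 N :=
  MonoidHom.mk'
    (fun γ => mkGamma0 N (γ.1.1 1 1) (-(γ.1.1 1 0 / N)) (-((N : ℤ) * γ.1.1 0 1)) (γ.1.1 0 0)
      (by
        obtain ⟨k, hk⟩ := Gamma0_dvd γ
        have hN : (N : ℤ) ≠ 0 := by exact_mod_cast NeZero.ne N
        have h := Gamma0_det γ
        rw [hk] at h ⊢
        rw [Int.mul_ediv_cancel_left _ hN]
        linear_combination h)
      (dvd_mul_right _ _).neg_right)
    (fun γ δ => by
      obtain ⟨k, hk⟩ := Gamma0_dvd γ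
      obtain ⟨m, hm⟩ := Gamma0_dvd δ
      have hN : (N : ℤ) ≠ 0 := by exact_mod_cast NeZero.ne N
      apply Gamma0_ext <;>
        simp only [mkGamma0_val, Subgroup.coe_mul, Matrix.SpecialLinearGroup.coe_mul,
            Matrix.mul_apply,
          Fin.sum_univ_two, Matrix.of_apply, Matrix.cons_val', Matrix.cons_val_zero,
          Matrix.cons_val_one, Matrix.cons_val_fin_one, hk, hm, Int.mul_ediv_cancel_left _ hN]
      · ring
      · rw [show (N : ℤ) * k * δ.1.1 0 0 + γ.1.1 1 1 * (N * m) =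
          N * (k * δ.1.1 0 0 + γ.1.1 1 1 * m) by ring, Int.mul_ediv_cancel_left _ hN]
        ring
      · ring
      · ring)

theorem frickeHom_val [NeZero N] (γ : Gamma0 N) :
    (frickeHom N γ).1.1 =
      !![γ.1.1 1 1, -(γ.1.1 1 0 / N); -((N : ℤ) * γ.1.1 0 1), γ.1.1 0 0] := rfl

theorem frickeHom_frickeHom [NeZero N] (γ : Gamma0 N) : frickeHom N (frickeHom N γ) = γ := by
  obtain ⟨k, hk⟩ := Gamma0_dvd γ
  have hN : (N : ℤ) ≠ 0 := by exact_mod_cast NeZero.ne N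
  apply Gamma0_ext <;>
    simp only [frickeHom_val, Matrix.of_apply, Matrix.cons_val', Matrix.cons_val_zero,
      Matrix.cons_val_one, Matrix.cons_val_fin_one]
  · rw [show -((N : ℤ) * γ.1.1 0 1) = N * -γ.1.1 0 1 by ring, Int.mul_ediv_cancel_left _ hN,
      neg_neg]
  · rw [hk, Int.mul_ediv_cancel_left _ hN]
    ring

/-- The Fricke automorphism of `Γ₀(N)`. -/
def frickeEquiv [NeZero N] : Gamma0 N ≃* Gamma0 N :=
  { frickeHom N with
    invFun := frickeHom N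
    left_inv := frickeHom_frickeHom N
    right_inv := frickeHom_frickeHom N }

theorem frickeEquiv_apply [NeZero N] (γ : Gamma0 N) : frickeEquiv N γ = frickeHom N γ := rfl

/-- The involution of characters induced by the Fricke automorphism. -/
def frickeChar [NeZero N] (A : Type*) [AddCommGroup A] :
    (Additive (Gamma0 N) →+ A) →+ (Additive (Gamma0 N) →+ A) :=
  AddMonoidHom.compHom' (MonoidHom.toAdditive (frickeEquiv N).toMonoidHom)

theorem frickeChar_apply [NeZero N] {A : Type*} [AddCommGroup A] (χ : Additive (Gamma0 N) →+ A)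
    (γ : Gamma0 N) : frickeChar N A χ (Additive.ofMul γ) = χ (Additive.ofMul (frickeHom N γ)) :=
  rfl

theorem frickeChar_frickeChar [NeZero N] {A : Type*} [AddCommGroup A]
    (χ : Additive (Gamma0 N) →+ A) : frickeChar N A (frickeChar N A χ) = χ :=
  addChar_ext fun γ => by rw [frickeChar_apply, frickeChar_apply, frickeHom_frickeHom]

theorem frickeHom_mem_upperSub [NeZero N] (γ : Gamma0 N) :
    γ ∈ lowerSub N ℓ ↔ frickeEquiv N γ ∈ upperSub N ℓ := by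
  obtain ⟨k, hk⟩ := Gamma0_dvd γ
  have hN : (N : ℤ) ≠ 0 := by exact_mod_cast NeZero.ne N
  rw [mem_lowerSub, mem_upperSub, frickeEquiv_apply, frickeHom_val]
  simp [hk, Int.mul_ediv_cancel_left _ hN, mul_dvd_mul_iff_left hN]

/-- The two transfers are exchanged by the Fricke involution. -/
theorem monoTransfer_frickeChar [NeZero N] [NeZero ℓ] {A : Type*} [AddCommGroup A]
    (χ : Additive (Gamma0 N) →+ A) :
    monoTransfer N ℓ A (frickeChar N A χ) = frickeChar N A (perTransfer N ℓ A χ) := by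
  refine transferHom_comp_mulEquiv (lowerConj N ℓ) (upperConj N ℓ) (frickeEquiv N)
    (frickeHom_mem_upperSub N ℓ) (fun γ => ?_) χ
  obtain ⟨k, hk⟩ := mem_lowerSub.mp γ.2
  have hN : (N : ℤ) ≠ 0 := by exact_mod_cast NeZero.ne N
  have hℓ : (ℓ : ℤ) ≠ 0 := by exact_mod_cast NeZero.ne ℓ
  have e1 : γ.1.1.1 1 0 = N * (ℓ * k) := by rw [hk]; push_cast; ring
  apply Gamma0_ext <;>
    simp only [frickeEquiv_apply, frickeHom_val, lowerConj_val, upperConj_val,
      Matrix.of_apply, Matrix.cons_val', Matrix.cons_val_zero, Matrix.cons_val_one,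
      Matrix.cons_val_fin_one]
  · rw [e1, Int.mul_ediv_cancel_left _ hN,
      show (N : ℤ) * (ℓ * k) = ℓ * (N * k) by ring, Int.mul_ediv_cancel_left _ hℓ,
      Int.mul_ediv_cancel_left _ hN, show -((ℓ : ℤ) * k) = ℓ * -k by ring,
      Int.mul_ediv_cancel_left _ hℓ]
  · ring

end Fermat.Agent.Hecke
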