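import Mathlib.RingTheory.Coprime.Lemmas
import Mathlib.RingTheory.Int.Basic
import Fermat.Agent.Hecke.Gamma0Transfer

/-!
# Coset representatives for the upper Hecke subgroup

For a prime `p`, representatives `!![1, -j; 0, 1]`, together with one more at infinity when `p ∤ N`,
of the cosets of the subgroup `p ∣ b` of `Γ₀(N)`. Used to compute `T_p` and `U_p` as transfers.
-/

noncomputable section

open scoped MatrixGroups
open CongruenceSubgroup Matrix

namespace Fermat.Agent.Hecke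

variable (N p : ℕ)

/-- `!![1, -j; 0, 1]`. -/
def upperRep (j : ℕ) : Gamma0 N :=
  mkGamma0 N 1 (-(j : ℤ)) 0 1 (by ring) (dvd_zero _)

theorem upperRep_val (j : ℕ) : (upperRep N j).1.1 = !![1, -(j : ℤ); 0, 1] := rfl

theorem upperRep_inv_val (j : ℕ) : ((upperRep N j)⁻¹).1.1 = !![1, (j : ℤ); 0, 1] := by
  simp [InvMemClass.coe_inv, Matrix.SpecialLinearGroup.coe_inv, Matrix.adjugate_fin_two,
    upperRep_val]

variable {N p}

theorem exists_bezout (hp : p.Prime) (hpN : ¬ p ∣ N) :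
    ∃ xy : ℤ × ℤ, (p : ℤ) * xy.1 - N * xy.2 = 1 := by
  obtain ⟨u, v, h⟩ := ((Nat.Prime.coprime_iff_not_dvd hp).mpr hpN).isCoprime
  exact ⟨(u, -v), by linear_combination h⟩

/-- The Bézout pair used for the representative at infinity. -/
def bezout (hp : p.Prime) (hpN : ¬ p ∣ N) : ℤ × ℤ := (exists_bezout hp hpN).choose

theorem bezout_spec (hp : p.Prime) (hpN : ¬ p ∣ N) :
    (p : ℤ) * (bezout hp hpN).1 - N * (bezout hp hpN).2 = 1 := (exists_bezout hp hpN).choose_spec

/-- The inverse of `!![p x, y; N, 1]`. -/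
def upperRepInf (hp : p.Prime) (hpN : ¬ p ∣ N) : Gamma0 N :=
  mkGamma0 N 1 (-(bezout hp hpN).2) (-(N : ℤ)) ((p : ℤ) * (bezout hp hpN).1)
    (by linear_combination bezout_spec hp hpN) (dvd_refl _).neg_right

/-- `!![x, y; N, p]`. -/
def upperEps (hp : p.Prime) (hpN : ¬ p ∣ N) : Gamma0 N :=
  mkGamma0 N (bezout hp hpN).1 (bezout hp hpN).2 N p
    (by linear_combination bezout_spec hp hpN) (dvd_refl _)

theorem upperRepInf_inv_val (hp : p.Prime) (hpN : ¬ p ∣ N) :
    ((upperRepInf hp hpN)⁻¹).1.1 =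
      !![(p : ℤ) * (bezout hp hpN).1, (bezout hp hpN).2; (N : ℤ), 1] := by
  simp [InvMemClass.coe_inv, Matrix.SpecialLinearGroup.coe_inv, Matrix.adjugate_fin_two,
    upperRepInf, mkGamma0_val]

theorem mem_upperSub_iff_eq {a b : Gamma0 N} :
    ((a : Gamma0 N) : Gamma0 N ⧸ upperSub N p) = b ↔
      (p : ℤ) ∣ (a⁻¹).1.1 0 0 * b.1.1 0 1 + (a⁻¹).1.1 0 1 * b.1.1 1 1 := by
  rw [QuotientGroup.eq, mem_upperSub, Gamma0_mul_val, Matrix.mul_apply, Fin.sum_univ_two]

theorem upperRep_injective :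
    Function.Injective fun j : Fin p => ((upperRep N j : Gamma0 N) : Gamma0 N ⧸ upperSub N p) := by
  intro i j h
  rw [mem_upperSub_iff_eq] at h
  simp only [upperRep_inv_val, upperRep_val, Matrix.of_apply, Matrix.cons_val',
      Matrix.cons_val_zero,
    Matrix.cons_val_one, Matrix.cons_val_fin_one] at h
  have h' : (p : ℤ) ∣ ((i : ℕ) : ℤ) - ((j : ℕ) : ℤ) := by
    convert h using 1; ring
  have := i.2
  have := j.2
  exact Fin.ext (by have := Int.eq_zero_of_abs_lt_dvd h' (abs_lt.mpr ⟨by omega, by omega⟩); omega)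

/-- A coset whose lower right entry is prime to `p` has one of the standard representatives. -/
theorem exists_upperRep_eq (hp : p.Prime) {g : Gamma0 N} (hg : ¬ (p : ℤ) ∣ g.1.1 1 1) :
    ∃ j : Fin p, ((upperRep N j : Gamma0 N) : Gamma0 N ⧸ upperSub N p) = g := by
  have hc : IsCoprime (p : ℤ) (g.1.1 1 1) :=
    (Nat.prime_iff_prime_int.mp hp).coprime_iff_not_dvd.mpr hg
  obtain ⟨u, v, huv⟩ := hc
  set j : ℤ := (-(g.1.1 0 1) * v) % p with hj
  have hp0 : (p : ℤ) ≠ 0 := by exact_mod_cast hp.ne_zero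
  refine ⟨⟨j.toNat, ?_⟩, ?_⟩
  · have h1 := Int.emod_nonneg (-(g.1.1 0 1) * v) hp0
    have h2 := Int.emod_lt_of_pos (-(g.1.1 0 1) * v) (by exact_mod_cast hp.pos : (0 : ℤ) < p)
    omega
  · rw [mem_upperSub_iff_eq]
    simp only [upperRep_inv_val, Matrix.of_apply, Matrix.cons_val', Matrix.cons_val_zero,
      Matrix.cons_val_one, Matrix.cons_val_fin_one]
    rw [Int.toNat_of_nonneg (Int.emod_nonneg _ hp0), Int.emod_def]
    refine ⟨u * g.1.1 0 1 - ((-(g.1.1 0 1) * v) / p) * g.1.1 1 1, ?_⟩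
    linear_combination (-(g.1.1 0 1)) * huv

theorem not_dvd_of_dvd (hp : p.Prime) (hpN : p ∣ N) (g : Gamma0 N) : ¬ (p : ℤ) ∣ g.1.1 1 1 := by
  intro h
  obtain ⟨k, hk⟩ := (Int.natCast_dvd_natCast.mpr hpN).trans (Gamma0_dvd g)
  obtain ⟨m, hm⟩ := h
  have hdet := Gamma0_det g
  rw [hk, hm] at hdet
  have : (p : ℤ) ∣ 1 := ⟨g.1.1 0 0 * m - g.1.1 0 1 * k, by linear_combination -hdet⟩
  exact hp.not_dvd_one (by exact_mod_cast this)

/-- The representatives of the cosets when `p ∣ N`. -/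
theorem upperRep_bijective (hp : p.Prime) (hpN : p ∣ N) :
    Function.Bijective fun j : Fin p => ((upperRep N j : Gamma0 N) : Gamma0 N ⧸ upperSub N p) := by
  refine ⟨upperRep_injective, fun q => ?_⟩
  obtain ⟨g, rfl⟩ := QuotientGroup.mk_surjective q
  exact exists_upperRep_eq hp (not_dvd_of_dvd hp hpN g)

/-- All representatives when `p ∤ N`. -/
def upperRepOpt (hp : p.Prime) (hpN : ¬ p ∣ N) : Option (Fin p) → Gamma0 N
  | none => upperRepInf hp hpN
  | some j => upperRep N j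

/-- The representatives of the cosets when `p ∤ N`. -/
theorem upperRepOpt_bijective (hp : p.Prime) (hpN : ¬ p ∣ N) :
    Function.Bijective fun i : Option (Fin p) =>
      ((upperRepOpt hp hpN i : Gamma0 N) : Gamma0 N ⧸ upperSub N p) := by
  have hne : ∀ j : Fin p, ((upperRepInf hp hpN : Gamma0 N) : Gamma0 N ⧸ upperSub N p)
      ≠ (upperRep N j : Gamma0 N) := by
    intro j h
    rw [mem_upperSub_iff_eq] at h
    simp only [upperRepInf_inv_val, upperRep_val, Matrix.of_apply, Matrix.cons_val',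
      Matrix.cons_val_zero, Matrix.cons_val_one, Matrix.cons_val_fin_one] at h
    have hy : (p : ℤ) ∣ (bezout hp hpN).2 := by
      obtain ⟨m, hm⟩ := h
      exact ⟨m + (bezout hp hpN).1 * (j : ℕ), by linear_combination hm⟩
    obtain ⟨m, hm⟩ := hy
    have hb := bezout_spec hp hpN
    rw [hm] at hb
    have : (p : ℤ) ∣ 1 := ⟨(bezout hp hpN).1 - N * m, by linear_combination -hb⟩
    exact hp.not_dvd_one (by exact_mod_cast this)
  constructor
  · rintro (_ | i) (_ | j) h
    · rfl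
    · exact absurd h (hne j)
    · exact absurd h.symm (hne i)
    · exact congrArg some (upperRep_injective h)
  · intro q
    obtain ⟨g, rfl⟩ := QuotientGroup.mk_surjective q
    by_cases hg : (p : ℤ) ∣ g.1.1 1 1
    · refine ⟨none, ?_⟩
      show ((upperRepInf hp hpN : Gamma0 N) : Gamma0 N ⧸ upperSub N p) = g
      rw [mem_upperSub_iff_eq]
      simp only [upperRepInf_inv_val, Matrix.of_apply, Matrix.cons_val', Matrix.cons_val_zero,
        Matrix.cons_val_one, Matrix.cons_val_fin_one]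
      exact dvd_add ((dvd_mul_right _ _).mul_right _) (hg.mul_left _)
    · obtain ⟨j, hj⟩ := exists_upperRep_eq hp hg
      exact ⟨some j, hj⟩

end Fermat.Agent.Hecke
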