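import Fermat.Prelude.Def_ModularForm_HeckeOperatorForms
import Fermat.Agent.Hecke.UpperReps
import Fermat.Agent.Periods.PeriodMap

/-!
# Periods of Hecke images: `periodMap (T_ℓ f) = perTransfer ℓ (periodMap f)`

The periods of `T_p f` and `U_p f` are obtained from those of `f` by transfer along coset
representatives, and the transfer commutes with the involution of characters. So the integral
lattice of periods is stable under the Hecke algebra.
-/

noncomputable section

open UpperHalfPlane hiding I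
open CongruenceSubgroup ModularCurve ModularCurve.Period Matrix.SpecialLinearGroup
open scoped MatrixGroups ModularForm Manifold

namespace Fermat.Agent.Hecke

open Fermat.Agent.Periods

/-- Composition of a primitive with the action of a matrix of positive determinant. -/
theorem isPrimitive_comp_gl {f F : ℍ → ℂ} (hF : IsPrimitive f F) (g : GL (Fin 2) ℝ)
    (hg : (0 : ℝ) < g.val.det) : IsPrimitive (f ∣[(2 : ℤ)] g) (fun z => F (g • z)) := by
  intro τ
  have h1 : HasDerivAt (fun z : ℂ => (↑(g • ofComplex z) : ℂ))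
      ((g.val.det : ℂ) * ((denom g τ) ^ 2)⁻¹) τ := by
    have := (hasStrictDerivAt_smul hg τ).hasDerivAt
    rwa [div_eq_mul_inv] at this
  have h2 : HasDerivAt (F ∘ ofComplex) (f (g • τ))
      ((fun z : ℂ => (↑(g • ofComplex z) : ℂ)) τ) := by
    simpa [ofComplex_apply] using hF (g • τ)
  have h3 := h2.comp (τ : ℂ) h1
  have e : (f ∣[(2 : ℤ)] g) τ = f (g • τ) * ((g.val.det : ℂ) * ((denom g τ) ^ 2)⁻¹) := by
    rw [ModularForm.slash_apply, UpperHalfPlane.σ, Matrix.GeneralLinearGroup.val_det_apply,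
        if_pos hg, zpow_neg,
      show ((2 : ℤ) - 1) = 1 from rfl, zpow_one,
      abs_of_pos hg, ContinuousAlgEquiv.refl_apply, mul_assoc]
    rfl
  rw [e]
  refine h3.congr_of_eventuallyEq (Filter.Eventually.of_forall fun z => ?_)
  simp [ofComplex_apply]

theorem IsPrimitive.sum {ι : Type*} (s : Finset ι) {f F : ι → ℍ → ℂ}
    (h : ∀ i ∈ s, IsPrimitive (f i) (F i)) : IsPrimitive (∑ i ∈ s, f i) (∑ i ∈ s, F i) := by
  induction s using Finset.cons_induction with
  | empty => simpa using IsPrimitive.zero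
  | cons a t ha ih =>
    rw [Finset.sum_cons, Finset.sum_cons]
    exact (h a (by simp)).add (ih fun i hi => h i (by simp [hi]))

variable {N p : ℕ} [NeZero N] [NeZero p]

/-- `diag(1,p)`. -/
abbrev dUp (p : ℕ) : GL (Fin 2) ℝ := ModularForm.heckeMatrix p 0

theorem gamma0_gl_val {N : ℕ} (γ : Gamma0 N) :
    ((γ : SL(2, ℤ)) : GL (Fin 2) ℝ).val = γ.1.1.map (fun x : ℤ => (x : ℝ)) := by
  ext i j
  rfl

omit [NeZero N] in
theorem dUp_mul_gamma (h : upperSub N p) :
    dUp p * ((h.1 : SL(2, ℤ)) : GL (Fin 2) ℝ) =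
      (((upperConj N p h : Gamma0 N) : SL(2, ℤ)) : GL (Fin 2) ℝ) * dUp p := by
  obtain ⟨k, hk⟩ := mem_upperSub.mp h.2
  apply Units.ext
  rw [Units.val_mul, Units.val_mul, ModularForm.val_heckeMatrix (NeZero.ne p), gamma0_gl_val,
    gamma0_gl_val, upperConj_val, hk,
    Int.mul_ediv_cancel_left _ (by exact_mod_cast NeZero.ne p : (p : ℤ) ≠ 0)]
  ext i j
  fin_cases i <;> fin_cases j <;>
    simp [Matrix.mul_apply, Fin.sum_univ_two, hk] <;> ring

omit [NeZero N] [NeZero p] in
theorem slash_gamma0 {k : ℤ} (f : CuspForm (Gamma0 N) k) (γ : Gamma0 N) :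
    (⇑f : ℍ → ℂ) ∣[k] ((γ : SL(2, ℤ)) : GL (Fin 2) ℝ) = ⇑f :=
  SlashInvariantFormClass.slash_action_eq f _ ⟨γ, γ.2, rfl⟩

/-- If `g = Σ f ∣ (diag(1,p) rᵢ⁻¹)` then the periods of `g` are the transfer of those of `f`. -/
theorem periodMap_eq_perTransfer {ι : Type*} [Fintype ι] (r : ι → Gamma0 N)
    (hr : Function.Bijective fun i => ((r i : Gamma0 N) : Gamma0 N ⧸ upperSub N p))
    (f g : CuspForm (Gamma0 N) 2)
    (hg : (⇑g : ℍ → ℂ) =
      ∑ i, (⇑f : ℍ → ℂ) ∣[(2 : ℤ)] (dUp p * (((r i)⁻¹ : Gamma0 N) : SL(2, ℤ)))) :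
    periodMap N g = perTransfer N p ℂ (periodMap N f) := by
  refine addChar_ext fun γ => ?_
  set F := primitive f
  have hF : IsPrimitive f F := isPrimitive_primitive f
  set M : ι → GL (Fin 2) ℝ := fun i => dUp p * (((r i)⁻¹ : Gamma0 N) : SL(2, ℤ)) with hM
  have hdet : ∀ i, (0 : ℝ) < (M i).val.det := fun i => by
    have h1 : ((((r i)⁻¹ : Gamma0 N) : SL(2, ℤ)) : GL (Fin 2) ℝ).val.det = 1 :=
      ((((r i)⁻¹ : Gamma0 N) : SL(2, ℤ)).map (Int.castRingHom ℝ)).det_coe
    rw [hM, Units.val_mul, Matrix.det_mul, ModularForm.val_heckeMatrix (NeZero.ne p),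
      Matrix.det_fin_two_of, h1]
    simpa using NeZero.pos p
  have hG : IsPrimitive g (∑ i, fun z => F (M i • z)) := by
    rw [hg]; exact IsPrimitive.sum _ fun i _ => isPrimitive_comp_gl hF (M i) (hdet i)
  let e := Equiv.ofBijective _ hr
  let σ : ι → ι := fun i => e.symm (γ • e i)
  have hσ : ∀ i, (r (σ i))⁻¹ * (γ * r i) ∈ upperSub N p := fun i => by
    refine QuotientGroup.eq.mp ?_
    show e (σ i) = γ • e i
    exact e.apply_symm_apply _
  have hσb : Function.Bijective σ :=
    e.symm.bijective.comp ((MulAction.bijective γ).comp e.bijective)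
  rw [perTransfer, transferHom_apply_reps _ _ r hr γ σ hσ,
    periodMap_eq_sub g hG γ UpperHalfPlane.I, Finset.sum_apply, Finset.sum_apply,
    ← (Equiv.ofBijective σ hσb).sum_comp, ← Finset.sum_sub_distrib]
  refine Finset.sum_congr rfl fun i _ => ?_
  rw [periodMap_eq_sub f hF _ (M i • UpperHalfPlane.I), Equiv.ofBijective_apply]
  set h : upperSub N p := ⟨_, hσ i⟩
  have key : M (σ i) • ((γ : SL(2, ℤ)) • UpperHalfPlane.I) =
      ((upperConj N p h : Gamma0 N) : SL(2, ℤ)) • (M i • UpperHalfPlane.I) := by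
    simp only [ModularGroup.sl_moeb, ← mul_smul]
    congr 1
    rw [hM, ← mul_assoc, ← dUp_mul_gamma h, mul_assoc, mul_assoc]
    simp only [← map_mul]
    congr 3
    show ((r (σ i))⁻¹ : Gamma0 N).1 * γ.1 =
      (((r (σ i))⁻¹ * (γ * r i) : Gamma0 N)).1 * ((r i)⁻¹ : Gamma0 N).1
    push_cast
    group
  rw [key]

omit [NeZero N] [NeZero p] in
theorem dUp_mul_upperRep (hp : p ≠ 0) (j : ℕ) :
    dUp p * ((((upperRep N j)⁻¹ : Gamma0 N) : SL(2, ℤ)) : GL (Fin 2) ℝ) =
      ModularForm.heckeMatrix p j := by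
  apply Units.ext
  rw [Units.val_mul, gamma0_gl_val, upperRep_inv_val, ModularForm.val_heckeMatrix hp,
    ModularForm.val_heckeMatrix hp]
  ext i k
  fin_cases i <;> fin_cases k <;> simp [Matrix.mul_apply, Fin.sum_univ_two]

/-- Periods of `U_p f`. -/
theorem periodMap_heckeULin (hp : p.Prime) (hpN : p ∣ N) (f : CuspForm (Gamma0 N) 2) :
    periodMap N (CuspForm.heckeULin 2 hpN f) = perTransfer N p ℂ (periodMap N f) := by
  refine periodMap_eq_perTransfer (fun j : Fin p => upperRep N j) (upperRep_bijective hp hpN) _ _ ?_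
  rw [CuspForm.coe_heckeULin_apply, ModularForm.heckeU_def, Finset.sum_range]
  simp only [dUp_mul_upperRep hp.ne_zero]

/-- Periods of `T_p f`. -/
theorem periodMap_heckeTLin (hp : p.Prime) (hpN : ¬ p ∣ N) (f : CuspForm (Gamma0 N) 2) :
    periodMap N (CuspForm.heckeTLin 2 hp hpN f) = perTransfer N p ℂ (periodMap N f) := by
  refine periodMap_eq_perTransfer (upperRepOpt hp hpN) (upperRepOpt_bijective hp hpN) _ _ ?_
  rw [CuspForm.coe_heckeTLin_apply, ModularForm.heckeT_def, Finset.sum_range, Fintype.sum_option,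
    add_comm]
  simp only [upperRepOpt, dUp_mul_upperRep hp.ne_zero]
  congr 1
  have e : dUp p * ((((upperRepInf hp hpN)⁻¹ : Gamma0 N) : SL(2, ℤ)) : GL (Fin 2) ℝ) =
      (((upperEps hp hpN : Gamma0 N) : SL(2, ℤ)) : GL (Fin 2) ℝ) *
        ModularForm.heckeDiagMatrix p := by
    apply Units.ext
    rw [Units.val_mul, Units.val_mul, gamma0_gl_val, gamma0_gl_val, upperRepInf_inv_val,
      upperEps, mkGamma0_val, ModularForm.val_heckeMatrix hp.ne_zero,
      ModularForm.val_heckeDiagMatrix hp.ne_zero]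
    ext i k
    fin_cases i <;> fin_cases k <;> simp [Matrix.mul_apply, Fin.sum_univ_two] <;> ring
  rw [e, SlashAction.slash_mul, slash_gamma0]

/-- `jConjGamma0` as an automorphism. -/
def jConjEquiv (N : ℕ) : Gamma0 N ≃* Gamma0 N :=
  { jConjGamma0 N with
    invFun := jConjGamma0 N
    left_inv := jConjGamma0_jConjGamma0 N
    right_inv := jConjGamma0_jConjGamma0 N }

/-- The transfer commutes with the involution of characters. -/
theorem perTransfer_charInvolution {R A : Type*} [Semiring R] [AddCommGroup A] [Module R A]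
    (χ : Additive (Gamma0 N) →+ A) :
    perTransfer N p A (charInvolution N R A χ) = charInvolution N R A (perTransfer N p A χ) := by
  have hv : ∀ γ : Gamma0 N, (jConjEquiv N γ).1.1 = jConjMat γ.1.1 := fun γ => rfl
  refine transferHom_comp_mulEquiv (upperConj N p) (upperConj N p) (jConjEquiv N)
    (fun γ => ?_) (fun γ => ?_) χ
  · rw [mem_upperSub, mem_upperSub, hv, jConjMat_apply_zero_one, dvd_neg]
  · obtain ⟨k, hk⟩ := mem_upperSub.mp γ.2
    have hp : (p : ℤ) ≠ 0 := by exact_mod_cast NeZero.ne p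
    apply Gamma0_ext <;> simp [hv, upperConj_val, hk, Int.mul_ediv_cancel_left _ hp]
    rw [← mul_neg, Int.mul_ediv_cancel_left _ hp]

end Fermat.Agent.Hecke
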