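import Fermat.Agent.Hecke.MonodromyC
import Fermat.Agent.Mono.Main

/-!
# The Hecke operators on `J₀(N)[m]` are `monoTransfer` on `Hom_cl(Γ₀(N), ℤ/m)`

Base change to `ℂ` commutes with the correspondences, where the formula is known. This identifies
the Hecke action on torsion with that on periods, as needed for the torsion model.
-/

noncomputable section

open AlgebraicCurve CongruenceSubgroup
open ModularCurve (heckeAlphaBar heckeBetaBar qExpand coeffMap modularFunctionFieldBar JZero
  heckeOperatorBar heckeOperatorAlong modularFunctionFieldFull)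

namespace Fermat.Agent.Hecke

local notation "ℚbar" => AlgebraicClosure ℚ

variable {N M : ℕ} [NeZero N] [NeZero M]
variable (φ : modularFunctionFieldBar N →ₐ[ℚbar] modularFunctionFieldBar M)
  (φC : Mono.FC N →ₐ[ℂ] Mono.FC M) (hc : ∀ x, Mono.toFC M (φ x) = φC (Mono.toFC N x))

theorem mem_placeC_iff (v : Place ℚbar (modularFunctionFieldBar N))
    (x : modularFunctionFieldBar N) :
    Mono.toFC N x ∈ (Mono.placeC N v).toValuationSubring ↔ x ∈ v.toValuationSubring := by
  rw [FF.mem_iff, FF.mem_iff, Mono.ord_placeC, map_eq_zero]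

include hc in
theorem restrictAlong_placeC (w : Place ℚbar (modularFunctionFieldBar M)) :
    (Mono.placeC M w).restrictAlong φC (isIntegralAlong φC) =
      Mono.placeC N (w.restrictAlong φ (isIntegralAlong φ)) := by
  refine Mono.placeC_unique N _ _ fun x => ?_
  rw [restrictAlong_toValuationSubring, restrictAlong_toValuationSubring,
    ValuationSubring.mem_comap, ValuationSubring.mem_comap]
  show φC (Mono.toFC N x) ∈ _ ↔ φ x ∈ _
  rw [← hc, mem_placeC_iff]

include hc in
theorem ramificationIndexAlong_placeC (w : Place ℚbar (modularFunctionFieldBar M)) :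
    (Mono.placeC M w).ramificationIndexAlong φC = w.ramificationIndexAlong φ := by
  obtain ⟨f, -, hf⟩ := exists_ord_eq_one (w.restrictAlong φ (isIntegralAlong φ))
  have h1 := ramificationIndexAlong_eq φ (isIntegralAlong φ) w hf
  have h2 := ramificationIndexAlong_eq φC (isIntegralAlong φC) (Mono.placeC M w)
    (f := Mono.toFC N f) (by rw [restrictAlong_placeC φ φC hc, Mono.ord_placeC, hf])
  rw [← hc, Mono.ord_placeC, ← h1] at h2
  exact_mod_cast h2

include hc in
theorem mem_range_placeC_of_restrict (W : Place ℂ (Mono.FC M))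
    (v : Place ℚbar (modularFunctionFieldBar N))
    (h : W.restrictAlong φC (isIntegralAlong φC) = Mono.placeC N v) :
    ∃ w, Mono.placeC M w = W := by
  obtain ⟨t, -, ht⟩ := exists_ord_eq_one v
  refine Mono.exists_placeMap_eq _ _ W ⟨φ t, ?_⟩
  show W.ord (Mono.toFC M (φ t)) ≠ 0
  rw [hc, Place.ord_restrictAlong φC (isIntegralAlong φC), h, Mono.ord_placeC, ht, mul_one]
  let := algebraAlong φC
  have := isScalarTower_along φC
  have := isIntegral_along φC (isIntegralAlong φC)
  exact Int.natCast_ne_zero.mpr (W.ramificationIndex_pos (F := Mono.FC N)).ne'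

include hc in
theorem divC_pushforwardAlong (E : Divisor ℚbar (modularFunctionFieldBar M)) :
    Mono.divC N (Divisor.pushforwardAlong φ (isIntegralAlong φ) E) =
      Divisor.pushforwardAlong φC (isIntegralAlong φC) (Mono.divC M E) := by
  refine DFunLike.congr_fun (divisor_hom_ext
    (f := (Mono.divC N).comp (Divisor.pushforwardAlong φ (isIntegralAlong φ)))
    (g := (Divisor.pushforwardAlong φC (isIntegralAlong φC)).comp (Mono.divC M)) fun w n => ?_) E
  rw [AddMonoidHom.comp_apply, AddMonoidHom.comp_apply, Mono.divC_single,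
    pushforwardAlong_single_one _ _ _ (FF.place_deg_eq_one _),
    pushforwardAlong_single_one _ _ _ (FF.place_deg_eq_one _), Mono.divC_single,
    restrictAlong_placeC φ φC hc]

include hc in
theorem divC_pullbackAlong (D : Divisor ℚbar (modularFunctionFieldBar N)) :
    Mono.divC M (Divisor.pullbackAlong φ (isIntegralAlong φ) D) =
      Divisor.pullbackAlong φC (isIntegralAlong φC) (Mono.divC N D) := by
  refine Finsupp.ext fun W => ?_
  rw [Divisor.pullbackAlong_apply]
  by_cases hW : ∃ w, Mono.placeC M w = W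
  · obtain ⟨w, rfl⟩ := hW
    rw [restrictAlong_placeC φ φC hc, ramificationIndexAlong_placeC φ φC hc]
    show Finsupp.mapDomain (Mono.placeC M) _ _ = _ * Finsupp.mapDomain (Mono.placeC N) D _
    rw [Finsupp.mapDomain_apply (Mono.placeC_injective M),
      Finsupp.mapDomain_apply (Mono.placeC_injective N), Divisor.pullbackAlong_apply]
  · show Finsupp.mapDomain (Mono.placeC M) _ W = _ * Finsupp.mapDomain (Mono.placeC N) D _
    rw [Finsupp.mapDomain_of_notMem_range _ _ hW, Finsupp.mapDomain_of_notMem_range, mul_zero]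
    rintro ⟨v, hv⟩
    exact hW (mem_range_placeC_of_restrict φ φC hc W v hv.symm)

variable (N) (p : Nat.Primes)

theorem toFC_alpha (ℓ : ℕ) [NeZero ℓ] (y : modularFunctionFieldBar N) :
    Mono.toFC (N * ℓ) (heckeAlphaBar ℚbar N ℓ y) = heckeAlphaBar ℂ N ℓ (Mono.toFC N y) :=
  Subtype.ext (by
    rw [Mono.coe_toFC, ModularCurve.coe_heckeAlphaBar, ModularCurve.coe_heckeAlphaBar,
      Mono.coe_toFC])

omit [NeZero N] in
theorem toFC_beta (ℓ : ℕ) [NeZero ℓ] (y : modularFunctionFieldBar N) :
    Mono.toFC (N * ℓ) (heckeBetaBar ℚbar N ℓ y) = heckeBetaBar ℂ N ℓ (Mono.toFC N y) :=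
  Subtype.ext (by
    rw [Mono.coe_toFC, ModularCurve.coe_heckeBetaBar, ModularCurve.coe_heckeBetaBar,
      Mono.coe_toFC, ModularCurve.coeffMap_qExpand])

/-- Base change commutes with the Hecke operators. -/
theorem baseChange_heckeOperatorBar (x : JZero N) :
    haveI : NeZero (p : ℕ) := ⟨p.2.ne_zero⟩
    Mono.baseChange N (heckeOperatorBar N p x) =
      heckeOperatorAlong ℂ N p (Mono.baseChange N x) := by
  have : NeZero (p : ℕ) := ⟨p.2.ne_zero⟩
  obtain ⟨D, rfl⟩ := Pic0.mk_surjective x
  rw [heckeOperatorBar_mk, Mono.baseChange_mk, Mono.baseChange_mk, heckeOperatorAlong_eq_pic0]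
  refine congrArg Pic0.mk (Subtype.ext ?_)
  rw [Mono.coe_degZeroC, Pic0.coe_degZeroCorrespondence, Pic0.coe_degZeroCorrespondence,
    Mono.coe_degZeroC, Divisor.correspondence_apply, Divisor.correspondence_apply,
    divC_pushforwardAlong _ (heckeAlphaBar ℂ N p) (toFC_alpha N p),
    divC_pullbackAlong _ (heckeBetaBar ℂ N p)
      (toFC_beta N p)]

variable {N} {m : ℕ} [NeZero m]

/-- The Hecke operator on `J₀(N)[m]` is the transfer on monodromy characters. -/
theorem torsionEquiv_heckeOperatorBar (hP : Mono.PlaceData N)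
    (x : Pic0.torsion ℚbar (modularFunctionFieldBar N) m)
    (hx : heckeOperatorBar N p (x : JZero N) ∈ Pic0.torsion ℚbar (modularFunctionFieldBar N) m) :
    haveI : NeZero (p : ℕ) := ⟨p.2.ne_zero⟩
    (Mono.torsionEquiv hP m ⟨_, hx⟩ : Additive (Gamma0 N) →+ ZMod m) =
      monoTransfer N p (ZMod m) (Mono.torsionEquiv hP m x : Additive (Gamma0 N) →+ ZMod m) := by
  have : NeZero (p : ℕ) := ⟨p.2.ne_zero⟩
  obtain ⟨D, hD⟩ := Pic0.mk_surjective (Mono.baseChange N (x : JZero N))
  obtain ⟨φ, hφ⟩ := Mono.exists_isMonodromyOn (X0.curveField N) hP D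
    (hD ▸ Mono.baseChange_mem_torsion x.2)
  rw [Mono.torsionEquiv_eq hP x D hD hφ]
  refine Mono.torsionEquiv_eq hP _ (Pic0.degZeroCorrespondence _ _ (betaIntegral ℂ N p)
    (alphaIntegral ℂ N p) (fundamentalIdentityAlong _ _) D) ?_ ?_
  · rw [baseChange_heckeOperatorBar, ← hD, heckeOperatorAlong_eq_pic0]
    rfl
  · rw [Pic0.coe_degZeroCorrespondence]
    exact isMonodromy_correspondence hφ

end Fermat.Agent.Hecke

end
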