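import Fermat.Agent.Grp.Elements
import Fermat.Agent.Hecke.Gamma0Transfer

/-!
# Transfer preserves `Hom_cl`

Transfer along the Hecke subgroups preserves characters killing elliptic and parabolic elements, so
`T_ℓ` acts on `Hom_cl(Γ₀(N), A)`, the model of the torsion of `J₀(N)`.
-/

noncomputable section

open CongruenceSubgroup
open scoped MatrixGroups

namespace Fermat.Agent.Hecke

/-- The traces of the powers of a non-hyperbolic element stay bounded by two. -/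
theorem abs_tr_pow_le_two {g : SL(2, ℤ)} (h : |Grp.tr g| ≤ 2) (n : ℕ) : |Grp.tr (g ^ n)| ≤ 2 := by
  set t := Grp.tr g with ht
  have hdet : g 0 0 * g 1 1 - g 0 1 * g 1 0 = 1 := by rw [← Matrix.det_fin_two]; exact g.2
  have hrec : ∀ k, Grp.tr (g ^ (k + 2)) = t * Grp.tr (g ^ (k + 1)) - Grp.tr (g ^ k) := by
    intro k
    rw [ht, show g ^ (k + 2) = g ^ k * g * g by rw [pow_succ, pow_succ],
      show g ^ (k + 1) = g ^ k * g from pow_succ g k, Grp.tr_eq, Grp.tr_eq, Grp.tr_eq, Grp.tr_eq]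
    simp only [Matrix.SpecialLinearGroup.coe_mul, Matrix.mul_apply, Fin.sum_univ_two]
    linear_combination (((g ^ k : SL(2, ℤ)) 0 0) + ((g ^ k : SL(2, ℤ)) 1 1)) * (-1 : ℤ) * hdet
  suffices H : ∀ k, |Grp.tr (g ^ k)| ≤ 2 ∧ Grp.tr (g ^ k) ^ 2
      - t * Grp.tr (g ^ k) * Grp.tr (g ^ (k + 1)) + Grp.tr (g ^ (k + 1)) ^ 2 = 4 - t ^ 2 from
    (H n).1
  intro k
  induction k with
  | zero =>
    rw [zero_add, pow_one, pow_zero, show Grp.tr (1 : SL(2, ℤ)) = 2 by simp [Grp.tr_eq], ← ht]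
    exact ⟨by norm_num, by ring⟩
  | succ k ih =>
    obtain ⟨ha, hq⟩ := ih
    refine ⟨?_, by rw [hrec]; linear_combination hq⟩
    rw [abs_le] at h ha ⊢
    obtain ⟨h1, h2⟩ := h
    interval_cases t <;> constructor <;>
      nlinarith [sq_nonneg (Grp.tr (g ^ k) - Grp.tr (g ^ (k + 1))),
        sq_nonneg (Grp.tr (g ^ k) + Grp.tr (g ^ (k + 1))),
        sq_nonneg (2 * Grp.tr (g ^ k) - Grp.tr (g ^ (k + 1))),
        sq_nonneg (2 * Grp.tr (g ^ k) + Grp.tr (g ^ (k + 1))), sq_nonneg (Grp.tr (g ^ k))]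

variable {N ℓ : ℕ} [NeZero N] [NeZero ℓ] {A : Type*} [AddCommGroup A]

omit [NeZero N] in
theorem tr_upperConj (γ : upperSub N ℓ) :
    Grp.tr (upperConj N ℓ γ : SL(2, ℤ)) = Grp.tr (γ.1 : SL(2, ℤ)) := by
  simp [Grp.tr_eq, upperConj_val]

omit [NeZero N] [NeZero ℓ] in
/-- A transfer along a trace preserving map keeps the vanishing on elliptic and parabolic
elements. -/
theorem isClHom_transferHom {H : Subgroup (Gamma0 N)} [H.FiniteIndex] (c : H →* Gamma0 N)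
    (hc : ∀ h : H, Grp.tr (c h : SL(2, ℤ)) = Grp.tr (h.1 : SL(2, ℤ)))
    {χ : Additive (Gamma0 N) →+ A} (hχ : Grp.IsClHom (Gamma0 N) χ) :
    Grp.IsClHom (Gamma0 N) (transferHom c A χ) := fun g hg =>
  transferHom_eq_zero_of_forall c (fun x : Gamma0 N => |Grp.tr (x : SL(2, ℤ))| ≤ 2) χ hχ
    fun t n _ h => by
      rw [hc]
      show |Grp.tr (((t⁻¹ * g ^ n * t : Gamma0 N)) : SL(2, ℤ))| ≤ 2
      push_cast
      have := Grp.tr_conj ((t : SL(2, ℤ))⁻¹) ((g : SL(2, ℤ)) ^ n)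
      rw [inv_inv] at this
      rw [this]
      exact abs_tr_pow_le_two hg n

/-- `perTransfer` keeps the cuspidal classes. -/
theorem isClHom_perTransfer {χ : Additive (Gamma0 N) →+ A} (hχ : Grp.IsClHom (Gamma0 N) χ) :
    Grp.IsClHom (Gamma0 N) (perTransfer N ℓ A χ) :=
  isClHom_transferHom _ tr_upperConj hχ

end Fermat.Agent.Hecke

end
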