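import Mathlib.Analysis.Complex.UpperHalfPlane.Measure
import Mathlib.Analysis.SpecialFunctions.ImproperIntegrals
import Mathlib.GroupTheory.Index
import Mathlib.NumberTheory.Modular
import Mathlib.NumberTheory.ModularForms.ArithmeticSubgroups

/-!
# Integration over `H \ ℍ`

The standard fundamental domain has finite volume and meets almost every `SL(2, ℤ)`-orbit in one
point; this gives a finite measure computing integrals of `H`-invariant functions over `H \ ℍ`,
and its behaviour under a change of subgroup and of variable.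
-/

noncomputable section

namespace Fermat.Agent.Hecke.Pet

open MeasureTheory UpperHalfPlane
open scoped MatrixGroups Modular ENNReal

/-- Translation by a point of `SL(2, ℤ)`, as an element of `GL(2, ℝ)`. -/
lemma sl_smul_eq (g : SL(2, ℤ)) (τ : ℍ) :
    g • τ = (Matrix.SpecialLinearGroup.mapGL ℝ g : GL (Fin 2) ℝ) • τ := rfl

instance countable_sl2 : Countable SL(2, ℤ) :=
  Function.Injective.countable (f := fun g : SL(2, ℤ) => fun i j => g.1 i j)
    fun _ _ h => Subtype.ext h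

instance : MeasurableConstSMul (GL (Fin 2) ℝ) ℍ := inferInstance

lemma measurePreserving_sl (g : SL(2, ℤ)) :
    MeasurePreserving (fun τ : ℍ => g • τ) volume volume := by
  simp only [sl_smul_eq]
  exact measurePreserving_smul _ _

lemma measurable_sl (g : SL(2, ℤ)) : Measurable (fun τ : ℍ => g • τ) :=
  (measurePreserving_sl g).measurable

lemma measurableSet_fd : MeasurableSet (𝒟 : Set ℍ) := ModularGroup.isClosed_fd.measurableSet

lemma volume_eq_zero_of_coe {s : Set ℍ} (h : volume ((↑) '' s : Set ℂ) = 0) : volume s = 0 := by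
  rw [UpperHalfPlane.volume_eq_lintegral, Measure.restrict_eq_zero.mpr h, lintegral_zero_measure]

/-- The boundary of the fundamental domain is null. -/
lemma volume_fd_diff_fdo : volume ((𝒟 : Set ℍ) \ 𝒟ᵒ) = 0 := by
  refine volume_eq_zero_of_coe (measure_mono_null ?_
    (measure_union_null (Measure.addHaar_sphere (volume : Measure ℂ) 0 1)
      (measure_union_null (μ := volume) (s := {z : ℂ | z.re = 1 / 2})
        (t := {z : ℂ | z.re = -(1 / 2)}) ?_ ?_)))
  · rintro _ ⟨τ, ⟨⟨h1, h2⟩, h3⟩, rfl⟩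
    rcases h1.eq_or_lt with h1 | h1
    · exact Or.inl (by
        rw [mem_sphere_zero_iff_norm, Complex.norm_def, ← h1, Real.sqrt_one])
    · have h4 : |τ.re| = 1 / 2 := le_antisymm h2 (not_lt.mp fun h => h3 ⟨h1, h⟩)
      exact Or.inr ((abs_eq (by norm_num)).mp h4)
  all_goals
    rw [show {z : ℂ | z.re = _} = Complex.measurableEquivRealProd ⁻¹' ({_} ×ˢ Set.univ) by
        ext z; simp [Complex.measurableEquivRealProd]; rfl,
      Complex.volume_preserving_equiv_real_prod.measure_preimage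
        (MeasurableSet.nullMeasurableSet (measurableSet_singleton _ |>.prod MeasurableSet.univ)),
      Measure.volume_eq_prod, Measure.prod_prod, Real.volume_singleton, zero_mul]

/-- The fundamental domain has finite volume. -/
lemma volume_fd_lt_top : volume (𝒟 : Set ℍ) < ∞ := by
  rw [UpperHalfPlane.volume_eq_lintegral]
  have hsub : ((↑) '' (𝒟 : Set ℍ) : Set ℂ) ⊆
      Complex.measurableEquivRealProd ⁻¹' (Set.Icc (-(1 / 2)) (1 / 2) ×ˢ Set.Ioi (1 / 2)) := by
    rintro _ ⟨τ, hτ, rfl⟩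
    have h3 := ModularGroup.three_le_four_mul_im_sq_of_mem_fd hτ
    have := τ.im_pos
    exact ⟨abs_le.mp hτ.2, show (1 : ℝ) / 2 < τ.im by nlinarith⟩
  refine lt_of_le_of_lt (lintegral_mono_set hsub) ?_
  let g : ℝ × ℝ → ℝ≥0∞ := fun x => ↑((1 / ‖x.2‖₊) ^ 2 : NNReal)
  have e : ∫⁻ z in Complex.measurableEquivRealProd ⁻¹' (Set.Icc (-(1 / 2)) (1 / 2) ×ˢ Set.Ioi
      (1 / 2)),
      (↑((1 / ‖z.im‖₊) ^ 2 : NNReal) : ℝ≥0∞) =
      ∫⁻ x in Set.Icc (-(1 / 2 : ℝ)) (1 / 2) ×ˢ Set.Ioi (1 / 2 : ℝ), g x := by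
    exact Complex.volume_preserving_equiv_real_prod.setLIntegral_comp_preimage_emb
      Complex.measurableEquivRealProd.measurableEmbedding g _
  rw [e, Measure.volume_eq_prod, ← Measure.prod_restrict,
    lintegral_prod _ (by fun_prop)]
  have hy : ∫⁻ y in Set.Ioi (1 / 2 : ℝ), g (0, y) < ∞ := by
    have hint := integrableOn_Ioi_rpow_of_lt (show (-2 : ℝ) < -1 by norm_num)
      (show (0 : ℝ) < 1 / 2 by norm_num)
    refine lt_of_le_of_lt (le_of_eq ?_) hint.hasFiniteIntegral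
    refine setLIntegral_congr_fun measurableSet_Ioi fun y hy => ?_
    have hy0 : (0 : ℝ) < y := lt_trans (by norm_num) hy
    show ((1 / ‖y‖₊) ^ 2 : NNReal) = (‖y ^ (-2 : ℝ)‖₊ : ℝ≥0∞)
    rw [ENNReal.coe_inj]
    apply NNReal.eq
    rw [coe_nnnorm, Real.norm_of_nonneg (Real.rpow_nonneg hy0.le _), Real.rpow_neg hy0.le]
    simp [Real.norm_of_nonneg hy0.le]
  show ∫⁻ _ in Set.Icc (-(1 / 2 : ℝ)) (1 / 2), ∫⁻ y in Set.Ioi (1 / 2 : ℝ), g (0, y) < ∞
  rw [setLIntegral_const]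
  exact ENNReal.mul_lt_top hy (by simp)

/-- The number of elements of `SL(2, ℤ)` moving `τ` into `𝒟`. -/
def fdCount (τ : ℍ) : ℝ≥0∞ := ∑' g : SL(2, ℤ), (𝒟 : Set ℍ).indicator 1 (g • τ)

/-- Almost every orbit meets `𝒟` through exactly two elements of `SL(2, ℤ)`. -/
theorem fdCount_ae : ∀ᵐ τ : ℍ, fdCount τ = 2 := by
  classical
  have hnull : ∀ᵐ τ : ℍ, ∀ g : SL(2, ℤ), g • τ ∉ (𝒟 : Set ℍ) \ 𝒟ᵒ := by
    refine ae_all_iff.mpr fun g => ?_
    exact (measurePreserving_sl g).quasiMeasurePreserving.ae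
      (p := fun σ => σ ∉ (𝒟 : Set ℍ) \ 𝒟ᵒ) (measure_eq_zero_iff_ae_notMem.mp volume_fd_diff_fdo)
  filter_upwards [hnull] with τ hτ
  obtain ⟨g₀, hg₀⟩ := ModularGroup.exists_smul_mem_fd τ
  have ho : g₀ • τ ∈ (𝒟ᵒ : Set ℍ) := not_not.mp fun h => hτ g₀ ⟨hg₀, h⟩
  rw [fdCount, tsum_eq_sum (s := {g₀, -g₀})]
  · have hne : g₀ ≠ -g₀ := fun h => by
      have h2 := congrArg (fun g : SL(2, ℤ) => g.1) h
      simp only [Matrix.SpecialLinearGroup.coe_neg] at h2
      have hd := g₀.det_coe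
      rw [Matrix.det_fin_two] at hd
      have a := congrFun (congrFun h2 0) 0
      have b := congrFun (congrFun h2 0) 1
      simp only [Matrix.neg_apply] at a b
      rw [show g₀.1 0 0 = 0 by omega, show g₀.1 0 1 = 0 by omega] at hd
      simp at hd
    have hg₁ : (-g₀) • τ ∈ (𝒟 : Set ℍ) := by rw [ModularGroup.SL_neg_smul]; exact hg₀
    rw [Finset.sum_pair hne, Set.indicator_of_mem hg₀, Set.indicator_of_mem hg₁, Pi.one_apply,
      Pi.one_apply, one_add_one_eq_two]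
  · intro g hg
    refine Set.indicator_of_notMem (fun hgτ => hg ?_) _
    have h := ModularGroup.eq_one_or_neg_one_of_mem_fdo_mem_fd ho
      (g := g * g₀⁻¹) (by rwa [mul_smul, inv_smul_smul])
    rcases h with h | h
    · rw [mul_inv_eq_one.mp h]; exact Finset.mem_insert_self _ _
    · have : g = -g₀ := by rw [← inv_mul_cancel_right g g₀, h, neg_one_mul]
      rw [this]; exact Finset.mem_insert_of_mem (Finset.mem_singleton_self _)

/-- Unfolding an integral over `ℍ` to the fundamental domain. -/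
theorem two_mul_lintegral {F : ℍ → ℝ≥0∞} (hF : Measurable F) :
    2 * ∫⁻ τ, F τ = ∫⁻ τ in 𝒟, ∑' g : SL(2, ℤ), F (g • τ) := by
  have hD : Measurable ((𝒟 : Set ℍ).indicator (1 : ℍ → ℝ≥0∞)) :=
    measurable_one.indicator measurableSet_fd
  rw [← lintegral_const_mul 2 hF]
  have e1 : ∀ᵐ τ : ℍ, 2 * F τ = ∑' g : SL(2, ℤ), F τ * (𝒟 : Set ℍ).indicator 1 (g • τ) := by
    filter_upwards [fdCount_ae] with τ hτ
    rw [ENNReal.tsum_mul_left, ← fdCount, hτ, mul_comm]
  rw [lintegral_congr_ae e1,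
    lintegral_tsum (f := fun g τ => F τ * (𝒟 : Set ℍ).indicator 1 (g • τ))
      fun g => (hF.mul (hD.comp (measurable_sl g))).aemeasurable,
    lintegral_tsum (f := fun g τ => F (g • τ)) fun g => (hF.comp (measurable_sl g)).aemeasurable,
    ← (Equiv.inv SL(2, ℤ)).tsum_eq]
  refine tsum_congr fun g => ?_
  have hG : Measurable fun σ : ℍ => F (g • σ) * (𝒟 : Set ℍ).indicator 1 σ :=
    (hF.comp (measurable_sl g)).mul hD
  have h1 := (measurePreserving_sl g⁻¹).lintegral_comp hG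
  simp only [smul_inv_smul] at h1
  refine h1.trans ?_
  rw [← lintegral_indicator measurableSet_fd]
  refine lintegral_congr fun σ => ?_
  by_cases h : σ ∈ (𝒟 : Set ℍ) <;> simp [h]

variable (H : Subgroup SL(2, ℤ)) [H.FiniteIndex]

instance fintypeCosets : Fintype (SL(2, ℤ) ⧸ H) := H.fintypeQuotientOfFiniteIndex

/-- The measure of `H \ ℍ`, on the translates of the fundamental domain. -/
def avgMeasure : Measure ℍ :=
  ∑ c : SL(2, ℤ) ⧸ H, (volume.restrict 𝒟).map fun τ => c.out⁻¹ • τ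

instance : IsFiniteMeasure (avgMeasure H) := by
  refine ⟨?_⟩
  rw [avgMeasure, Measure.coe_finsetSum, Finset.sum_apply, ENNReal.sum_lt_top]
  intro c _
  rw [Measure.map_apply (measurable_sl _) MeasurableSet.univ, Set.preimage_univ,
    Measure.restrict_apply_univ]
  exact volume_fd_lt_top

lemma lintegral_avgMeasure {φ : ℍ → ℝ≥0∞} (hφ : Measurable φ) :
    ∫⁻ τ, φ τ ∂(avgMeasure H) = ∑ c : SL(2, ℤ) ⧸ H, ∫⁻ τ in 𝒟, φ (c.out⁻¹ • τ) := by
  rw [avgMeasure, lintegral_finsetSum_measure]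
  exact Finset.sum_congr rfl fun c _ => lintegral_map hφ (measurable_sl _)

omit [H.FiniteIndex] in
/-- A group is the product of the chosen coset representatives and the subgroup. -/
def cosetEquiv {G : Type*} [Group G] (K : Subgroup G) : G ≃ (G ⧸ K) × K where
  toFun g := ((g : G ⧸ K), ⟨((g : G ⧸ K).out)⁻¹ * g, QuotientGroup.eq.mp (QuotientGroup.out_eq' _)⟩)
  invFun x := x.1.out * (x.2 : G)
  left_inv g := by simp
  right_inv x := by
    obtain ⟨c, h⟩ := x
    have hc : ((c.out * (h : G) : G) : G ⧸ K) = c := by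
      rw [QuotientGroup.mk_mul_of_mem _ h.2, QuotientGroup.out_eq']
    refine Prod.ext hc (Subtype.ext ?_)
    show ((c.out * (h : G) : G) : G ⧸ K).out⁻¹ * (c.out * h) = h
    rw [hc, inv_mul_cancel_left]

lemma cosetEquiv_symm_apply {G : Type*} [Group G] (K : Subgroup G) (x : (G ⧸ K) × K) :
    (cosetEquiv K).symm x = x.1.out * (x.2 : G) := rfl

omit [H.FiniteIndex] in
/-- Summing over `SL(2, ℤ)` by right cosets. -/
lemma tsum_cosets (F : SL(2, ℤ) → ℝ≥0∞) :
    ∑' g, F g = ∑' c : SL(2, ℤ) ⧸ H, ∑' h : H, F ((h : SL(2, ℤ)) * c.out⁻¹) := by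
  rw [← (Equiv.inv SL(2, ℤ)).tsum_eq F,
    ← (cosetEquiv H).symm.tsum_eq, ENNReal.tsum_prod']
  refine tsum_congr fun c => ?_
  rw [← (Equiv.inv H).tsum_eq]
  refine tsum_congr fun h => congrArg F ?_
  show ((cosetEquiv H).symm (c, h⁻¹))⁻¹ = _
  rw [cosetEquiv_symm_apply]
  simp

variable {H}

/-- Integrals against a weight with constant orbit sum. -/
theorem two_mul_lintegral_weight {φ w : ℍ → ℝ≥0∞} (hφ : Measurable φ) (hw : Measurable w)
    (hinv : ∀ h : H, ∀ τ, φ ((h : SL(2, ℤ)) • τ) = φ τ) {m : ℝ≥0∞}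
    (hW : ∀ᵐ τ : ℍ, ∑' h : H, w ((h : SL(2, ℤ)) • τ) = m) :
    2 * ∫⁻ τ, φ τ * w τ = m * ∫⁻ τ, φ τ ∂(avgMeasure H) := by
  rw [two_mul_lintegral (F := fun τ => φ τ * w τ) (hφ.mul hw), lintegral_avgMeasure H hφ,
    Finset.mul_sum]
  have e : ∀ τ : ℍ, ∑' g : SL(2, ℤ), φ (g • τ) * w (g • τ) = ∑ c : SL(2, ℤ) ⧸ H,
      φ (c.out⁻¹ • τ) * ∑' h : H, w ((h : SL(2, ℤ)) • (c.out⁻¹ • τ)) := fun τ => by
    rw [tsum_cosets H, tsum_fintype]
    refine Finset.sum_congr rfl fun c _ => ?_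
    rw [← ENNReal.tsum_mul_left]
    refine tsum_congr fun h => ?_
    rw [mul_smul, hinv]
  have e2 : ∀ᵐ τ ∂(volume.restrict 𝒟 : Measure ℍ), ∀ c : SL(2, ℤ) ⧸ H,
      ∑' h : H, w ((h : SL(2, ℤ)) • (c.out⁻¹ • τ)) = m :=
    ae_all_iff.mpr fun c =>
      ae_restrict_of_ae ((measurePreserving_sl c.out⁻¹).quasiMeasurePreserving.ae
        (p := fun σ => ∑' h : H, w ((h : SL(2, ℤ)) • σ) = m) hW)
  simp only [e]
  rw [lintegral_congr_ae (g := fun τ => ∑ c : SL(2, ℤ) ⧸ H, m * φ (c.out⁻¹ • τ))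
      (e2.mono fun τ h => Finset.sum_congr rfl fun c _ => by rw [h c, mul_comm]),
    lintegral_finsetSum (s := Finset.univ) (f := fun (c : SL(2, ℤ) ⧸ H) τ => m * φ (c.out⁻¹ • τ))
      (fun c _ => (hφ.comp (measurable_sl c.out⁻¹)).const_mul m)]
  exact Finset.sum_congr rfl fun c _ => lintegral_const_mul _ (hφ.comp (measurable_sl _))

variable (H)

/-- The weight of the translates of the fundamental domain. -/
def avgWeight (τ : ℍ) : ℝ≥0∞ :=
  ∑ c : SL(2, ℤ) ⧸ H, (𝒟 : Set ℍ).indicator 1 (c.out • τ)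

lemma measurable_avgWeight : Measurable (avgWeight H) :=
  Finset.measurable_sum _ fun _ _ =>
    (measurable_one.indicator measurableSet_fd).comp (measurable_sl _)

lemma avgWeight_ae : ∀ᵐ τ : ℍ, ∑' h : H, avgWeight H ((h : SL(2, ℤ)) • τ) = 2 := by
  filter_upwards [fdCount_ae] with τ hτ
  rw [← hτ, fdCount, ← (cosetEquiv H).symm.tsum_eq,
    ENNReal.tsum_prod', ENNReal.tsum_comm]
  refine tsum_congr fun h => ?_
  rw [avgWeight, tsum_fintype]
  refine Finset.sum_congr rfl fun c _ => ?_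
  rw [cosetEquiv_symm_apply, mul_smul]

variable {H}

/-- **Change of group and of variable.** -/
theorem lintegral_avg_comp {H' : Subgroup SL(2, ℤ)} [H'.FiniteIndex] (a : GL (Fin 2) ℝ)
    (θ : H' →* H) (hθ : Function.Injective θ)
    (hconj : ∀ k : H', ∀ τ : ℍ, a • ((k : SL(2, ℤ)) • τ) = ((θ k : H) : SL(2, ℤ)) • (a • τ))
    (hfin : θ.range.FiniteIndex) :
    ∃ n : ℕ, n ≠ 0 ∧ (θ.range = ⊤ → n = 1) ∧ ∀ φ : ℍ → ℝ≥0∞, Measurable φ →
      (∀ h : H, ∀ τ, φ ((h : SL(2, ℤ)) • τ) = φ τ) →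
      ∫⁻ τ, φ (a • τ) ∂(avgMeasure H') = n * ∫⁻ τ, φ τ ∂(avgMeasure H) := by
  classical
  refine ⟨θ.range.index, Subgroup.FiniteIndex.index_ne_zero, fun h => by rw [h, Subgroup.index_top],
    fun φ hφ hinv => ?_⟩
  have := θ.range.fintypeQuotientOfFiniteIndex
  have hma : MeasurePreserving (fun τ : ℍ => a • τ) volume volume := measurePreserving_smul _ _
  have hma' : MeasurePreserving (fun τ : ℍ => a⁻¹ • τ) volume volume := measurePreserving_smul _ _
  set w : ℍ → ℝ≥0∞ := fun σ => avgWeight H' (a⁻¹ • σ) with hwdef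
  have hw : Measurable w := (measurable_avgWeight H').comp hma'.measurable
  have hW : ∀ᵐ τ : ℍ, ∑' h : H, w ((h : SL(2, ℤ)) • τ) = (θ.range.index : ℝ≥0∞) * 2 := by
    have e : ∀ᵐ τ : ℍ, ∀ c : H ⧸ θ.range, ∑' k : H',
        avgWeight H' ((k : SL(2, ℤ)) • (a⁻¹ • (((c.out⁻¹ : H) : SL(2, ℤ)) • τ))) = 2 :=
      ae_all_iff.mpr fun c => ((hma'.comp (measurePreserving_sl _)).quasiMeasurePreserving.ae
        (p := fun σ => ∑' k : H', avgWeight H' ((k : SL(2, ℤ)) • σ) = 2) (avgWeight_ae H'))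
    filter_upwards [e] with τ hτ
    rw [← (Equiv.inv H).tsum_eq, ← (cosetEquiv θ.range).symm.tsum_eq,
      ENNReal.tsum_prod', tsum_fintype]
    rw [Finset.sum_eq_card_nsmul (b := (2 : ℝ≥0∞)), Finset.card_univ,
      ← Nat.card_eq_fintype_card, ← Subgroup.index_eq_card,
      nsmul_eq_mul]
    intro c _
    rw [← (MonoidHom.ofInjective hθ).toEquiv.tsum_eq, ← (Equiv.inv H').tsum_eq, ← hτ c]
    refine tsum_congr fun k => ?_
    show w (((((cosetEquiv θ.range).symm
      (c, MonoidHom.ofInjective hθ k⁻¹))⁻¹ : H) : SL(2, ℤ)) • τ) = _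
    rw [cosetEquiv_symm_apply, mul_inv_rev, MonoidHom.ofInjective_apply,
      ← map_inv, inv_inv, Subgroup.coe_mul, mul_smul, hwdef]
    show avgWeight H' (a⁻¹ • (((θ k : H) : SL(2, ℤ)) • _)) = _
    congr 1
    rw [inv_smul_eq_iff, hconj, smul_inv_smul]
  have h1 := two_mul_lintegral_weight hφ hw hinv hW
  have h2 := two_mul_lintegral_weight (H := H') (hφ.comp hma.measurable) (measurable_avgWeight H')
    (fun k τ => by show φ (a • _) = φ (a • τ); rw [hconj, hinv]) (avgWeight_ae H')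
  have h3 : ∫⁻ τ, φ τ * w τ = ∫⁻ τ, φ (a • τ) * avgWeight H' τ := by
    rw [← hma.lintegral_comp (f := fun σ => φ σ * w σ) (hφ.mul hw)]
    simp [hwdef]
  rw [h3] at h1
  refine (ENNReal.mul_right_inj (a := 2) two_ne_zero (by simp)).mp ?_
  exact h2.symm.trans (h1.trans (by ring))

/-- Real and complex integrals transform alike. -/
theorem integral_avg_comp {H' : Subgroup SL(2, ℤ)} [H'.FiniteIndex] (a : GL (Fin 2) ℝ)
    (θ : H' →* H) (hθ : Function.Injective θ)
    (hconj : ∀ k : H', ∀ τ : ℍ, a • ((k : SL(2, ℤ)) • τ) = ((θ k : H) : SL(2, ℤ)) • (a • τ))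
    (hfin : θ.range.FiniteIndex) :
    ∃ n : ℕ, n ≠ 0 ∧ (θ.range = ⊤ → n = 1) ∧ ∀ φ : ℍ → ℂ, Continuous φ →
      (∃ C, ∀ τ, ‖φ τ‖ ≤ C) → (∀ h : H, ∀ τ, φ ((h : SL(2, ℤ)) • τ) = φ τ) →
      ∫ τ, φ (a • τ) ∂(avgMeasure H') = n * ∫ τ, φ τ ∂(avgMeasure H) := by
  obtain ⟨n, hn, hn1, hI⟩ := lintegral_avg_comp a θ hθ hconj hfin
  refine ⟨n, hn, hn1, fun φ hφ ⟨C, hC⟩ hinv => ?_⟩
  have hma : Measurable (fun τ : ℍ => a • τ) :=
    (measurePreserving_smul a (volume : Measure ℍ)).measurable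
  have hreal : ∀ ψ : ℍ → ℝ, Measurable ψ → (∀ τ, ‖ψ τ‖ ≤ C) →
      (∀ h : H, ∀ τ, ψ ((h : SL(2, ℤ)) • τ) = ψ τ) →
      ∫ τ, ψ (a • τ) ∂(avgMeasure H') = (n : ℝ) * ∫ τ, ψ τ ∂(avgMeasure H) := by
    intro ψ hψ hψC hψinv
    have pos : ∀ u : ℍ → ℝ, Measurable u → (∀ τ, 0 ≤ u τ) →
        (∀ h : H, ∀ τ, u ((h : SL(2, ℤ)) • τ) = u τ) →
        ∫ τ, u (a • τ) ∂(avgMeasure H') = (n : ℝ) * ∫ τ, u τ ∂(avgMeasure H) := by
      intro u hu hu0 huinv
      rw [integral_eq_lintegral_of_nonneg_ae (Filter.Eventually.of_forall fun τ => hu0 _)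
          (hu.comp hma).aestronglyMeasurable,
        integral_eq_lintegral_of_nonneg_ae (Filter.Eventually.of_forall hu0)
            hu.aestronglyMeasurable,
        hI (fun τ => ENNReal.ofReal (u τ)) hu.ennreal_ofReal (fun h τ => by rw [huinv]),
        ENNReal.toReal_mul, ENNReal.toReal_natCast]
    have h1 := pos (fun τ => max (ψ τ) 0) (hψ.max measurable_const) (fun _ => le_max_right _ _)
      (fun h τ => by rw [hψinv])
    have h2 := pos (fun τ => max (-ψ τ) 0) (hψ.neg.max measurable_const) (fun _ => le_max_right _ _)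
      (fun h τ => by rw [hψinv])
    have hi : ∀ (μ : Measure ℍ) [IsFiniteMeasure μ] (u : ℍ → ℝ), Measurable u → (∀ τ, ‖u τ‖ ≤ C) →
        Integrable (fun τ => max (u τ) 0) μ := fun μ _ u hu hb =>
      Integrable.of_bound (hu.max measurable_const).aestronglyMeasurable C
        (Filter.Eventually.of_forall fun τ => le_trans (by
          rcases le_total (u τ) 0 with h | h <;> simp [h]) (hb τ))
    have split : ∀ (μ : Measure ℍ) [IsFiniteMeasure μ] (u : ℍ → ℝ), Measurable u →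
        (∀ τ, ‖u τ‖ ≤ C) → ∫ τ, u τ ∂μ = (∫ τ, max (u τ) 0 ∂μ) - ∫ τ, max (-u τ) 0 ∂μ :=
      fun μ _ u hu hb => by
        rw [← integral_sub (hi μ u hu hb) (hi μ (-u ·) hu.neg fun τ => by simpa using hb τ)]
        refine integral_congr_ae (Filter.Eventually.of_forall fun τ => ?_)
        exact (max_zero_sub_eq_self (u τ)).symm
    rw [split _ (fun τ => ψ (a • τ)) (hψ.comp hma) fun τ => hψC _, split _ _ hψ hψC,
      mul_sub, h1, h2]
  have hint : Integrable φ (avgMeasure H) := Integrable.of_bound hφ.aestronglyMeasurable C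
    (Filter.Eventually.of_forall hC)
  have hint' : Integrable (fun τ => φ (a • τ)) (avgMeasure H') :=
    Integrable.of_bound (hφ.measurable.comp hma).aestronglyMeasurable C
      (Filter.Eventually.of_forall fun τ => hC _)
  have hre := hreal (fun τ => (φ τ).re) (Complex.continuous_re.comp hφ).measurable
    (fun τ => le_trans (Complex.abs_re_le_norm _) (hC τ)) fun h τ => by rw [hinv]
  have him := hreal (fun τ => (φ τ).im) (Complex.continuous_im.comp hφ).measurable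
    (fun τ => le_trans (Complex.abs_im_le_norm _) (hC τ)) fun h τ => by rw [hinv]
  apply Complex.ext
  · rw [Complex.mul_re, Complex.natCast_re, Complex.natCast_im, zero_mul, sub_zero]
    exact (integral_re hint').symm.trans (hre.trans (congrArg _ (integral_re hint)))
  · rw [Complex.mul_im, Complex.natCast_re, Complex.natCast_im, zero_mul, add_zero]
    exact (integral_im hint').symm.trans (him.trans (congrArg _ (integral_im hint)))

/-- A continuous function whose norm integrates to zero is zero. -/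
theorem eq_zero_of_integral_norm {u : ℍ → ℂ} (hu : Continuous u) (hbd : ∃ C, ∀ τ, ‖u τ‖ ≤ C)
    (hinv : ∀ h : H, ∀ τ, ‖u ((h : SL(2, ℤ)) • τ)‖ = ‖u τ‖)
    (h0 : ∫ τ, ‖u τ‖ ∂(avgMeasure H) = 0) : u = 0 := by
  obtain ⟨C, hC⟩ := hbd
  have hae : (fun τ => ‖u τ‖) =ᵐ[avgMeasure H] 0 := by
    refine (integral_eq_zero_iff_of_nonneg (fun τ => norm_nonneg (u τ))
      (Integrable.of_bound hu.norm.aestronglyMeasurable C
        (Filter.Eventually.of_forall fun τ => by simpa using hC τ))).mp h0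
  have hl : ∫⁻ τ, ‖u τ‖ₑ ∂(avgMeasure H) = 0 := by
    refine (lintegral_eq_zero_iff hu.measurable.enorm).mpr (hae.mono fun τ h => ?_)
    simpa using h
  have h1 := two_mul_lintegral_weight (H := H) hu.measurable.enorm (measurable_avgWeight H)
    (fun h τ => by rw [← ofReal_norm, hinv, ofReal_norm]) (avgWeight_ae H)
  rw [hl, mul_zero, mul_eq_zero, or_iff_right two_ne_zero,
    lintegral_eq_zero_iff (f := fun τ => ‖u τ‖ₑ * avgWeight H τ)
      (hu.measurable.enorm.mul (measurable_avgWeight H))] at h1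
  -- on the open fundamental domain and its translates the weight is positive
  by_contra hne
  obtain ⟨τ₀, hτ₀⟩ := Function.ne_iff.mp hne
  set U : Set ℍ := {τ | u τ ≠ 0} with hUdef
  have hU : IsOpen U := isOpen_ne_fun hu continuous_const
  have hvol : ∀ g : SL(2, ℤ), volume ({τ : ℍ | g • τ ∈ (𝒟 : Set ℍ)} ∩ U) = 0 := by
    intro g
    obtain ⟨c, h, hg⟩ : ∃ (c : SL(2, ℤ) ⧸ H) (h : H), g = c.out * h := by
      exact ⟨(cosetEquiv H g).1, (cosetEquiv H g).2, ((cosetEquiv H).symm_apply_apply g).symm⟩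
    refine measure_mono_null (fun τ hτ => ?_)
      ((measurePreserving_sl (h : SL(2, ℤ))).quasiMeasurePreserving.preimage_null (ae_iff.mp h1))
    obtain ⟨hgτ, hτU⟩ := hτ
    show ¬ (‖u ((h : SL(2, ℤ)) • τ)‖ₑ * avgWeight H ((h : SL(2, ℤ)) • τ) = (0 : ℍ → ℝ≥0∞) _)
    rw [Pi.zero_apply, mul_eq_zero, not_or]
    refine ⟨fun e => hτU (norm_eq_zero.mp ((hinv h τ).symm.trans (by simpa using e))), fun e => ?_⟩
    rw [avgWeight, Finset.sum_eq_zero_iff] at e
    have := e c (Finset.mem_univ c)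
    rw [← mul_smul, ← hg, Set.indicator_of_mem (show g • τ ∈ (𝒟 : Set ℍ) from hgτ),
      Pi.one_apply] at this
    exact one_ne_zero this
  have hUnull : volume U = 0 := by
    refine measure_mono_null (fun τ hτ => ?_) (measure_iUnion_null hvol)
    obtain ⟨g, hg⟩ := ModularGroup.exists_smul_mem_fd τ
    exact Set.mem_iUnion.mpr ⟨g, hg, hτ⟩
  have hopen : IsOpen ((↑) '' U : Set ℂ) := isOpenEmbedding_coe.isOpenMap _ hU
  have hpos := hopen.measure_pos (volume : Measure ℂ) ⟨_,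
      Set.mem_image_of_mem _ (show τ₀ ∈ U from hτ₀)⟩
  refine hpos.ne' ?_
  rw [UpperHalfPlane.volume_eq_lintegral, setLIntegral_eq_zero_iff hopen.measurableSet
      (by fun_prop)] at hUnull
  refine measure_mono_null (fun z hz => ?_) (ae_iff.mp hUnull)
  intro hcon
  obtain ⟨τ, hτ, rfl⟩ := hz
  have := hcon (Set.mem_image_of_mem _ hτ)
  simp [τ.im_ne_zero] at this

end Fermat.Agent.Hecke.Pet

end
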