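import Mathlib.NumberTheory.ModularForms.Bounds
import Mathlib.NumberTheory.ModularForms.CongruenceSubgroups
import Mathlib.RingTheory.Nilpotent.Defs
import Fermat.Prelude.Def_CuspForm_HeckeAlgebra
import Fermat.Agent.Hecke.PeterssonMeasure
import Fermat.Agent.Ihara.Rows

/-!
# Self-adjointness of `T_ℓ` and reducedness of the anemic Hecke algebra

The Petersson product on `S₂(Γ₀(N))` is positive definite and every `T_ℓ` with `ℓ ∤ N` is
self-adjoint for it; hence a Hecke algebra generated by such operators is reduced.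
-/

noncomputable section

namespace Fermat.Agent.Hecke.Pet

open MeasureTheory UpperHalfPlane CongruenceSubgroup
open scoped MatrixGroups ModularForm

local notation "gl" => (Matrix.SpecialLinearGroup.mapGL ℝ : SL(2, ℤ) →* GL (Fin 2) ℝ)

/-- `u` is invariant of weight two under `H`. -/
def IsInvTwo (H : Subgroup SL(2, ℤ)) (u : ℍ → ℂ) : Prop := ∀ h ∈ H, u ∣[(2 : ℤ)] gl h = u

/-- `|u(τ)| Im τ` is bounded and `u` is continuous. -/
def IsTameTwo (u : ℍ → ℂ) : Prop := Continuous u ∧ ∃ C, ∀ τ : ℍ, ‖u τ‖ * τ.im ≤ C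

/-- The slash operator is unitary for the Petersson integrand. -/
lemma pet_slash {g : GL (Fin 2) ℝ} (hg : 0 < g.det.val) (u v : ℍ → ℂ) (τ : ℍ) :
    petersson 2 (u ∣[(2 : ℤ)] g) (v ∣[(2 : ℤ)] g) τ = petersson 2 u v (g • τ) := by
  rw [petersson_slash, σ, if_pos hg, sub_self, zpow_zero, one_mul, ContinuousAlgEquiv.refl_apply]

lemma det_gl_pos (g : SL(2, ℤ)) : 0 < (gl g).det.val := by simp

/-- The integrand of two invariant functions is invariant. -/
lemma pet_inv {H : Subgroup SL(2, ℤ)} {u v : ℍ → ℂ} (hu : IsInvTwo H u) (hv : IsInvTwo H v) (h : H)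
    (τ : ℍ) : petersson 2 u v ((h : SL(2, ℤ)) • τ) = petersson 2 u v τ := by
  rw [sl_smul_eq, ← pet_slash (det_gl_pos _), hu h h.2, hv h h.2]

/-- The size of the Petersson integrand in weight two. -/
lemma norm_pet (u v : ℍ → ℂ) (τ : ℍ) :
    ‖petersson 2 u v τ‖ = (‖u τ‖ * τ.im) * (‖v τ‖ * τ.im) := by
  simp only [petersson, norm_mul, Complex.norm_conj, Complex.norm_real,
    Real.norm_of_nonneg τ.im_pos.le, zpow_two]
  ring

/-- The integrand of two tame functions is continuous and bounded. -/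
lemma petersson_bounded {u v : ℍ → ℂ} (hu : IsTameTwo u) (hv : IsTameTwo v) :
    Continuous (petersson 2 u v) ∧ ∃ C, ∀ τ, ‖petersson 2 u v τ‖ ≤ C := by
  refine ⟨petersson_continuous 2 hu.1 hv.1, ?_⟩
  obtain ⟨C, hC⟩ := hu.2
  obtain ⟨D, hD⟩ := hv.2
  refine ⟨C * D, fun τ => (norm_pet u v τ).le.trans ?_⟩
  exact mul_le_mul (hC τ) (hD τ) (mul_nonneg (norm_nonneg _) τ.im_pos.le)
    ((mul_nonneg (norm_nonneg _) τ.im_pos.le).trans (hC τ))

lemma IsTameTwo.slash {u : ℍ → ℂ} (hu : IsTameTwo u) {g : GL (Fin 2) ℝ} (hg : 0 < g.det.val) :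
    IsTameTwo (u ∣[(2 : ℤ)] g) := by
  refine ⟨?_, ?_⟩
  · have hs : Continuous fun τ : ℍ => g • τ := continuous_const_smul g
    rw [show (u ∣[(2 : ℤ)] g) = fun τ => u (g • τ) * ((|g.det.val| : ℝ) : ℂ) ^ ((2 : ℤ) - 1) *
        denom g τ ^ (-(2 : ℤ)) from funext fun τ => by
      rw [ModularForm.slash_apply, σ, if_pos hg, ContinuousAlgEquiv.refl_apply]]
    refine ((hu.1.comp hs).mul continuous_const).mul (Continuous.zpow₀ ?_ _ fun τ =>
        Or.inl (denom_ne_zero g τ))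
    unfold denom
    fun_prop
  · obtain ⟨C, hC⟩ := hu.2
    refine ⟨C, fun τ => ?_⟩
    have h := congrArg (fun z : ℂ => ‖z‖) (pet_slash hg u u τ)
    simp only [norm_pet] at h
    rw [(mul_self_inj (mul_nonneg (norm_nonneg _) τ.im_pos.le)
      (mul_nonneg (norm_nonneg _) (g • τ).im_pos.le)).mp h]
    exact hC _

variable (N : ℕ) [NeZero N]

/-- The Petersson product on `Γ₀(N)`. -/
def peterssonInner (u v : ℍ → ℂ) : ℂ := ∫ τ, petersson 2 u v τ ∂(avgMeasure (Gamma0 N))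

/-- The integrand of two tame functions is integrable. -/
lemma integrable_pet {H : Subgroup SL(2, ℤ)} [H.FiniteIndex] {u v : ℍ → ℂ} (hu : IsTameTwo u)
    (hv : IsTameTwo v) : Integrable (petersson 2 u v) (avgMeasure H) := by
  obtain ⟨h1, C, hC⟩ := petersson_bounded hu hv
  exact Integrable.of_bound h1.aestronglyMeasurable C (Filter.Eventually.of_forall hC)

lemma peterssonInner_conj (u v : ℍ → ℂ) :
    peterssonInner N v u = starRingEnd ℂ (peterssonInner N u v) := by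
  rw [peterssonInner, peterssonInner, ← integral_conj]
  simp only [← petersson_symm]

omit [NeZero N] in
lemma isInvTwo_coe (f : CuspForm (Gamma0 N) 2) : IsInvTwo (Gamma0 N) f := fun _ hh =>
  SlashInvariantFormClass.slash_action_eq f _ (Subgroup.mem_map_of_mem _ hh)

/-- Cusp forms are tame. -/
lemma isTameTwo_coe (f : CuspForm (Gamma0 N) 2) : IsTameTwo f := by
  obtain ⟨C, hC⟩ := CuspFormClass.petersson_bounded_left 2 (Gamma0 N : Subgroup (GL (Fin 2) ℝ)) f f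
  refine ⟨(CuspFormClass.holo f).continuous, C.sqrt, fun τ => Real.le_sqrt_of_sq_le ?_⟩
  rw [sq]
  exact (norm_pet f f τ).symm.le.trans (hC τ)

/-- Positive definiteness. -/
theorem eq_zero_of_peterssonInner_self (f : CuspForm (Gamma0 N) 2)
    (h : peterssonInner N f f = 0) : f = 0 := by
  have hnn : ∀ τ, petersson 2 f f τ = ((‖petersson 2 (⇑f) (⇑f) τ‖ : ℝ) : ℂ) := fun τ => by
    rw [norm_pet]
    simp only [petersson, Complex.ofReal_mul, zpow_two]
    rw [Complex.conj_mul']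
    ring
  obtain ⟨hc, hb⟩ := petersson_bounded (isTameTwo_coe N f) (isTameTwo_coe N f)
  rw [peterssonInner, integral_congr_ae (Filter.Eventually.of_forall hnn), integral_complex_ofReal,
    Complex.ofReal_eq_zero] at h
  have h0 := eq_zero_of_integral_norm hc hb
    (fun g τ => by rw [pet_inv (isInvTwo_coe N f) (isInvTwo_coe N f)]) h
  refine DFunLike.ext f 0 fun τ => ?_
  have := congrArg norm (congrFun h0 τ)
  rw [norm_pet, Pi.zero_apply, norm_zero, mul_self_eq_zero, mul_eq_zero] at this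
  exact norm_eq_zero.mp (this.resolve_right τ.im_ne_zero)

section Adjoint

variable {ℓ : ℕ}

lemma Gamma_le_mul (D : ℕ) (ℓ : ℕ) : Gamma (D * ℓ) ≤ Gamma D := fun g hg => by
  rw [Ihara.Gamma_mem_iff_dvd] at hg ⊢
  have : (D : ℤ) ∣ (D * ℓ : ℕ) := by push_cast; exact dvd_mul_right _ _
  exact ⟨this.trans hg.1, this.trans hg.2.1, this.trans hg.2.2.1, this.trans hg.2.2.2⟩

variable (ℓ) in
/-- The conjugate of an element of `Γ(D ℓ)` by `diag(1, ℓ)`. -/
def conjDiag [NeZero ℓ] (D : ℕ) : Gamma (D * ℓ) →* Gamma D where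
  toFun k := ⟨⟨!![k.1 0 0, k.1 0 1 / ℓ; ℓ * k.1 1 0, k.1 1 1], by
      have hk := Ihara.Gamma_mem_iff_dvd.mp k.2
      have hl : (ℓ : ℤ) ∣ k.1 0 1 := (show (ℓ : ℤ) ∣ ((D * ℓ : ℕ) : ℤ) by
        push_cast; exact dvd_mul_left _ _).trans hk.2.1
      have hd := k.1.det_coe
      rw [Matrix.det_fin_two] at hd
      rw [Matrix.det_fin_two_of, ← mul_assoc, Int.ediv_mul_cancel hl]
      exact hd⟩, by
    have hk := Ihara.Gamma_mem_iff_dvd.mp k.2
    have hD : (D : ℤ) ∣ ((D * ℓ : ℕ) : ℤ) := by push_cast; exact dvd_mul_right _ _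
    refine Ihara.Gamma_mem_iff_dvd.mpr ⟨hD.trans hk.1, ?_, (hD.trans hk.2.2.1).mul_left _,
        hD.trans hk.2.2.2⟩
    obtain ⟨c, hc⟩ := hk.2.1
    refine ⟨c, ?_⟩
    show k.1 0 1 / ℓ = D * c
    rw [hc]
    push_cast
    rw [mul_assoc, mul_comm (ℓ : ℤ), ← mul_assoc, Int.mul_ediv_cancel _
        (by exact_mod_cast NeZero.ne ℓ)]⟩
  map_one' := by
    refine Subtype.ext (Subtype.ext ?_)
    ext i j
    fin_cases i <;> fin_cases j <;> simp
  map_mul' x y := by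
    refine Subtype.ext (Subtype.ext ?_)
    have hdiv : ∀ k : Gamma (D * ℓ), (ℓ : ℤ) ∣ k.1 0 1 := fun k =>
      (show (ℓ : ℤ) ∣ ((D * ℓ : ℕ) : ℤ) by push_cast; exact dvd_mul_left _ _).trans
        (Ihara.Gamma_mem_iff_dvd.mp k.2).2.1
    obtain ⟨a, ha⟩ := hdiv x
    obtain ⟨b, hb⟩ := hdiv y
    have hl : (ℓ : ℤ) ≠ 0 := by exact_mod_cast NeZero.ne ℓ
    have e1 : (x.1 0 1) / (ℓ : ℤ) = a := by rw [ha]; exact Int.mul_ediv_cancel_left _ hl
    have e2 : (y.1 0 1) / (ℓ : ℤ) = b := by rw [hb]; exact Int.mul_ediv_cancel_left _ hl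
    have e3 : ((x * y : Gamma (D * ℓ)) : SL(2, ℤ)) 0 1 / (ℓ : ℤ) =
        x.1 0 0 * b + a * y.1 1 1 := by
      rw [show ((x * y : Gamma (D * ℓ)) : SL(2, ℤ)) 0 1 = (ℓ : ℤ) * (x.1 0 0 * b + a * y.1 1 1) by
        simp [Matrix.mul_apply, Fin.sum_univ_two, ha, hb]; ring]
      exact Int.mul_ediv_cancel_left _ hl
    have e4 : (x.1 0 0 * y.1 0 1 + x.1 0 1 * y.1 1 1) / (ℓ : ℤ) = x.1 0 0 * b + a * y.1 1 1 := by
      simpa [Matrix.mul_apply, Fin.sum_univ_two] using e3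
    ext i j
    fin_cases i <;> fin_cases j <;> simp [Matrix.mul_apply, Fin.sum_univ_two, e1, e2, e4]
    all_goals first | ring1 | (rw [ha]; ring1) | (rw [hb]; ring1)

lemma conjDiag_mul [NeZero ℓ] (D : ℕ) (k : Gamma (D * ℓ)) :
    ModularForm.heckeMatrix ℓ 0 * gl (k : SL(2, ℤ)) =
      gl ((conjDiag ℓ D k : Gamma D) : SL(2, ℤ)) * ModularForm.heckeMatrix ℓ 0 := by
  have hdiv : (ℓ : ℤ) ∣ k.1 0 1 :=
    (show (ℓ : ℤ) ∣ ((D * ℓ : ℕ) : ℤ) by push_cast; exact dvd_mul_left _ _).trans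
      (Ihara.Gamma_mem_iff_dvd.mp k.2).2.1
  obtain ⟨a, ha⟩ := hdiv
  have hl : (ℓ : ℤ) ≠ 0 := by exact_mod_cast NeZero.ne ℓ
  have e1 : (k.1 0 1) / (ℓ : ℤ) = a := by rw [ha]; exact Int.mul_ediv_cancel_left _ hl
  ext i j
  fin_cases i <;> fin_cases j <;>
    simp [conjDiag, Matrix.mul_apply, Fin.sum_univ_two, ModularForm.val_heckeMatrix (NeZero.ne ℓ),
        e1,
      mul_comm]
  all_goals (rw [ha]; push_cast; ring)

lemma conjDiag_injective [NeZero ℓ] (D : ℕ) : Function.Injective (conjDiag ℓ D) := fun x y h => by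
  have h1 := congrArg (fun k : Gamma D => gl (k : SL(2, ℤ)) * ModularForm.heckeMatrix ℓ 0) h
  simp only [← conjDiag_mul, mul_right_inj] at h1
  exact Subtype.ext (Matrix.SpecialLinearGroup.mapGL_injective h1)

lemma finiteIndex_range_conjDiag [NeZero ℓ] (D : ℕ) [NeZero D] :
    (conjDiag ℓ D).range.FiniteIndex := by
  have : NeZero (D * ℓ * ℓ) := ⟨mul_ne_zero (mul_ne_zero (NeZero.ne D) (NeZero.ne ℓ)) (NeZero.ne ℓ)⟩
  refine @Subgroup.finiteIndex_of_le _ _ ((Gamma (D * ℓ * ℓ)).subgroupOf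
      (Gamma D)) _ inferInstance ?_
  intro h hh
  obtain ⟨h00, h01, h10, h11⟩ := Ihara.Gamma_mem_iff_dvd.mp (Subgroup.mem_subgroupOf.mp hh)
  obtain ⟨c, hc⟩ := h10
  push_cast at hc
  have hl : (ℓ : ℤ) ≠ 0 := by exact_mod_cast NeZero.ne ℓ
  have hD : ((D * ℓ : ℕ) : ℤ) ∣ ((D * ℓ * ℓ : ℕ) : ℤ) := by push_cast; exact dvd_mul_right _ _
  refine ⟨⟨⟨!![h.1 0 0, h.1 0 1 * ℓ; D * ℓ * c, h.1 1 1], ?_⟩, ?_⟩, Subtype.ext (Subtype.ext ?_)⟩
  · have hd := h.1.det_coe
    rw [Matrix.det_fin_two, hc] at hd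
    rw [Matrix.det_fin_two_of]
    linear_combination hd
  · refine Ihara.Gamma_mem_iff_dvd.mpr ⟨hD.trans h00, (hD.trans h01).mul_right _, ?_, hD.trans h11⟩
    push_cast
    exact dvd_mul_right _ _
  · ext i j
    fin_cases i <;> fin_cases j <;> simp [conjDiag, hc, Int.mul_ediv_cancel _ hl]
    all_goals ring

variable (hℓ : ℓ.Prime) (hℓN : ¬ ℓ ∣ N)

omit [NeZero N] in
include hℓ hℓN in
/-- `T_ℓ` as a sum of translates of one slash. -/
lemma heckeT_translates :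
    ∃ (γ : Option (Fin ℓ) → SL(2, ℤ)), (∀ i, γ i ∈ Gamma0 N) ∧
      (∀ u : ℍ → ℂ, IsInvTwo (Gamma0 N) u → ModularForm.heckeT 2 ℓ u =
        ∑ i, (u ∣[(2 : ℤ)] ModularForm.heckeMatrix ℓ 0) ∣[(2 : ℤ)] gl (γ i)) ∧
      ∀ u : ℍ → ℂ, IsInvTwo (Gamma0 N) u → u ∣[(2 : ℤ)] ModularForm.heckeDiagMatrix ℓ =
        (u ∣[(2 : ℤ)] ModularForm.heckeMatrix ℓ 0) ∣[(2 : ℤ)] gl (γ none) := by
  have hcop : Nat.Coprime ℓ N := hℓ.coprime_iff_not_dvd.mpr hℓN
  have hbez := Int.gcd_eq_gcd_ab (ℓ : ℤ) (N : ℤ)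
  rw [Int.gcd_natCast_natCast, hcop.gcd_eq_one, Nat.cast_one] at hbez
  set x := Int.gcdA (ℓ : ℤ) N
  set y := -Int.gcdB (ℓ : ℤ) N
  let γ₂ : SL(2, ℤ) := ⟨!![(ℓ : ℤ), y; (N : ℤ), x], by
    rw [Matrix.det_fin_two_of]; linear_combination -hbez⟩
  let δ : SL(2, ℤ) := ⟨!![(1 : ℤ), y; (N : ℤ), ℓ * x], by
    rw [Matrix.det_fin_two_of]; linear_combination -hbez⟩
  let tr : Fin ℓ → SL(2, ℤ) := fun j => ⟨!![(1 : ℤ), (j : ℕ); 0, 1], by simp⟩
  have hγ₂ : γ₂ ∈ Gamma0 N := by simp [Gamma0_mem, γ₂]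
  have hδ : δ ∈ Gamma0 N := by simp [Gamma0_mem, δ]
  have hdiag : ∀ u : ℍ → ℂ, IsInvTwo (Gamma0 N) u → u ∣[(2 : ℤ)] ModularForm.heckeDiagMatrix ℓ =
      (u ∣[(2 : ℤ)] ModularForm.heckeMatrix ℓ 0) ∣[(2 : ℤ)] gl γ₂ := fun u hu => by
    conv_lhs => rw [← hu δ hδ]
    rw [← SlashAction.slash_mul, ← SlashAction.slash_mul]
    congr 1
    ext i j
    fin_cases i <;> fin_cases j <;>
      simp [δ, γ₂, Matrix.mul_apply, Fin.sum_univ_two, ModularForm.val_heckeMatrix hℓ.ne_zero,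
        ModularForm.val_heckeDiagMatrix hℓ.ne_zero, mul_comm]
  refine ⟨fun i => i.elim γ₂ tr, fun i => ?_, fun u hu => ?_, hdiag⟩
  · rcases i with - | j
    · exact hγ₂
    · simp [Gamma0_mem, tr]
  · rw [ModularForm.heckeT_def, hdiag u hu, Fintype.sum_option, add_comm]
    congr 1
    rw [← Fin.sum_univ_eq_sum_range (fun j => u ∣[(2 : ℤ)] ModularForm.heckeMatrix ℓ j)]
    refine Finset.sum_congr rfl fun j _ => ?_
    rw [← SlashAction.slash_mul]
    congr 1
    ext a b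
    fin_cases a <;> fin_cases b <;>
      simp [tr, Matrix.mul_apply, Fin.sum_univ_two, ModularForm.val_heckeMatrix hℓ.ne_zero]

include hℓ in
/-- `diag(ℓ, 1)` and `diag(1, ℓ)` cancel in weight two. -/
lemma slash_diag_mul (u : ℍ → ℂ) :
    (u ∣[(2 : ℤ)] ModularForm.heckeDiagMatrix ℓ) ∣[(2 : ℤ)] ModularForm.heckeMatrix ℓ 0 = u := by
  funext τ
  have hℓ0 : (ℓ : ℂ) ≠ 0 := by exact_mod_cast hℓ.ne_zero
  rw [ModularForm.slash_heckeMatrix_apply _ hℓ.ne_zero, ModularForm.slash_heckeDiagMatrix_apply _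
      hℓ.ne_zero]
  have e : ModularForm.heckeDiagMatrix ℓ • (ModularForm.heckeMatrix ℓ 0 • τ) = τ := by
    ext : 1
    rw [ModularForm.coe_heckeDiagMatrix_smul hℓ.ne_zero,
        ModularForm.coe_heckeMatrix_smul hℓ.ne_zero]
    field_simp
    simp
  rw [e, show (2 : ℤ) - 1 = 1 from rfl, zpow_one, inv_mul_cancel_left₀ hℓ0]

/-- Integrals over `Γ(D)` are invariant under `SL(2, ℤ)`. -/
lemma integral_gamma_comp (D : ℕ) [NeZero D] (g : SL(2, ℤ)) {φ : ℍ → ℂ} (hc : Continuous φ)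
    (hb : ∃ C, ∀ τ, ‖φ τ‖ ≤ C) (hinv : ∀ h : Gamma D, ∀ τ, φ ((h : SL(2, ℤ)) • τ) = φ τ) :
    ∫ τ, φ (g • τ) ∂(avgMeasure (Gamma D)) = ∫ τ, φ τ ∂(avgMeasure (Gamma D)) := by
  let θ : Gamma D →* Gamma D :=
    { toFun := fun k => ⟨g * k * g⁻¹, (Gamma_normal D).conj_mem _ k.2 g⟩
      map_one' := Subtype.ext (by simp)
      map_mul' := fun a b => Subtype.ext (by simp [mul_assoc]) }
  have htop : θ.range = ⊤ := by
    refine MonoidHom.range_eq_top.mpr fun h => ⟨⟨g⁻¹ * h * g, ?_⟩,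
        Subtype.ext (by simp [θ, mul_assoc])⟩
    simpa using (Gamma_normal D).conj_mem _ h.2 g⁻¹
  obtain ⟨n, -, hn, h⟩ := integral_avg_comp (H := Gamma D) (gl g) θ
    (fun a b e => Subtype.ext (mul_left_cancel (mul_right_cancel (congrArg Subtype.val e))))
    (fun k τ => by
      simp only [← sl_smul_eq, ← mul_smul, θ, MonoidHom.coe_mk, OneHom.coe_mk,
          inv_mul_cancel_right])
    (by rw [htop]; infer_instance)
  have := h φ hc hb hinv
  rw [hn htop, Nat.cast_one, one_mul] at this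
  exact this

omit [NeZero N] in
/-- `Γ(N)` is contained in `Γ₀(N)`. -/
lemma Gamma_le_Gamma0 : Gamma N ≤ Gamma0 N := fun k hk => by
  rw [Gamma0_mem, (ZMod.intCast_zmod_eq_zero_iff_dvd _ _)]
  exact (Ihara.Gamma_mem_iff_dvd.mp hk).2.2.1

omit [NeZero N] in
/-- Cusp forms of level `N` are invariant under `Γ(N ℓ)`. -/
lemma isInvTwo_coe_gamma (f : CuspForm (Gamma0 N) 2) : IsInvTwo (Gamma (N * ℓ)) f := fun k hk =>
  isInvTwo_coe N f k ((Gamma_le_mul N ℓ).trans (Gamma_le_Gamma0 N) hk)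

variable [NeZero ℓ]

omit [NeZero N] in
/-- The translate of a form of level `N` by `diag(1, ℓ)` is invariant under `Γ(N ℓ)`. -/
lemma isInvTwo_slash_heckeMatrix (f : CuspForm (Gamma0 N) 2) :
    IsInvTwo (Gamma (N * ℓ)) (⇑f ∣[(2 : ℤ)] ModularForm.heckeMatrix ℓ 0) := fun k hk => by
  rw [← SlashAction.slash_mul, conjDiag_mul (ℓ := ℓ) N ⟨k, hk⟩, SlashAction.slash_mul,
    isInvTwo_coe N f _ (Gamma_le_Gamma0 N (conjDiag ℓ N ⟨k, hk⟩).2)]

variable (ℓ) in
/-- The Petersson pairing on `Γ(N ℓ)` of the translate of `f` by `diag(1, ℓ)` with `g`. -/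
def slashPairing (f g : CuspForm (Gamma0 N) 2) : ℂ :=
  ∫ τ, petersson 2 (⇑f ∣[(2 : ℤ)] ModularForm.heckeMatrix ℓ 0) g τ ∂(avgMeasure (Gamma (N * ℓ)))

include hℓ hℓN in
/-- The pairing `slashPairing` is hermitian up to a fixed ratio of indices. -/
lemma exists_slashPairing_symm : ∃ n n' : ℕ, n ≠ 0 ∧ n' ≠ 0 ∧ ∀ f g : CuspForm (Gamma0 N) 2,
    (n' : ℂ) * slashPairing N ℓ f g = n * starRingEnd ℂ (slashPairing N ℓ g f) := by
  have : NeZero (N * ℓ) := ⟨mul_ne_zero (NeZero.ne N) hℓ.ne_zero⟩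
  have : NeZero (N * ℓ * ℓ) := ⟨mul_ne_zero (NeZero.ne (N * ℓ)) hℓ.ne_zero⟩
  obtain ⟨γ, hγ, -, hdiag⟩ := heckeT_translates N hℓ hℓN
  set a := ModularForm.heckeMatrix ℓ 0
  have ha : 0 < a.det.val := ModularForm.det_heckeMatrix_pos ℓ 0
  have hinvD : ∀ f : CuspForm (Gamma0 N) 2,
      IsInvTwo (Gamma (N * ℓ)) (⇑f ∣[(2 : ℤ)] ModularForm.heckeDiagMatrix ℓ) := fun f k hk => by
    rw [hdiag _ (isInvTwo_coe N f), ← SlashAction.slash_mul, ← map_mul,
      show γ none * k = (γ none * k * (γ none)⁻¹) * γ none by group, map_mul, SlashAction.slash_mul,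
      isInvTwo_slash_heckeMatrix N f _ ((Gamma_normal _).conj_mem _ hk _)]
  obtain ⟨n', hn', -, hI'⟩ := integral_avg_comp (H := Gamma (N * ℓ)) (H' := Gamma (N * ℓ * ℓ)) 1
    (Subgroup.inclusion (Gamma_le_mul (N * ℓ) ℓ)) (Subgroup.inclusion_injective _)
    (fun k τ => by simp)
    (by rw [Subgroup.inclusion_range]; infer_instance)
  obtain ⟨n, hn, -, hI⟩ := integral_avg_comp (H := Gamma (N * ℓ)) (H' := Gamma (N * ℓ * ℓ)) a
    (conjDiag ℓ (N * ℓ)) (conjDiag_injective _)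
    (fun k τ => by simp only [sl_smul_eq, ← mul_smul, a, conjDiag_mul])
    (finiteIndex_range_conjDiag _)
  refine ⟨n, n', hn, hn', fun f g => ?_⟩
  have h1 := hI' _ (petersson_bounded ((isTameTwo_coe N f).slash ha) (isTameTwo_coe N g)).1
    (petersson_bounded ((isTameTwo_coe N f).slash ha) (isTameTwo_coe N g)).2
    (pet_inv (isInvTwo_slash_heckeMatrix N f) (isInvTwo_coe_gamma N g))
  have hφt := petersson_bounded (isTameTwo_coe N f) ((isTameTwo_coe N g).slash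
    (ModularForm.det_heckeDiagMatrix_pos ℓ))
  have h2 := hI _ hφt.1 hφt.2 (pet_inv (isInvTwo_coe_gamma N f) (hinvD g))
  have h3 : ∀ τ, petersson 2 f (⇑g ∣[(2 : ℤ)] ModularForm.heckeDiagMatrix ℓ) (a • τ) =
      petersson 2 (⇑f ∣[(2 : ℤ)] a) g τ := fun τ => by
    rw [← pet_slash ha, slash_diag_mul hℓ]
  simp only [h3] at h2
  simp only [one_smul] at h1
  have h4 : ∫ τ, petersson 2 f (⇑g ∣[(2 : ℤ)] ModularForm.heckeDiagMatrix ℓ) τ
      ∂(avgMeasure (Gamma (N * ℓ))) = starRingEnd ℂ (slashPairing N ℓ g f) := by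
    show _ = starRingEnd ℂ (∫ τ, _ ∂_)
    rw [← integral_conj]
    simp only [← petersson_symm]
    rw [← integral_gamma_comp (N * ℓ) (γ none)
      (petersson_bounded (isTameTwo_coe N f) ((isTameTwo_coe N g).slash ha)).1
      (petersson_bounded (isTameTwo_coe N f) ((isTameTwo_coe N g).slash ha)).2
      (pet_inv (isInvTwo_coe_gamma N f) (isInvTwo_slash_heckeMatrix N g))]
    refine integral_congr_ae (Filter.Eventually.of_forall fun τ => ?_)
    show petersson 2 f _ τ = petersson 2 f (⇑g ∣[(2 : ℤ)] a) (γ none • τ)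
    rw [sl_smul_eq, ← pet_slash (det_gl_pos _), ← hdiag _ (isInvTwo_coe N g),
      isInvTwo_coe N f _ (hγ none)]
  rw [show (n' : ℂ) * slashPairing N ℓ f g = _ from h1.symm, h2, h4]

include hℓ hℓN in
/-- `⟨T_ℓ f, g⟩` is a fixed multiple of `slashPairing`. -/
lemma exists_mul_peterssonInner_heckeT : ∃ m : ℕ, m ≠ 0 ∧ ∀ f g : CuspForm (Gamma0 N) 2,
    (m : ℂ) * peterssonInner N (CuspForm.heckeTLin 2 hℓ hℓN f) g =
        (ℓ + 1) * slashPairing N ℓ f g := by
  classical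
  have : NeZero (N * ℓ) := ⟨mul_ne_zero (NeZero.ne N) hℓ.ne_zero⟩
  obtain ⟨γ, hγ, hT, -⟩ := heckeT_translates N hℓ hℓN
  set a := ModularForm.heckeMatrix ℓ 0
  have ha : 0 < a.det.val := ModularForm.det_heckeMatrix_pos ℓ 0
  have hincl : Gamma (N * ℓ) ≤ Gamma0 N := (Gamma_le_mul N ℓ).trans (Gamma_le_Gamma0 N)
  obtain ⟨m, hm, -, hIm⟩ := integral_avg_comp (H := Gamma0 N) (H' := Gamma (N * ℓ)) 1
    (Subgroup.inclusion hincl) (Subgroup.inclusion_injective hincl) (fun k τ => by simp)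
    (by rw [Subgroup.inclusion_range]; infer_instance)
  refine ⟨m, hm, fun f g => ?_⟩
  set F := CuspForm.heckeTLin 2 hℓ hℓN f
  have h1 := hIm _ (petersson_bounded (isTameTwo_coe N F) (isTameTwo_coe N g)).1
    (petersson_bounded (isTameTwo_coe N F) (isTameTwo_coe N g)).2
    (pet_inv (isInvTwo_coe N F) (isInvTwo_coe N g))
  simp only [one_smul] at h1
  rw [peterssonInner, ← h1]
  have hsum : ∀ τ, petersson 2 F g τ =
      ∑ i, petersson 2 (⇑f ∣[(2 : ℤ)] a) g (γ i • τ) := fun τ => by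
    simp only [sl_smul_eq, ← pet_slash (det_gl_pos _), isInvTwo_coe N g _ (hγ _)]
    show petersson 2 (ModularForm.heckeT 2 ℓ ⇑f) g τ = _
    rw [hT _ (isInvTwo_coe N f)]
    simp only [petersson, Finset.sum_apply, map_sum, Finset.sum_mul]
  simp only [hsum]
  obtain ⟨hc, hb⟩ := petersson_bounded ((isTameTwo_coe N f).slash ha) (isTameTwo_coe N g)
  rw [integral_finsetSum _ (f := fun i τ => petersson 2 (⇑f ∣[(2 : ℤ)] a) g (γ i • τ))
    fun i _ => Integrable.of_bound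
    (hc.measurable.comp (measurable_sl _)).aestronglyMeasurable hb.choose
    (Filter.Eventually.of_forall fun τ => hb.choose_spec _)]
  simp only [integral_gamma_comp (N * ℓ) _ hc hb (pet_inv (isInvTwo_slash_heckeMatrix N f)
      (isInvTwo_coe_gamma N g))]
  rw [Finset.sum_const, Finset.card_univ, Fintype.card_option, Fintype.card_fin, nsmul_eq_mul]
  push_cast
  rfl

omit [NeZero ℓ] in
include hℓ hℓN in
/-- **`T_ℓ` is self-adjoint.** -/
theorem peterssonInner_heckeT (f g : CuspForm (Gamma0 N) 2) :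
    peterssonInner N (CuspForm.heckeTLin 2 hℓ hℓN f) g = peterssonInner N f
        (CuspForm.heckeTLin 2 hℓ hℓN g) := by
  have : NeZero ℓ := ⟨hℓ.ne_zero⟩
  obtain ⟨n, n', hn, hn', key⟩ := exists_slashPairing_symm N hℓ hℓN
  obtain ⟨m, hm, hTA⟩ := exists_mul_peterssonInner_heckeT N hℓ hℓN
  have hrel : ∀ f g : CuspForm (Gamma0 N) 2, (n' : ℂ) * peterssonInner N
      (CuspForm.heckeTLin 2 hℓ hℓN f) g =
      n * peterssonInner N f (CuspForm.heckeTLin 2 hℓ hℓN g) := fun f g => by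
    refine mul_left_cancel₀ (Nat.cast_ne_zero.mpr hm : (m : ℂ) ≠ 0) ?_
    have h1 := hTA f g
    have h2 := congrArg (starRingEnd ℂ) (hTA g f)
    simp only [map_mul, map_natCast, map_add, map_one, ← peterssonInner_conj] at h2
    linear_combination (n' : ℂ) * h1 - (n : ℂ) * h2 + ((ℓ : ℂ) + 1) * key f g
  have h1 := hrel f g
  have h2 := congrArg (starRingEnd ℂ) (hrel g f)
  simp only [map_mul, map_natCast, ← peterssonInner_conj] at h2
  -- `n'² ⟨Tf, g⟩ = n² ⟨Tf, g⟩`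
  rcases eq_or_ne n n' with rfl | hne
  · exact mul_left_cancel₀ (Nat.cast_ne_zero.mpr hn) h1
  · have hsq : ((n' : ℂ) ^ 2 - (n : ℂ) ^ 2) * peterssonInner N
        (CuspForm.heckeTLin 2 hℓ hℓN f) g = 0 := by
      linear_combination (n' : ℂ) * h1 + (n : ℂ) * h2
    have h0 : peterssonInner N (CuspForm.heckeTLin 2 hℓ hℓN f) g = 0 := by
      refine (mul_eq_zero.mp hsq).resolve_left fun e => hne ?_
      have : ((n' ^ 2 : ℕ) : ℂ) = (n ^ 2 : ℕ) := by push_cast; linear_combination e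
      exact (Nat.pow_left_injective two_ne_zero (Nat.cast_injective this)).symm
    rw [h0, mul_zero] at h1
    rw [h0, (mul_eq_zero.mp h1.symm).resolve_left (Nat.cast_ne_zero.mpr hn)]

end Adjoint

/-- The underlying endomorphism. -/
abbrev endOf {S : Set ℕ} (t : CuspForm.heckeAlgebra N 2 S) :
    Module.End ℂ (CuspForm (Gamma0 N : Subgroup (GL (Fin 2) ℝ)) 2) := t

/-- Self-adjointness on the algebra. -/
theorem peterssonInner_heckeAlgebra {S : Set ℕ} (hS : ∀ q, q.Prime → q ∣ N → q ∈ S)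
    (t : CuspForm.heckeAlgebra N 2 S) (f g : CuspForm (Gamma0 N) 2) :
    peterssonInner N (endOf N t f) g = peterssonInner N f (endOf N t g) := by
  obtain ⟨x, hx⟩ := t
  show peterssonInner N (x f) g = peterssonInner N f (x g)
  induction hx using Algebra.adjoin_induction generalizing f g with
  | mem x hx =>
    rcases hx with ⟨ℓ, hℓ, hℓN, -, rfl⟩ | ⟨q, hqN, hq, hqS, rfl⟩
    · exact peterssonInner_heckeT N hℓ hℓN f g
    · exact absurd (hS q hq hqN) hqS
  | algebraMap r =>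
    simp only [algebraMap_int_eq, eq_intCast, Module.End.intCast_apply, FunLike.coe_smul,
      ← Int.cast_smul_eq_zsmul ℂ, peterssonInner, petersson, Pi.smul_apply, smul_eq_mul, map_mul,
          map_intCast]
    refine integral_congr_ae (Filter.Eventually.of_forall fun τ => ?_)
    ring
  | add x y _ _ hx hy =>
    have hl : ∀ u v w : CuspForm (Gamma0 N) 2,
        peterssonInner N ⇑(u + v) w = peterssonInner N u w + peterssonInner N v w ∧ peterssonInner
            N w ⇑(u + v) = peterssonInner N w u + peterssonInner N w v := by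
      intro u v w
      have t := isTameTwo_coe N
      constructor <;>
      · rw [peterssonInner, peterssonInner, peterssonInner, ← integral_add (integrable_pet (t _)
            (t _)) (integrable_pet (t _) (t _))]
        refine integral_congr_ae (Filter.Eventually.of_forall fun τ => ?_)
        simp only [petersson, _root_.add_apply, map_add]
        ring
    rw [LinearMap.add_apply, LinearMap.add_apply, (hl _ _ _).1, (hl _ _ _).2, hx, hy]
  | mul x y hx' hy' hx hy =>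
    have hc : x * y = y * x := congrArg Subtype.val (mul_comm
      (⟨x, hx'⟩ : CuspForm.heckeAlgebra N 2 S) ⟨y, hy'⟩)
    rw [Module.End.mul_apply, hx, hy]
    conv_rhs => rw [hc, Module.End.mul_apply]

/-- **The anemic Hecke algebra is reduced.** -/
theorem isReduced_heckeAlgebra {S : Set ℕ} (hS : ∀ q, q.Prime → q ∣ N → q ∈ S) :
    IsReduced (CuspForm.heckeAlgebra N 2 S) := by
  have hsq : ∀ t : CuspForm.heckeAlgebra N 2 S, t ^ 2 = 0 → t = 0 := fun t ht => by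
    refine Subtype.ext (LinearMap.ext fun f => eq_zero_of_peterssonInner_self N _ ?_)
    rw [show (t : Module.End ℂ (CuspForm (Gamma0 N : Subgroup (GL (Fin 2) ℝ)) 2)) =
        endOf N t from rfl,
      peterssonInner_heckeAlgebra N hS t]
    have : endOf N t (endOf N t f) = 0 := by
      rw [← Module.End.mul_apply, endOf, ← MulMemClass.coe_mul, ← sq, ht]
      rfl
    rw [this, peterssonInner]
    simp [petersson]
  exact (isReduced_iff_pow_one_lt 2 one_lt_two).mpr hsq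

end Fermat.Agent.Hecke.Pet

end
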