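import Mathlib.FieldTheory.IntermediateField.Adjoin.Algebra
import Mathlib.LinearAlgebra.Dimension.Constructions
import Mathlib.LinearAlgebra.Dimension.Finrank
import Mathlib.LinearAlgebra.Dual.Lemmas
import Mathlib.RingTheory.Algebraic.Integral
import Fermat.Prelude.Def_ModularCurve_LaurentCoeff

/-!
# Extending the constants in a field of Laurent series does not change degrees

Linear independence over a field `F` of Laurent series over `K` persists after extending the
constants to `L`. So degrees of maps between modular curves computed over `ℂ` hold over `ℚ̄`.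
-/

noncomputable section

open ModularCurve IntermediateField

namespace Fermat.Agent.Hecke

variable {K L : Type*} [Field K] [Field L] [Algebra K L]

/-- The field generated over the larger constants. -/
def extendConst (L : Type*) [Field L] [Algebra K L] (F : IntermediateField K (LaurentSeries K)) :
    IntermediateField L (LaurentSeries L) :=
  IntermediateField.adjoin L (coeffMap (algebraMap K L) '' (F : Set (LaurentSeries K)))

/-- Apply a `K`-linear functional coefficientwise. -/
def functionalMap (φ : L →ₗ[K] K) (x : LaurentSeries L) : LaurentSeries K := x.map φ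

theorem functionalMap_coeff (φ : L →ₗ[K] K) (x : LaurentSeries L) (k : ℤ) :
    (functionalMap φ x).coeff k = φ (x.coeff k) := rfl

theorem functionalMap_zero (φ : L →ₗ[K] K) : functionalMap φ 0 = 0 := by
  ext k; simp [functionalMap_coeff]

theorem functionalMap_add (φ : L →ₗ[K] K) (x y : LaurentSeries L) :
    functionalMap φ (x + y) = functionalMap φ x + functionalMap φ y := by
  ext k; simp [functionalMap_coeff]

theorem functionalMap_sum (φ : L →ₗ[K] K) {ι : Type*} (s : Finset ι) (f : ι → LaurentSeries L) :
    functionalMap φ (∑ i ∈ s, f i) = ∑ i ∈ s, functionalMap φ (f i) :=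
  map_sum (⟨⟨functionalMap φ, functionalMap_zero φ⟩, functionalMap_add φ⟩ :
    LaurentSeries L →+ LaurentSeries K) f s

theorem functionalMap_mul_coeffMap (φ : L →ₗ[K] K) (x : LaurentSeries L) (y : LaurentSeries K) :
    functionalMap φ (x * coeffMap (algebraMap K L) y) = functionalMap φ x * y := by
  ext k
  rw [functionalMap_coeff,
    HahnSeries.coeff_mul_left' (hs := x.isPWO_support) (le_refl _),
    HahnSeries.coeff_mul_left' (hs := x.isPWO_support)
      (fun j hj h0 => hj (by simp [functionalMap_coeff, h0])), map_sum]
  have hsupp : (coeffMap (algebraMap K L) y).support = y.support := by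
    ext j
    simp only [HahnSeries.mem_support, coeffMap_coeff, ne_eq, map_eq_zero]
  refine Finset.sum_congr (by ext ij; simp [hsupp]) fun ij _ => ?_
  rw [coeffMap_coeff, functionalMap_coeff, mul_comm, ← Algebra.smul_def, map_smul, smul_eq_mul,
    mul_comm]

variable {F : IntermediateField K (LaurentSeries K)}

theorem functionalMap_mem (φ : L →ₗ[K] K) {x : LaurentSeries L}
    (hx : x ∈ Algebra.adjoin L (coeffMap (algebraMap K L) '' (F : Set (LaurentSeries K)))) :
    functionalMap φ x ∈ F := by
  have hcl : (Submonoid.closure (coeffMap (algebraMap K L) '' (F : Set (LaurentSeries K))) :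
      Set (LaurentSeries L)) = coeffMap (algebraMap K L) '' (F : Set (LaurentSeries K)) := by
    refine Set.Subset.antisymm (fun x hx => ?_) Submonoid.subset_closure
    induction hx using Submonoid.closure_induction with
    | mem y hy => exact hy
    | one => exact ⟨1, one_mem F, map_one _⟩
    | mul y z _ _ hy hz =>
      obtain ⟨u, hu, rfl⟩ := hy
      obtain ⟨v, hv, rfl⟩ := hz
      exact ⟨u * v, mul_mem hu hv, map_mul _ _ _⟩
  rw [← Subalgebra.mem_toSubmodule, Algebra.adjoin_eq_span, hcl] at hx
  induction hx using Submodule.span_induction generalizing φ with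
  | mem y hy =>
    obtain ⟨u, hu, rfl⟩ := hy
    rw [← one_mul (coeffMap (algebraMap K L) u), functionalMap_mul_coeffMap]
    refine mul_mem ?_ hu
    rw [show functionalMap φ (1 : LaurentSeries L) = algebraMap K (LaurentSeries K) (φ 1) from ?_]
    · exact F.algebraMap_mem _
    · rw [algebraMap_laurentSeries_eq_single]
      ext k
      rw [functionalMap_coeff, HahnSeries.coeff_one, HahnSeries.coeff_single, apply_ite φ, map_zero]
  | zero => rw [functionalMap_zero]; exact zero_mem _
  | add y z _ _ hy hz => rw [functionalMap_add]; exact add_mem (hy φ) (hz φ)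
  | smul c y _ hy =>
    convert hy (φ ∘ₗ LinearMap.mulLeft K c) using 1
    erw [Algebra.smul_def]
    rw [algebraMap_laurentSeries_eq_single]
    ext k
    simp [functionalMap_coeff]

/-- Linear independence over `F` persists over `L · F`. -/
theorem eq_zero_of_sum_coeffMap {ι : Type*} [Fintype ι] (y : ι → LaurentSeries K)
    (hy : ∀ a : ι → F, ∑ i, (a i : LaurentSeries K) * y i = 0 → a = 0)
    (a : ι → extendConst L F)
    (h : ∑ i, (a i : LaurentSeries L) * coeffMap (algebraMap K L) (y i) = 0) : a = 0 := by
  classical
  have hdiv : ∀ i, ∃ r ∈ Algebra.adjoin L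
      (coeffMap (algebraMap K L) '' (F : Set (LaurentSeries K))),
      ∃ s ∈ Algebra.adjoin L (coeffMap (algebraMap K L) '' (F : Set (LaurentSeries K))),
        s ≠ 0 ∧ (a i : LaurentSeries L) * s = r := by
    intro i
    obtain ⟨r, hr, s, hs, e⟩ := mem_adjoin_iff_div.mp (a i).2
    rcases eq_or_ne s 0 with rfl | hs0
    · exact ⟨0, zero_mem _, 1, one_mem _, one_ne_zero, by rw [mul_one, e, div_zero]⟩
    · exact ⟨r, hr, s, hs, hs0, by rw [e, div_mul_cancel₀ _ hs0]⟩
  choose r hr s hs hs0 he using hdiv
  set P := ∏ j, s j with hP
  have hP0 : P ≠ 0 := Finset.prod_ne_zero_iff.mpr fun j _ => hs0 j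
  have hb : ∀ i, P * a i ∈
      Algebra.adjoin L (coeffMap (algebraMap K L) '' (F : Set (LaurentSeries K))) := by
    intro i
    rw [hP, ← Finset.mul_prod_erase _ _ (Finset.mem_univ i), mul_right_comm, mul_comm (s i), he]
    exact mul_mem (hr i) (Subalgebra.prod_mem _ fun j _ => hs j)
  have h' : ∑ i, (P * (a i : LaurentSeries L)) * coeffMap (algebraMap K L) (y i) = 0 := by
    rw [← mul_zero P, ← h, Finset.mul_sum]
    exact Finset.sum_congr rfl fun i _ => mul_assoc _ _ _
  funext i
  refine Subtype.ext ((mul_eq_zero.mp (?_ : P * (a i : LaurentSeries L) = 0)).resolve_left hP0)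
  ext k
  rw [HahnSeries.coeff_zero, ← Module.forall_dual_apply_eq_zero_iff K]
  intro φ
  have h2 := congrArg (functionalMap φ) h'
  rw [functionalMap_zero, functionalMap_sum] at h2
  simp only [functionalMap_mul_coeffMap] at h2
  have h3 := hy (fun i => ⟨_, functionalMap_mem φ (hb i)⟩) h2
  have h4 := congrArg (fun b : ι → F => ((b i : LaurentSeries K)).coeff k) h3
  simpa [functionalMap_coeff] using h4

end Fermat.Agent.Hecke
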