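import Mathlib.LinearAlgebra.FreeModule.Finite.Matrix
import Mathlib.LinearAlgebra.Lagrange
import Mathlib.RingTheory.Norm.Transitivity
import Fermat.Agent.Hecke.BaseChange
import Fermat.Agent.Igusa.LevelOne
import Fermat.Agent.MF.FunctionField
import Fermat.Agent.X0.FormField

/-!
# Conjugates of `ℂ(X₀(M))` over `ℂ(X₀(N))` for `N ∣ M`: degree and norm

The conjugates are the expansions of the translates under coset representatives of `Γ₀(M)` in
`Γ₀(N)`; so the degree is the index and the norm of a ratio of forms is the ratio of the products of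
their translates. Used to compute Hecke correspondences on monodromy characters.
-/

noncomputable section

open UpperHalfPlane CongruenceSubgroup Function ModularCurve IntermediateField
open scoped MatrixGroups ModularForm Manifold

namespace Fermat.Agent.Hecke

open Fermat.Agent.MF

instance isFormField_full (M : ℕ) [NeZero M] :
    X0.IsFormField M (modularFunctionFieldFullC ℂ M) :=
  ⟨fun _ hx => modularFunctionFieldFullC_le_ratioField M hx⟩

theorem mem_fullC_of_isRatio {N : ℕ} [NeZero N] {x : LaurentSeries ℂ} (h : IsRatio N x) :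
    x ∈ modularFunctionFieldFullC ℂ N := by
  rw [modularFunctionFieldFullC_complex_eq]
  exact (mem_modularFunctionFieldC_iff N).mpr h

/-- The width `M` expansion of a periodic function. -/
theorem ofPowerSeries_qExpansion_width {f : ℍ → ℂ} (hf : IsQFn f) (M : ℕ) [NeZero M] :
    HahnSeries.ofPowerSeries ℤ ℂ (qExpansion M f) = qExpand ℂ M (lq f) := by
  have hM : (0 : ℝ) < M := by exact_mod_cast NeZero.pos M
  have hper : Periodic (f ∘ ofComplex) ((M : ℝ) : ℂ) := by
    simpa using hf.periodic.nat_mul M
  have han := analyticAt_cuspFunction_zero hM hper hf.mdiff hf.bdd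
  set c : ℕ → ℂ := fun m => if M ∣ m then (qExpansion 1 f).coeff (m / M) else 0 with hc
  have hsum : ∀ τ : ℍ, HasSum (fun m => c m • Periodic.qParam (M : ℝ) (τ : ℂ) ^ m) (f τ) := by
    intro τ
    have hinj : Function.Injective (fun n : ℕ => M * n) :=
      fun x y h => Nat.eq_of_mul_eq_mul_left (NeZero.pos M) h
    refine (hinj.hasSum_iff ?_).mp ?_
    · intro m hm
      have : ¬ M ∣ m := fun ⟨n, hn⟩ => hm ⟨n, hn.symm⟩
      simp [hc, this]
    · have h := hasSum_qExpansion one_pos hf.periodic hf.mdiff hf.bdd τ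
      simpa [hc, Function.comp_def, Nat.mul_div_cancel_left _ (NeZero.pos M), pow_mul,
        Igusa.qParam_self_pow] using h
  have hu : ∀ m, c m = (qExpansion (M : ℝ) f).coeff m := by
    intro m
    have h1 := (hasFPowerSeriesOnBall_cuspFunction hM han hsum).hasFPowerSeriesAt
    have h2 := (hasFPowerSeriesOnBall_cuspFunction hM han
      (hasSum_qExpansion hM hper hf.mdiff hf.bdd)).hasFPowerSeriesAt
    simpa using congr_arg (FormalMultilinearSeries.coeff · m) (h1.eq_formalMultilinearSeries h2)
  ext k
  by_cases hk : (M : ℤ) ∣ k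
  · obtain ⟨r, rfl⟩ := hk
    rw [qExpand_coeff_mul]
    rcases lt_or_ge r 0 with hr | hr
    · rw [lq, ofPowerSeries_coeff_of_neg _ hr,
        ofPowerSeries_coeff_of_neg _ (mul_neg_of_pos_of_neg (by exact_mod_cast NeZero.pos M) hr)]
    · lift r to ℕ using hr
      rw [← Nat.cast_mul, lq_coeff_nat, HahnSeries.ofPowerSeries_apply_coeff, ← hu]
      simp [hc, Nat.mul_div_cancel_left _ (NeZero.pos M)]
  · rw [qExpand_coeff_of_not_dvd M _ hk]
    rcases lt_or_ge k 0 with hk0 | hk0
    · exact ofPowerSeries_coeff_of_neg _ hk0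
    · lift k to ℕ using hk0
      rw [HahnSeries.ofPowerSeries_apply_coeff, ← hu]
      have : ¬ M ∣ k := fun h => hk (by exact_mod_cast h)
      simp [hc, this]

/-- The expansion at `i∞` in `q_M`. -/
abbrev wexp (M : ℕ) [NeZero M] : X0.wideAlgebra M →+* LaurentSeries ℂ :=
  (X0.cuspExpansion M).ls

theorem wexp_of_isQFn {M : ℕ} [NeZero M] (g : X0.wideAlgebra M) (hg : IsQFn (g : ℍ → ℂ)) :
    wexp M g = qExpand ℂ M (lq (g : ℍ → ℂ)) :=
  ofPowerSeries_qExpansion_width hg M

section Cosets

variable (N M : ℕ) [NeZero N] [NeZero M]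

/-- Cosets of `Γ₀(M)` in `Γ₀(N)`. -/
abbrev levelCosets : Type := Gamma0 N ⧸ (Gamma0 M).subgroupOf (Gamma0 N)

/-- A finite type structure on `levelCosets`. -/
@[reducible] def levelFintype : Fintype (levelCosets N M) := Fintype.ofFinite _

attribute [local instance] levelFintype

variable {N M}

/-- The conjugating matrix of a coset. -/
def levelRep (q : levelCosets N M) : SL(2, ℤ) := ((q.out⁻¹ : Gamma0 N) : SL(2, ℤ))

omit [NeZero N] [NeZero M] in
theorem levelRep_eq (q : levelCosets N M) : levelRep q = ((q.out : Gamma0 N) : SL(2, ℤ))⁻¹ := rfl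

omit [NeZero N] [NeZero M] in
theorem slash_levelRep_mul {k : ℤ} {f : ℍ → ℂ} (hf : IsFormFn (Gamma0 M) k f)
    (q : levelCosets N M) (h : Gamma0 N) :
    (f ∣[k] levelRep q) ∣[k] (h : SL(2, ℤ)) = f ∣[k] levelRep (h⁻¹ • q) := by
  have hmem := QuotientGroup.eq.mp (show ((h⁻¹ * q.out : Gamma0 N) : levelCosets N M) =
    (((h⁻¹ • q).out : Gamma0 N) : levelCosets N M) by
      rw [QuotientGroup.out_eq']
      conv_rhs => rw [← QuotientGroup.out_eq' q]
      rfl)
  rw [← SlashAction.slash_mul]
  conv_lhs => rw [show levelRep q * (h : SL(2, ℤ)) =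
    (((h⁻¹ * q.out)⁻¹ * (h⁻¹ • q).out : Gamma0 N) : SL(2, ℤ)) * levelRep (h⁻¹ • q) by
      rw [levelRep_eq, levelRep_eq]; push_cast; group]
  rw [SlashAction.slash_mul, hf.slash_eq _ (Subgroup.mem_subgroupOf.mp hmem)]

omit [NeZero N] in
/-- The product of the conjugates of a form of level `M` is a form of level `N`. -/
theorem isFormFn_levelProd {k : ℤ} {f : ℍ → ℂ} (hf : IsFormFn (Gamma0 M) k f) :
    IsFormFn (Gamma0 N) ((Fintype.card (levelCosets N M) : ℤ) * k)
      (∏ q : levelCosets N M, f ∣[k] levelRep q) where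
  slash_eq h hh := by
    rw [← Finset.card_univ, prod_slash_SL2_const,
      Finset.prod_congr rfl fun q _ => slash_levelRep_mul hf q ⟨h, hh⟩]
    exact Equiv.prod_comp (MulAction.toPerm (⟨h, hh⟩ : Gamma0 N)⁻¹)
      (fun q : levelCosets N M => f ∣[k] levelRep q)
  mdiff := MDifferentiable.prod fun q _ => by
    rw [ModularForm.SL_slash]; exact hf.mdiff.slash _ _
  bdd γ := by
    rw [← Finset.card_univ, prod_slash_SL2_const]
    refine isBoundedAtImInfty_prod _ fun q _ => ?_
    rw [← SlashAction.slash_mul]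
    exact hf.bdd _

/-- The conjugate expansion of a coset. -/
def levelHom (q : levelCosets N M) : modularFunctionFieldFullC ℂ M →+* LaurentSeries ℂ :=
  (X0.cuspExpansion M).conjHom (levelRep q)

omit [NeZero N] in
/-- A conjugate of a ratio of forms is the ratio of the slashed forms. -/
theorem levelHom_eq (q : levelCosets N M) (y : modularFunctionFieldFullC ℂ M) {k : ℤ} {f g : ℍ → ℂ}
    (hf : IsFormFn (Gamma0 M) k f) (hg : IsFormFn (Gamma0 M) k g) (hg0 : g ≠ 0)
    (h : (y : LaurentSeries ℂ) * lq g = lq f) :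
    levelHom q y = wexp M (X0.wslash hf (levelRep q)) / wexp M (X0.wslash hg (levelRep q)) :=
  X0.Expansion.conjHom_eq _ _ y hf hg hg0 h

omit [NeZero N] in
theorem levelHom_algebraMap (q : levelCosets N M) (c : ℂ) :
    levelHom q (algebraMap ℂ _ c) = HahnSeries.C c :=
  X0.Expansion.conjHom_algebraMap _ _ c

variable (hNM : N ∣ M)
include hNM

/-- The function field grows with the level. -/
theorem fullC_le : modularFunctionFieldFullC ℂ N ≤ modularFunctionFieldFullC ℂ M :=
  full_degeneracyC_le ℂ hNM

/-- On functions of level `N` every conjugate is the expansion in `q_M`. -/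
theorem levelHom_inclusion (q : levelCosets N M) (x : modularFunctionFieldFullC ℂ N) :
    levelHom q (inclusion (fullC_le hNM) x) = qExpand ℂ M (x : LaurentSeries ℂ) := by
  obtain ⟨k, f, g, hf, hg, hg0, h⟩ := modularFunctionFieldFullC_le_ratioField N x.2
  have hle := MF.Gamma0_le_of_dvd hNM
  rw [levelHom_eq q _ (hf.mono hle) (hg.mono hle) hg0 (by simpa using h)]
  have e : ∀ {u : ℍ → ℂ} (hu : IsFormFn (Gamma0 N) k u),
      wexp M (X0.wslash (hu.mono hle) (levelRep q)) = qExpand ℂ M (lq u) := fun {u} hu => by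
    have hs : u ∣[k] levelRep q = u := hu.slash_eq _ (q.out⁻¹).2
    rw [wexp_of_isQFn _ (by rw [X0.coe_wslash, hs]; exact hu.isQFn0), X0.coe_wslash, hs]
  rw [e hf, e hg, ← map_div₀, ← h,
    mul_div_assoc, div_self (fun h0 => hg0 ((lq_eq_zero_iff hg.isQFn0).mp h0)), mul_one]

omit [NeZero N] hNM in
/-- The product of the conjugates, as a ratio of forms of level `N`. -/
theorem prod_levelHom_eq (y : modularFunctionFieldFullC ℂ M) {k : ℤ} {f g : ℍ → ℂ}
    (hf : IsFormFn (Gamma0 M) k f) (hg : IsFormFn (Gamma0 M) k g) (hg0 : g ≠ 0)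
    (h : (y : LaurentSeries ℂ) * lq g = lq f) :
    lq (∏ q : levelCosets N M, g ∣[k] levelRep q) ≠ 0 ∧
      ∏ q : levelCosets N M, levelHom q y =
        qExpand ℂ M (lq (∏ q : levelCosets N M, f ∣[k] levelRep q) /
          lq (∏ q : levelCosets N M, g ∣[k] levelRep q)) := by
  have hP := isFormFn_levelProd (N := N) hf
  have hG := isFormFn_levelProd (N := N) hg
  have key : ∀ {u : ℍ → ℂ} (hu : IsFormFn (Gamma0 M) k u)
      (hU : IsQFn (∏ q : levelCosets N M, u ∣[k] levelRep q)),
      ∏ q : levelCosets N M, wexp M (X0.wslash hu (levelRep q)) =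
        qExpand ℂ M (lq (∏ q : levelCosets N M, u ∣[k] levelRep q)) := fun {u} hu hU => by
    have e : ((∏ q : levelCosets N M, X0.wslash hu (levelRep q) : X0.wideAlgebra M) : ℍ → ℂ) =
        ∏ q : levelCosets N M, u ∣[k] levelRep q :=
      map_prod (X0.wideAlgebra M).val _ _
    rw [← map_prod, wexp_of_isQFn _ (by rw [e]; exact hU), e]
  have hG0 : lq (∏ q : levelCosets N M, g ∣[k] levelRep q) ≠ 0 := by
    intro h0
    have := key hg hG.isQFn0
    rw [h0, map_zero, Finset.prod_eq_zero_iff] at this
    obtain ⟨q, -, hq⟩ := this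
    exact (X0.cuspExpansion M).ls_wslash_ne_zero hg hg0 _ hq
  refine ⟨hG0, ?_⟩
  rw [Finset.prod_congr rfl fun q _ => levelHom_eq q y hf hg hg0 h, Finset.prod_div_distrib,
    key hf hP.isQFn0, key hg hG.isQFn0, ← map_div₀]

omit hNM in
/-- The product of all conjugates comes from level `N`. -/
theorem exists_prod_levelHom (y : modularFunctionFieldFullC ℂ M) :
    ∃ z : modularFunctionFieldFullC ℂ N,
      ∏ q : levelCosets N M, levelHom q y = qExpand ℂ M (z : LaurentSeries ℂ) := by
  obtain ⟨k, f, g, hf, hg, hg0, h⟩ := modularFunctionFieldFullC_le_ratioField M y.2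
  obtain ⟨hG0, he⟩ := prod_levelHom_eq (N := N) y hf hg hg0 h
  exact ⟨⟨_, mem_fullC_of_isRatio ⟨_, _, _, isFormFn_levelProd (N := N) hf,
    isFormFn_levelProd (N := N) hg, fun h0 => hG0 (by rw [h0, lq_zero]),
    div_mul_cancel₀ _ hG0⟩⟩, he⟩

/-- `qExpand M` on functions of level `N`. -/
def baseExpand (N M : ℕ) [NeZero M] : modularFunctionFieldFullC ℂ N →+* LaurentSeries ℂ :=
  (qExpand ℂ M).comp (modularFunctionFieldFullC ℂ N).val.toRingHom

omit hNM in
/-- The polynomial with roots the conjugates has coefficients of level `N`. -/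
theorem exists_levelPoly (y : modularFunctionFieldFullC ℂ M) :
    ∃ Q : Polynomial (modularFunctionFieldFullC ℂ N), Q.Monic ∧
      Q.natDegree = Fintype.card (levelCosets N M) ∧
      Q.map (baseExpand N M) =
        ∏ q : levelCosets N M, (Polynomial.X - Polynomial.C (levelHom q y)) := by
  classical
  set P := ∏ q : levelCosets N M, (Polynomial.X - Polynomial.C (levelHom q y)) with hPdef
  have hPm : P.Monic := Polynomial.monic_prod_of_monic _ _ fun q _ => Polynomial.monic_X_sub_C _
  have hPd : P.natDegree = Fintype.card (levelCosets N M) := by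
    rw [hPdef, Polynomial.natDegree_prod_of_monic _ _ fun q _ => Polynomial.monic_X_sub_C _]
    simp
  set s : Finset ℕ := Finset.range (Fintype.card (levelCosets N M) + 1)
  choose z hz using fun n : ℕ => exists_prod_levelHom (N := N) (algebraMap ℂ _ (n : ℂ) - y)
  set Q := Lagrange.interpolate s (fun n : ℕ => ((n : modularFunctionFieldFullC ℂ N))) z
  have hinj : Set.InjOn (fun n : ℕ => (n : LaurentSeries ℂ)) s := by
    intro a _ b _ hab
    simp only at hab
    rw [← map_natCast (HahnSeries.C : ℂ →+* LaurentSeries ℂ) a,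
      ← map_natCast (HahnSeries.C : ℂ →+* LaurentSeries ℂ) b] at hab
    exact Nat.cast_injective (HahnSeries.C_injective hab)
  have hinj' : Set.InjOn (fun n : ℕ => (n : modularFunctionFieldFullC ℂ N)) s := by
    intro a ha b hb hab
    refine hinj ha hb ?_
    have := congrArg (modularFunctionFieldFullC ℂ N).val hab
    rwa [map_natCast, map_natCast] at this
  have hPQ : Q.map (baseExpand N M) = P := by
    have h1 : P.degree < s.card := by
      rw [Polynomial.degree_eq_natDegree hPm.ne_zero, hPd, Finset.card_range]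
      exact_mod_cast Nat.lt_succ_self _
    have h2 : (Q.map (baseExpand N M)).degree < s.card :=
      (Polynomial.degree_map_le).trans_lt (Lagrange.degree_interpolate_lt _ hinj')
    refine Polynomial.eq_of_degrees_lt_of_eval_index_eq s hinj h2 h1 fun n hn => ?_
    rw [show (n : LaurentSeries ℂ) = baseExpand N M (n : modularFunctionFieldFullC ℂ N) from
      (map_natCast _ n).symm, Polynomial.eval_map, Polynomial.eval₂_hom,
      Lagrange.eval_interpolate_at_node _ hinj' hn, hPdef, Polynomial.eval_prod]
    simp only [Polynomial.eval_sub, Polynomial.eval_X, Polynomial.eval_C, map_natCast]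
    rw [show baseExpand N M (z n) = qExpand ℂ M (z n : LaurentSeries ℂ) from rfl, ← hz n]
    refine Finset.prod_congr rfl fun q _ => ?_
    rw [map_sub, levelHom_algebraMap, map_natCast]
  refine ⟨Q, ?_, ?_, hPQ⟩
  · exact Polynomial.monic_of_injective (baseExpand N M).injective (hPQ ▸ hPm)
  · rw [← Polynomial.natDegree_map_eq_of_injective (baseExpand N M).injective, hPQ, hPd]

/-- The extension of level `M` over level `N` as an algebra. -/
@[reducible] def levelAlgebra :
    Algebra (modularFunctionFieldFullC ℂ N) (modularFunctionFieldFullC ℂ M) :=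
  (inclusion (fullC_le hNM)).toRingHom.toAlgebra

theorem exists_root_poly (y : modularFunctionFieldFullC ℂ M) :
    ∃ Q : Polynomial (modularFunctionFieldFullC ℂ N), Q.Monic ∧
      Q.natDegree = Fintype.card (levelCosets N M) ∧
      Q.eval₂ (inclusion (fullC_le hNM)).toRingHom y = 0 := by
  obtain ⟨Q, hm, hd, hQ⟩ := exists_levelPoly (N := N) y
  refine ⟨Q, hm, hd, ?_⟩
  let q₁ : levelCosets N M := ((1 : Gamma0 N) : levelCosets N M)
  have hinj : Injective (levelHom q₁) := (levelHom q₁).injective
  apply hinj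
  rw [map_zero, Polynomial.hom_eval₂]
  have hc : (levelHom q₁).comp (inclusion (fullC_le hNM)).toRingHom = baseExpand N M :=
    RingHom.ext fun x => levelHom_inclusion hNM q₁ x
  rw [hc, ← Polynomial.eval_map, hQ, Polynomial.eval_prod]
  exact Finset.prod_eq_zero (Finset.mem_univ q₁) (by simp)

theorem isIntegral_inclusion : (inclusion (fullC_le hNM)).toRingHom.IsIntegral := fun y => by
  obtain ⟨Q, hm, -, hQ⟩ := exists_root_poly hNM y
  exact ⟨Q, hm, hQ⟩

omit [NeZero N] hNM in
theorem levelHom_injective :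
    Injective fun q : levelCosets N M => (levelHom q : _ → LaurentSeries ℂ) := by
  intro q q' hqq
  let ι : levelCosets N M → SL(2, ℤ) ⧸ Gamma0 M := fun q =>
    (((q.out : Gamma0 N) : SL(2, ℤ)) : SL(2, ℤ) ⧸ Gamma0 M)
  have hι : Injective ι := by
    intro a b hab
    rw [← QuotientGroup.out_eq' a, ← QuotientGroup.out_eq' b, QuotientGroup.eq,
      Subgroup.mem_subgroupOf]
    have := QuotientGroup.eq.mp hab
    simpa using this
  by_contra hne
  refine conjFn_numN_mul_ne M (hι.ne hne) ?_
  let x : modularFunctionFieldFullC ℂ M := ⟨qExpand ℂ M (jqModC ℂ), jqModCd_mem_full ℂ M dvd_rfl⟩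
  have hx : (x : LaurentSeries ℂ) * lq (denN M) = lq (numN M) := (lq_numN M).symm
  have h := congrFun hqq x
  simp only [levelHom_eq _ x (isFormFn_numN M) (isFormFn_denN M) (denN_ne_zero' M) hx] at h
  rw [div_eq_div_iff ((X0.cuspExpansion M).ls_wslash_ne_zero _ (denN_ne_zero' M) _)
    ((X0.cuspExpansion M).ls_wslash_ne_zero _ (denN_ne_zero' M) _), ← map_mul, ← map_mul] at h
  have h' := congrArg Subtype.val ((X0.cuspExpansion M).ls_injective h)
  simp only [ι, conjFn_mk (isFormFn_numN M), conjFn_mk (isFormFn_denN M)]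
  exact h'

theorem finite_inclusion :
    letI := levelAlgebra hNM
    Module.Finite (modularFunctionFieldFullC ℂ N) (modularFunctionFieldFullC ℂ M) := by
  let := levelAlgebra hNM
  have : Algebra.IsIntegral (modularFunctionFieldFullC ℂ N) (modularFunctionFieldFullC ℂ M) :=
    ⟨isIntegral_inclusion hNM⟩
  have : IsScalarTower ℂ (modularFunctionFieldFullC ℂ N) (modularFunctionFieldFullC ℂ M) :=
    IsScalarTower.of_algebraMap_eq fun _ => rfl
  have : Algebra.EssFiniteType ℂ (modularFunctionFieldFullC ℂ M) := by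
    refine IntermediateField.essFiniteType_iff.mpr ?_
    refine IntermediateField.fg_def.mpr ⟨divisorExpansionsC ℂ M, ?_, rfl⟩
    refine Set.Finite.subset ((Nat.divisors M).finite_toSet.image fun d =>
      if h : d = 0 then 0 else haveI : NeZero d := ⟨h⟩; qExpand ℂ d (jqModC ℂ)) ?_
    rintro _ ⟨d, hd, hdvd, rfl⟩
    exact ⟨d, Nat.mem_divisors.mpr ⟨hdvd, NeZero.ne M⟩, dif_neg (NeZero.ne d)⟩
  have : Algebra.EssFiniteType (modularFunctionFieldFullC ℂ N) (modularFunctionFieldFullC ℂ M) :=
    Algebra.EssFiniteType.of_comp ℂ _ _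
  exact Algebra.finite_of_essFiniteType_of_isAlgebraic

/-- `[ℂ(X₀(M)) : ℂ(X₀(N))] = [Γ₀(N) : Γ₀(M)]`. -/
theorem finrank_inclusion :
    letI := levelAlgebra hNM
    Module.finrank (modularFunctionFieldFullC ℂ N) (modularFunctionFieldFullC ℂ M) =
      Fintype.card (levelCosets N M) := by
  let := levelAlgebra hNM
  have : Module.Finite (modularFunctionFieldFullC ℂ N) (modularFunctionFieldFullC ℂ M) :=
    finite_inclusion hNM
  refine le_antisymm ?_ ?_
  · obtain ⟨a, ha⟩ := Field.exists_primitive_element (modularFunctionFieldFullC ℂ N)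
      (modularFunctionFieldFullC ℂ M)
    obtain ⟨Q, hm, hd, hQ⟩ := exists_root_poly hNM a
    rw [← IntermediateField.finrank_top', ← ha,
      IntermediateField.adjoin.finrank (Algebra.IsIntegral.isIntegral a), ← hd]
    exact Polynomial.natDegree_le_natDegree (minpoly.min _ a hm hQ)
  · let := (baseExpand N M).toAlgebra
    let e : levelCosets N M →
        (modularFunctionFieldFullC ℂ M →ₐ[modularFunctionFieldFullC ℂ N] LaurentSeries ℂ) :=
      fun q => { levelHom q with commutes' := fun x => levelHom_inclusion hNM q x }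
    have he : Injective e := fun q q' h => levelHom_injective
      (congrArg (fun φ : _ →ₐ[_] LaurentSeries ℂ => (φ : _ → LaurentSeries ℂ)) h)
    rw [← Nat.card_eq_fintype_card]
    exact (Nat.card_le_card_of_injective e he).trans (card_algHom_le_finrank _ _ _)

/-- The norm is the product of the conjugates. -/
theorem qExpand_normAlong (y : modularFunctionFieldFullC ℂ M) :
    qExpand ℂ M ((normAlong (inclusion (fullC_le hNM)) y : modularFunctionFieldFullC ℂ N) :
        LaurentSeries ℂ) = ∏ q : levelCosets N M, levelHom q y := by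
  let := levelAlgebra hNM
  have : Module.Finite (modularFunctionFieldFullC ℂ N) (modularFunctionFieldFullC ℂ M) :=
    finite_inclusion hNM
  let E := AlgebraicClosure (LaurentSeries ℂ)
  let ι := algebraMap (LaurentSeries ℂ) E
  let := (ι.comp (baseExpand N M)).toAlgebra
  let e : levelCosets N M →
      (modularFunctionFieldFullC ℂ M →ₐ[modularFunctionFieldFullC ℂ N] E) :=
    fun q => { ι.comp (levelHom q) with
      commutes' := fun x => congrArg ι (levelHom_inclusion hNM q x) }
  have he : Bijective e := by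
    refine (Fintype.bijective_iff_injective_and_card e).mpr ⟨fun q q' h => ?_, ?_⟩
    · exact levelHom_injective (funext fun x => ι.injective
        (DFunLike.congr_fun h x))
    · rw [← finrank_inclusion hNM, AlgHom.card]
  apply ι.injective
  rw [map_prod]
  show algebraMap (modularFunctionFieldFullC ℂ N) E (Algebra.norm (modularFunctionFieldFullC ℂ N) y)
    = _
  rw [Algebra.norm_eq_prod_embeddings _ E y]
  exact ((Equiv.ofBijective e he).prod_comp
    (fun σ : modularFunctionFieldFullC ℂ M →ₐ[modularFunctionFieldFullC ℂ N] E => σ y)).symm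

/-- The norm of a ratio of forms is the ratio of the products of their conjugates. -/
theorem normAlong_rep (y : modularFunctionFieldFullC ℂ M) {k : ℤ} {f g : ℍ → ℂ}
    (hf : IsFormFn (Gamma0 M) k f) (hg : IsFormFn (Gamma0 M) k g) (hg0 : g ≠ 0)
    (h : (y : LaurentSeries ℂ) * lq g = lq f) :
    ((normAlong (inclusion (fullC_le hNM)) y : modularFunctionFieldFullC ℂ N) : LaurentSeries ℂ) *
        lq (∏ q : levelCosets N M, g ∣[k] levelRep q) =
      lq (∏ q : levelCosets N M, f ∣[k] levelRep q) := by
  obtain ⟨hG0, he⟩ := prod_levelHom_eq (N := N) y hf hg hg0 h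
  have := qExpand_normAlong hNM y
  rw [he] at this
  rw [qExpand_injective (R := ℂ) (N := M) this, div_mul_cancel₀ _ hG0]

end Cosets

end Fermat.Agent.Hecke
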