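import Fermat.Agent.Hecke.Conj
import Fermat.Agent.Hecke.Gamma0Transfer
import Fermat.Agent.Hecke.Inputs
import Fermat.Agent.Mono.Defs

/-!
# `α_* β^*` acts on monodromy characters over `ℂ` by `monoTransfer`

If a divisor class has monodromy character `φ`, its image under the correspondence has character the
transfer of `φ`, because the norm of a ratio of forms is a product of translates.
-/

noncomputable section

open UpperHalfPlane hiding I
open AlgebraicCurve CongruenceSubgroup Function IntermediateField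
open ModularCurve (heckeAlphaBar heckeBetaBar qExpand modularFunctionFieldFullC laurentBaseChange
  modularFunctionFieldFull)
open scoped MatrixGroups ModularForm Manifold

namespace Fermat.Agent.Hecke

theorem lowerConj_isHermite {N ℓ : ℕ} [NeZero ℓ] (γ : lowerSub N ℓ) :
    MF.IsHermite ℓ (γ.1 : SL(2, ℤ)) (lowerConj N ℓ γ : SL(2, ℤ)) ℓ 1 0 := by
  obtain ⟨k, hk⟩ := mem_lowerSub.mp γ.2
  have hℓ : (ℓ : ℤ) ≠ 0 := by exact_mod_cast NeZero.ne ℓ
  have e : γ.1.1.1 1 0 / (ℓ : ℤ) * ℓ = γ.1.1.1 1 0 := by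
    refine Int.ediv_mul_cancel ⟨(N : ℤ) * k, ?_⟩
    rw [hk]; push_cast; ring
  constructor <;>
    simp only [lowerConj_val, Matrix.of_apply, Matrix.cons_val', Matrix.cons_val_zero,
      Matrix.cons_val_one, Matrix.cons_val_fin_one, mul_one, Nat.cast_one, mul_zero, zero_add]
  · exact mul_comm _ _
  · exact e.symm

theorem slash_scale_lower {N ℓ : ℕ} [NeZero ℓ] (γ : lowerSub N ℓ) (k : ℤ) (f : ℍ → ℂ) :
    (f ∘ MF.scale ℓ) ∣[k] (γ.1 : SL(2, ℤ)) =
      (f ∣[k] (lowerConj N ℓ γ : SL(2, ℤ))) ∘ MF.scale ℓ := by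
  rw [MF.slash_scale (lowerConj_isHermite γ), Nat.cast_one, one_zpow, one_smul]
  rfl

theorem normAlong_inclusion_congr {K : Type*} [Field K]
    {E E' F F' : IntermediateField K (LaurentSeries K)} (hE : E = E') (hF : F = F') (h : E ≤ F)
    (y : F) :
    ((normAlong (inclusion h) y : E) : LaurentSeries K) =
      ((normAlong (inclusion (hE ▸ hF ▸ h : E' ≤ F')) ⟨y, hF ▸ y.2⟩ : E') : LaurentSeries K) := by
  subst hE hF; rfl

attribute [local instance] levelFintype

variable {N ℓ : ℕ} [NeZero N] [NeZero ℓ]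

/-- `N_α` of a ratio of forms of level `Nℓ`. -/
theorem isRep_normAlong_alpha (y : Mono.FC (N * ℓ)) {k : ℤ} {f g : ℍ → ℂ}
    (h : Mono.IsRep (N * ℓ) y k f g) :
    Mono.IsRep N (normAlong (heckeAlphaBar ℂ N ℓ) y)
      ((Fintype.card (levelCosets N (N * ℓ)) : ℤ) * k)
      (∏ q : levelCosets N (N * ℓ), f ∣[k] levelRep q)
      (∏ q : levelCosets N (N * ℓ), g ∣[k] levelRep q) := by
  have hG0 := (prod_levelHom_eq (N := N)
    (⟨y, Mono.FC_eq_full (N * ℓ) ▸ y.2⟩ : modularFunctionFieldFullC ℂ (N * ℓ))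
    h.num h.den h.den_ne h.eq).1
  refine ⟨isFormFn_levelProd h.num, isFormFn_levelProd h.den,
    fun e => hG0 (by rw [e, MF.lq_zero]), ?_⟩
  rw [show ((normAlong (heckeAlphaBar ℂ N ℓ) y : Mono.FC N) : LaurentSeries ℂ) = _ from
    normAlong_inclusion_congr (Mono.FC_eq_full N) (Mono.FC_eq_full (N * ℓ)) _ y]
  exact normAlong_rep (dvd_mul_right N ℓ) _ h.num h.den h.den_ne h.eq

omit [NeZero N] in
/-- `β` of a ratio of forms of level `N`. -/
theorem isRep_beta {x : Mono.FC N} {k : ℤ} {A B : ℍ → ℂ} (h : Mono.IsRep N x k A B) :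
    Mono.IsRep (N * ℓ) (heckeBetaBar ℂ N ℓ x) k (A ∘ MF.scale ℓ) (B ∘ MF.scale ℓ) where
  num := h.num.comp_scale ℓ
  den := h.den.comp_scale ℓ
  den_ne e := h.den_ne (by
    have := MF.lq_comp_scale h.den.isQFn0 ℓ
    rw [e, MF.lq_zero, eq_comm,
      map_eq_zero_iff _ (ModularCurve.qExpand_injective (R := ℂ) (N := ℓ))] at this
    exact (MF.lq_eq_zero_iff h.den.isQFn0).mp this)
  eq := by
    rw [ModularCurve.coe_heckeBetaBar, MF.lq_comp_scale h.den.isQFn0, ← map_mul, h.eq,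
      MF.lq_comp_scale h.num.isQFn0]

variable {m : ℕ} [NeZero m]

/-- The product of the conjugates of `h (ℓ τ)` has character the transfer of that of `h`. -/
theorem prod_root_slash {φ : Additive (Gamma0 N) →+ ZMod m} {k : ℤ} {h : ℍ → ℂ}
    (hc : ∀ γ : Gamma0 N, h ∣[k] (γ : SL(2, ℤ)) = ZMod.stdAddChar (φ (Additive.ofMul γ)) • h)
    (g : Gamma0 N) :
    (∏ q : levelCosets N (N * ℓ), (h ∘ MF.scale ℓ) ∣[k] levelRep q)
        ∣[(Fintype.card (levelCosets N (N * ℓ)) : ℤ) * k] (g : SL(2, ℤ)) =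
      ZMod.stdAddChar (monoTransfer N ℓ (ZMod m) φ (Additive.ofMul g)) •
        ∏ q : levelCosets N (N * ℓ), (h ∘ MF.scale ℓ) ∣[k] levelRep q := by
  set t : levelCosets N (N * ℓ) → Gamma0 N := Quotient.out
  have ht : ∀ q, (t q : levelCosets N (N * ℓ)) = q := QuotientGroup.out_eq'
  let c : levelCosets N (N * ℓ) → ℂ := fun q => ZMod.stdAddChar
    (φ (Additive.ofMul (lowerConj N ℓ ⟨(t (g • q))⁻¹ * (g * t q), cocycle_mem t ht g q⟩)))
  have key : ∀ q : levelCosets N (N * ℓ),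
      ((h ∘ MF.scale ℓ) ∣[k] levelRep (g • q)) ∣[k] (g : SL(2, ℤ)) =
        c q • ((h ∘ MF.scale ℓ) ∣[k] levelRep q) := by
    intro q
    set δ : lowerSub N ℓ := ⟨(t (g • q))⁻¹ * (g * t q), cocycle_mem t ht g q⟩ with hδ
    have e : levelRep (g • q) * (g : SL(2, ℤ)) = (δ.1 : SL(2, ℤ)) * levelRep q := by
      rw [hδ, levelRep_eq, levelRep_eq]
      simp only [t]
      push_cast
      group
    rw [← SlashAction.slash_mul, e, SlashAction.slash_mul, slash_scale_lower, hc,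
      Pi.smul_comp, ModularForm.SL_smul_slash]
  rw [← Finset.card_univ, MF.prod_slash_SL2_const]
  rw [← Equiv.prod_comp (MulAction.toPerm g)]
  simp only [MulAction.toPerm_apply, key]
  rw [Finset.prod_smul, monoTransfer, transferHom_apply (lowerConj N ℓ) φ t ht g]
  congr 1
  exact (map_prod (ZMod.stdAddChar.toMonoidHom)
    (fun q => Multiplicative.ofAdd (φ (Additive.ofMul
      (lowerConj N ℓ ⟨(t (g • q))⁻¹ * (g * t q), cocycle_mem t ht g q⟩)))) Finset.univ).symm

/-- The Hecke correspondence transfers monodromy characters. -/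
theorem isMonodromy_correspondence {D : Divisor ℂ (Mono.FC N)}
    {φ : Additive (Gamma0 N) →+ ZMod m} (h : Mono.IsMonodromy N m D φ) :
    Mono.IsMonodromy N m
      (Divisor.correspondence (heckeBetaBar ℂ N ℓ) (heckeAlphaBar ℂ N ℓ) (betaIntegral ℂ N ℓ)
        (alphaIntegral ℂ N ℓ) D)
      (monoTransfer N ℓ (ZMod m) φ) := by
  obtain ⟨k, A, B, r, x, hr, hx, hD, hd, hp, hc⟩ := h
  have hβx : heckeBetaBar ℂ N ℓ x ≠ 0 :=
    (map_ne_zero_iff _ (heckeBetaBar ℂ N ℓ).toRingHom.injective).mpr hx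
  refine ⟨_, _, _, ∏ q : levelCosets N (N * ℓ), (r ∘ MF.scale ℓ) ∣[k] levelRep q, _,
    isRep_normAlong_alpha _ (isRep_beta hr), ?_, fun v => ?_, ?_, ?_, prod_root_slash hc⟩
  · let := algebraAlong (heckeAlphaBar ℂ N ℓ)
    have : Module.Finite (Mono.FC N) (Mono.FC (N * ℓ)) := finiteAlong_alpha ℂ N ℓ
    exact Algebra.norm_ne_zero_iff.mpr hβx
  · have hmD : ∀ u, ((m : ℤ) • D) u = u.ord x := fun u => by
      rw [Finsupp.smul_apply, smul_eq_mul, hD]
    rw [← smul_eq_mul, ← Finsupp.smul_apply, ← map_zsmul, Divisor.correspondence_apply]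
    exact pushforwardAlong_eq_ord_normAlong _ _ (finiteAlong_alpha ℂ N ℓ) (normFormulaAlong _ _)
      hβx (pullbackAlong_apply_eq_ord _ _ hmD) v
  · refine MDifferentiable.prod fun q _ => ?_
    rw [ModularForm.SL_slash]
    exact (MF.mdiff_affH ℓ 1 0 hd).slash _ _
  · rw [← Finset.prod_pow, ← Finset.prod_pow, ← Finset.prod_mul_distrib]
    refine Finset.prod_congr rfl fun q _ => ?_
    have hm : 1 ≤ m := Nat.one_le_iff_ne_zero.mpr (NeZero.ne m)
    rw [← Mono.pow_slash_SL2, ← Mono.pow_slash_SL2, ← ModularForm.mul_slash_SL2,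
      show k + ((m - 1 : ℕ) : ℤ) * k = (m : ℤ) * k by rw [Nat.cast_sub hm]; ring]
    congr 1
    funext τ
    exact congrFun hp (MF.scale ℓ τ)

end Fermat.Agent.Hecke

end
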